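/-
Programme S58 (elliptic Eichler–Shimura relation), PART I, shared leaf (helper2), Mathlib only:
**the Frobenius `z ↦ z ^ ℓ` of a `ZMod ℓ`-algebra, as a `ZMod ℓ`-algebra endomorphism.**

* `frobAlg ℓ L : L →ₐ[ZMod ℓ] L`, `frobAlg_apply : frobAlg ℓ L z = z ^ ℓ` (by `rfl`);
* `map_frobAlg`, `comp_frobAlg` : it commutes with every `ZMod ℓ`-algebra hom;
* `pointMap_frobAlg_comm` : … hence `Point.map f (Point.map frob P) = Point.map frob (Point.map f P)`;
* `frobAlg_injective` (on reduced rings, e.g. fields); `frobAlg_iterate`.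
-/
import Mathlib

set_option autoImplicit false

namespace Fermat.Agent.ES.Q58.FrobAlg2

open WeierstrassCurve WeierstrassCurve.Affine

variable (ℓ : ℕ) [Fact ℓ.Prime]

/-- a nontrivial `ZMod ℓ`-algebra has characteristic `ℓ`. -/
theorem charP_of_algebra (L : Type*) [CommRing L] [Nontrivial L] [Algebra (ZMod ℓ) L] : CharP L ℓ :=
  charP_of_injective_algebraMap (algebraMap (ZMod ℓ) L).injective ℓ

/-- **the Frobenius `z ↦ z ^ ℓ`** of a `ZMod ℓ`-algebra. -/
noncomputable def frobAlg (L : Type*) [CommRing L] [Algebra (ZMod ℓ) L] : L →ₐ[ZMod ℓ] L where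
  toFun z := z ^ ℓ
  map_one' := one_pow _
  map_mul' a b := mul_pow a b ℓ
  map_zero' := zero_pow (Fact.out : ℓ.Prime).ne_zero
  map_add' a b := by
    nontriviality L
    have := charP_of_algebra ℓ L
    exact add_pow_char a b ℓ
  commutes' a := by
    show (algebraMap (ZMod ℓ) L a) ^ ℓ = algebraMap (ZMod ℓ) L a
    rw [← map_pow, ZMod.pow_card]

variable {L : Type*} [CommRing L] [Algebra (ZMod ℓ) L] {L' : Type*} [CommRing L'] [Algebra (ZMod ℓ) L']

@[simp] theorem frobAlg_apply (z : L) : frobAlg ℓ L z = z ^ ℓ := rfl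

/-- Frobenius commutes with every `ZMod ℓ`-algebra hom. -/
theorem map_frobAlg (f : L →ₐ[ZMod ℓ] L') (z : L) : f (frobAlg ℓ L z) = frobAlg ℓ L' (f z) := by
  rw [frobAlg_apply, frobAlg_apply, map_pow]

theorem comp_frobAlg (f : L →ₐ[ZMod ℓ] L') : f.comp (frobAlg ℓ L) = (frobAlg ℓ L').comp f :=
  AlgHom.ext fun z => map_frobAlg ℓ f z

theorem frobAlg_iterate (n : ℕ) (z : L) : (frobAlg ℓ L)^[n] z = z ^ ℓ ^ n := by
  induction n generalizing z with
  | zero => simp
  | succ n ih => rw [Function.iterate_succ_apply, ih, frobAlg_apply, ← pow_mul, pow_succ']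

theorem frobAlg_injective [IsReduced L] : Function.Injective (frobAlg ℓ L) := by
  intro a b hab
  nontriviality L
  have := charP_of_algebra ℓ L
  exact frobenius_inj L ℓ hab

section Points

variable {F : Type*} [Field F] [Algebra (ZMod ℓ) F] {F' : Type*} [Field F'] [Algebra (ZMod ℓ) F']
  [DecidableEq F] [DecidableEq F'] (W : Affine (ZMod ℓ))

/-- Frobenius on points commutes with the map induced by any `ZMod ℓ`-algebra hom. -/
theorem pointMap_frobAlg_comm (f : F →ₐ[ZMod ℓ] F') (P : (W⁄F).Point) :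
    Point.map (W' := W) f (Point.map (W' := W) (frobAlg ℓ F) P) =
      Point.map (W' := W) (frobAlg ℓ F') (Point.map (W' := W) f P) := by
  rw [Point.map_map, Point.map_map, comp_frobAlg]

end Points

end Fermat.Agent.ES.Q58.FrobAlg2
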