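/-
Programme Q (S58), PART I, brick I-1 (helper1): **the `x`-degree of a point of `W(K)`, `K = k(W)`.**

`k` any field, `W : WeierstrassCurve.Affine k`, `K = W.FunctionField`, `c = algebraMap k[X] K`.

* `IsRep W P U V` : `(U : V)` is a coprime representative of the `x`-coordinate of `P`
  (`P.xRep 0 * c V = P.xRep 1 * c U`; so `x_P * c V = c U` for an affine point and `V = 0`, `U` a unit at `0`);
* `xdeg W P : ℕ` : `PLPoly2.ht U V` for any representative, `0` if there is none;
  `xdeg_eq_of_isRep` (**any coprime representative computes it**), `xdeg_some_eq`, `xdeg_zero`, `xdeg_neg`,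
  `exists_isRep_of_mem_oddPoints`;
* `xdeg_parallelogram` : the exact parallelogram law on `oddPoints W`;
* `xdeg_genericPoint : xdeg W P₀ = 1`;
* `xdeg_eq_zero_iff` : for an odd point, `xdeg R = 0 ↔ R = 0 ∨ x_R ∈ k`;
* `transcendental_of_xdeg_pos` : `0 < xdeg (x, y) → x` transcendental over `k`;
* `dZ W : ↥(oddPoints W) → ℤ` with `dZ_parallelogram` (the shape used by `QuadRel18`), and its consequences
  `dZ_zsmul`, `xdeg_zsmul`, `xdeg_nsmul_genericPoint`;
* `frobAlg_iota`, `map_frobAlg_mem_oddPoints` : the Frobenius `FrobAlg2.frobAlg ℓ K` commutes with `ι` and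
  preserves the odd points.
-/
import Fermat.Agent.ES.Q58.IotaDescent23
import Fermat.Agent.ES.Q58.PLCurve2
import Fermat.Agent.ES.Q58.PLPoly2
import Fermat.Agent.ES.Q58.SubstEmb17
import Fermat.Agent.ES.Q58.QuadRel18
import Fermat.Agent.ES.Q58.FrobAlg2

set_option autoImplicit false

open Polynomial
open scoped Polynomial.Bivariate

namespace Fermat.Agent.ES.Q58.XDeg1

open WeierstrassCurve WeierstrassCurve.Affine
open Fermat.Agent.ES.Q58.IotaDescent23 Fermat.Agent.ES.Q58.PLPoly2 Fermat.Agent.ES.Q58.PLForms2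

variable {k : Type*} [Field k] (W : Affine k)

/-! ### representatives of the `x`-coordinate -/

/-- `(U : V)` is a coprime representative of the `x`-coordinate of `P` (`(1 : 0)` at infinity). -/
def IsRep (P : (W⁄W.FunctionField).Point) (U V : k[X]) : Prop :=
  IsCoprime U V ∧
    P.xRep 0 * algebraMap k[X] W.FunctionField V = P.xRep 1 * algebraMap k[X] W.FunctionField U

theorem isRep_some_iff {x y : W.FunctionField} (h : (W⁄W.FunctionField).Nonsingular x y)
    (U V : k[X]) :
    IsRep W (Point.some x y h) U V ↔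
      IsCoprime U V ∧ x * algebraMap k[X] W.FunctionField V = algebraMap k[X] W.FunctionField U := by
  unfold IsRep
  rw [Point.xRep_some]
  simp

theorem isRep_zero_iff (U V : k[X]) :
    IsRep W (0 : (W⁄W.FunctionField).Point) U V ↔ IsCoprime U V ∧ V = 0 := by
  unfold IsRep
  rw [Point.xRep_zero]
  simp only [Matrix.cons_val_zero, Matrix.cons_val_one, one_mul, zero_mul]
  constructor
  · rintro ⟨h1, h2⟩
    exact ⟨h1, SubstEmb17.algebraMap_functionField_injective W (by rw [h2, map_zero])⟩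
  · rintro ⟨h1, rfl⟩
    exact ⟨h1, map_zero _⟩

theorem isRep_zero : IsRep W (0 : (W⁄W.FunctionField).Point) 1 0 :=
  (isRep_zero_iff W 1 0).mpr ⟨isCoprime_one_left, rfl⟩

theorem isRep_neg_iff (P : (W⁄W.FunctionField).Point) (U V : k[X]) :
    IsRep W (-P) U V ↔ IsRep W P U V := by
  unfold IsRep
  rw [Point.xRep_neg]

variable {W}

theorem IsRep.isCoprime {P : (W⁄W.FunctionField).Point} {U V : k[X]} (h : IsRep W P U V) :
    IsCoprime U V := h.1

/-- a representative is `(x e : e)` resp. `(e : 0)` for a nonzero scalar `e`. -/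
theorem IsRep.exists_scale {P : (W⁄W.FunctionField).Point} {U V : k[X]} (h : IsRep W P U V) :
    ∃ e : W.FunctionField, e ≠ 0 ∧ P.xRep 0 * e = algebraMap k[X] W.FunctionField U ∧
      P.xRep 1 * e = algebraMap k[X] W.FunctionField V := by
  have hinj := SubstEmb17.algebraMap_functionField_injective W
  rcases P with _ | ⟨x, y, hP⟩
  · have h' := (isRep_zero_iff W U V).mp h
    obtain ⟨hc, rfl⟩ := h'
    have hU : U ≠ 0 := by
      rintro rfl
      exact not_isCoprime_zero_zero hc
    refine ⟨algebraMap k[X] W.FunctionField U, ?_, ?_, ?_⟩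
    · rwa [Ne, map_eq_zero_iff _ hinj]
    · rw [← Point.zero_def, Point.xRep_zero]; simp
    · rw [← Point.zero_def, Point.xRep_zero]; simp
  · obtain ⟨hc, hx⟩ := (isRep_some_iff W hP U V).mp h
    have hV : V ≠ 0 := by
      rintro rfl
      rw [map_zero, mul_zero] at hx
      have hU : U = 0 := hinj (by rw [← hx, map_zero])
      rw [hU] at hc
      exact not_isCoprime_zero_zero hc
    refine ⟨algebraMap k[X] W.FunctionField V, ?_, ?_, ?_⟩
    · rwa [Ne, map_eq_zero_iff _ hinj]
    · rw [Point.xRep_some]; simpa using hx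
    · rw [Point.xRep_some]; simp

/-- two representatives of the same point are proportional. -/
theorem IsRep.cross {P : (W⁄W.FunctionField).Point} {U V U' V' : k[X]} (h : IsRep W P U V)
    (h' : IsRep W P U' V') : U * V' = U' * V := by
  apply SubstEmb17.algebraMap_functionField_injective W
  obtain ⟨e, -, h0, h1⟩ := h.exists_scale
  obtain ⟨e', -, h0', h1'⟩ := h'.exists_scale
  rw [map_mul, map_mul, ← h0, ← h1, ← h0', ← h1']
  ring

/-- **two representatives of the same point have the same height.** -/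
theorem IsRep.ht_eq {P : (W⁄W.FunctionField).Point} {U V U' V' : k[X]} (h : IsRep W P U V)
    (h' : IsRep W P U' V') : ht U V = ht U' V' := by
  have hx := h.cross h'
  have hU : Associated U U' := by
    apply associated_of_dvd_dvd
    · exact h.1.dvd_of_dvd_mul_right ⟨V', by rw [hx]⟩
    · exact h'.1.dvd_of_dvd_mul_right ⟨V, by rw [hx]⟩
  have hV : Associated V V' := by
    apply associated_of_dvd_dvd
    · exact h.1.symm.dvd_of_dvd_mul_left ⟨U', by rw [hx]; ring⟩
    · exact h'.1.symm.dvd_of_dvd_mul_left ⟨U, by rw [← hx]; ring⟩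
  unfold ht
  rw [natDegree_eq_of_degree_eq (degree_eq_degree_of_associated hU),
    natDegree_eq_of_degree_eq (degree_eq_degree_of_associated hV)]

variable (W)

/-! ### the `x`-degree -/

open Classical in
/-- **the `x`-degree** of a point of `W(K)`: the height of a coprime representative of its
`x`-coordinate (`0` if there is none, e.g. at infinity, where the representative is `(1 : 0)`). -/
noncomputable def xdeg (P : (W⁄W.FunctionField).Point) : ℕ :=
  if h : ∃ U V : k[X], IsRep W P U V then ht h.choose h.choose_spec.choose else 0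

variable {W}

/-- **any coprime representative computes the `x`-degree.** -/
theorem xdeg_eq_of_isRep {P : (W⁄W.FunctionField).Point} {U V : k[X]} (h : IsRep W P U V) :
    xdeg W P = ht U V := by
  have hex : ∃ U V : k[X], IsRep W P U V := ⟨U, V, h⟩
  unfold xdeg
  rw [dif_pos hex]
  exact hex.choose_spec.choose_spec.ht_eq h

theorem xdeg_eq_zero_of_not_exists {P : (W⁄W.FunctionField).Point}
    (h : ¬ ∃ U V : k[X], IsRep W P U V) : xdeg W P = 0 := by
  unfold xdeg
  rw [dif_neg h]

/-- a point of positive `x`-degree has a representative. -/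
theorem exists_isRep_of_xdeg_pos {P : (W⁄W.FunctionField).Point} (h : 0 < xdeg W P) :
    ∃ U V : k[X], IsRep W P U V := by
  by_contra hcon
  rw [xdeg_eq_zero_of_not_exists hcon] at h
  exact lt_irrefl 0 h

/-- **the `x`-degree of an affine point**, from any coprime representative of its `x`-coordinate. -/
theorem xdeg_some_eq {x y : W.FunctionField} (h : (W⁄W.FunctionField).Nonsingular x y)
    {U V : k[X]} (hUV : IsCoprime U V)
    (hx : x * algebraMap k[X] W.FunctionField V = algebraMap k[X] W.FunctionField U) :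
    xdeg W (Point.some x y h) = ht U V :=
  xdeg_eq_of_isRep ((isRep_some_iff W h U V).mpr ⟨hUV, hx⟩)

variable (W)

theorem xdeg_zero : xdeg W (0 : (W⁄W.FunctionField).Point) = 0 := by
  rw [xdeg_eq_of_isRep (isRep_zero W)]
  simp [ht]

theorem xdeg_neg (P : (W⁄W.FunctionField).Point) : xdeg W (-P) = xdeg W P := by
  by_cases h : ∃ U V : k[X], IsRep W P U V
  · obtain ⟨U, V, hUV⟩ := h
    rw [xdeg_eq_of_isRep hUV, xdeg_eq_of_isRep ((isRep_neg_iff W P U V).mpr hUV)]
  · have h' : ¬ ∃ U V : k[X], IsRep W (-P) U V := by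
      rintro ⟨U, V, hUV⟩
      exact h ⟨U, V, (isRep_neg_iff W P U V).mp hUV⟩
    rw [xdeg_eq_zero_of_not_exists h, xdeg_eq_zero_of_not_exists h']

/-- the `x`-degree only depends on the `x`-coordinate. -/
theorem xdeg_some_congr {x y y' : W.FunctionField} (h : (W⁄W.FunctionField).Nonsingular x y)
    (h' : (W⁄W.FunctionField).Nonsingular x y') :
    xdeg W (Point.some x y h) = xdeg W (Point.some x y' h') := by
  by_cases hex : ∃ U V : k[X], IsRep W (Point.some x y h) U V
  · obtain ⟨U, V, hUV⟩ := hex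
    have hUV' : IsRep W (Point.some x y' h') U V :=
      (isRep_some_iff W h' U V).mpr ((isRep_some_iff W h U V).mp hUV)
    rw [xdeg_eq_of_isRep hUV, xdeg_eq_of_isRep hUV']
  · have hex' : ¬ ∃ U V : k[X], IsRep W (Point.some x y' h') U V := by
      rintro ⟨U, V, hUV⟩
      exact hex ⟨U, V, (isRep_some_iff W h U V).mpr ((isRep_some_iff W h' U V).mp hUV)⟩
    rw [xdeg_eq_zero_of_not_exists hex, xdeg_eq_zero_of_not_exists hex']

/-- **a point of positive `x`-degree has transcendental `x`-coordinate.** -/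
theorem transcendental_of_xdeg_pos {x y : W.FunctionField}
    (h : (W⁄W.FunctionField).Nonsingular x y) (hpos : 0 < xdeg W (Point.some x y h)) :
    Transcendental k x := by
  obtain ⟨U, V, hUV⟩ := exists_isRep_of_xdeg_pos hpos
  rw [xdeg_eq_of_isRep hUV] at hpos
  obtain ⟨hc, hx⟩ := (isRep_some_iff W h U V).mp hUV
  exact SubstEmb17.transcendental_of_isCoprime W hc hpos hx

/-- the curve `W` over `k[X]` becomes `W⁄K` over `K`. -/
theorem map_Wt : (Wt W).map (algebraMap k[X] W.FunctionField) = W⁄W.FunctionField := by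
  rw [Wt, WeierstrassCurve.map_map]
  have : (algebraMap k[X] W.FunctionField).comp (C : k →+* k[X]) = algebraMap k W.FunctionField := by
    ext a
    exact (algebraMap_eq_coordinateRing W a).symm
  rw [this]
  rfl

/-- an affine point with constant `x`-coordinate has `x`-degree `0`. -/
theorem xdeg_some_algebraMap (a : k) {y : W.FunctionField}
    (h : (W⁄W.FunctionField).Nonsingular (algebraMap k W.FunctionField a) y) :
    xdeg W (Point.some _ y h) = 0 := by
  rw [xdeg_some_eq h (U := C a) (V := 1) isCoprime_one_right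
    (by rw [map_one, mul_one, algebraMap_eq_coordinateRing])]
  simp [ht]

variable [DecidableEq W.FunctionField]

/-! ### odd points -/

/-- **every odd point has a coprime representative.** -/
theorem exists_isRep_of_mem_oddPoints (hΔ : W.Δ ≠ 0) {P : (W⁄W.FunctionField).Point}
    (hP : P ∈ oddPoints W) : ∃ U V : k[X], IsRep W P U V := by
  rcases P with _ | ⟨x, y, h⟩
  · exact ⟨1, 0, isRep_zero W⟩
  · obtain ⟨U, V, hc, -, hx⟩ := exists_coprime_x_of_mem_oddPoints W hΔ h hP
    exact ⟨U, V, (isRep_some_iff W h U V).mpr ⟨hc, hx⟩⟩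

/-- **the exact parallelogram law** for the `x`-degree on the odd points. -/
theorem xdeg_parallelogram (hΔ : W.Δ ≠ 0) {R S : (W⁄W.FunctionField).Point}
    (hR : R ∈ oddPoints W) (hS : S ∈ oddPoints W) :
    xdeg W (R + S) + xdeg W (R - S) = 2 * xdeg W R + 2 * xdeg W S := by
  obtain ⟨U₁, V₁, h₁⟩ := exists_isRep_of_mem_oddPoints W hΔ hR
  obtain ⟨U₂, V₂, h₂⟩ := exists_isRep_of_mem_oddPoints W hΔ hS
  obtain ⟨U₃, V₃, h₃⟩ := exists_isRep_of_mem_oddPoints W hΔ (add_mem hR hS)
  obtain ⟨U₄, V₄, h₄⟩ := exists_isRep_of_mem_oddPoints W hΔ (sub_mem hR hS)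
  rw [xdeg_eq_of_isRep h₁, xdeg_eq_of_isRep h₂, xdeg_eq_of_isRep h₃, xdeg_eq_of_isRep h₄]
  obtain ⟨e₁, he₁, r0, r1⟩ := h₁.exists_scale
  obtain ⟨e₂, he₂, s0, s1⟩ := h₂.exists_scale
  obtain ⟨e₃, he₃, p0, p1⟩ := h₃.exists_scale
  obtain ⟨e₄, he₄, m0, m1⟩ := h₄.exists_scale
  obtain ⟨c0, hc0, g0, g1, g2⟩ := PLCurve2.addsub_rel R S
  set cc := algebraMap k[X] W.FunctionField with hcc
  have hinj : Function.Injective cc := SubstEmb17.algebraMap_functionField_injective W
  -- the three proportionalities over `K`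
  have k0 : (e₃ * e₄) * cc (G0 U₁ V₁ U₂ V₂) = (e₁ ^ 2 * e₂ ^ 2 * c0) * cc (V₃ * V₄) := by
    rw [map_G0, map_mul, ← r0, ← r1, ← s0, ← s1, ← p1, ← m1]
    simp only [G0] at g0 ⊢
    linear_combination (e₁ ^ 2 * e₂ ^ 2 * e₃ * e₄) * g0
  have k1 : (e₃ * e₄) * cc (G1 (Wt W) U₁ V₁ U₂ V₂) =
      (e₁ ^ 2 * e₂ ^ 2 * c0) * cc (U₃ * V₄ + U₄ * V₃) := by
    rw [map_G1, map_Wt, map_add, map_mul, map_mul, ← r0, ← r1, ← s0, ← s1, ← p0, ← p1, ← m0, ← m1]
    simp only [G1] at g1 ⊢
    linear_combination (e₁ ^ 2 * e₂ ^ 2 * e₃ * e₄) * g1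
  have k2 : (e₃ * e₄) * cc (G2 (Wt W) U₁ V₁ U₂ V₂) = (e₁ ^ 2 * e₂ ^ 2 * c0) * cc (U₃ * U₄) := by
    rw [map_G2, map_Wt, map_mul, ← r0, ← r1, ← s0, ← s1, ← p0, ← m0]
    simp only [G2] at g2 ⊢
    linear_combination (e₁ ^ 2 * e₂ ^ 2 * e₃ * e₄) * g2
  -- the scalar is a polynomial
  obtain ⟨a, b, d, hab⟩ := (prim3_sym h₃.1 h₄.1).exists_bezout
  set e₀ : k[X] := a * G0 U₁ V₁ U₂ V₂ + b * G1 (Wt W) U₁ V₁ U₂ V₂ + d * G2 (Wt W) U₁ V₁ U₂ V₂
    with he₀
  have hν : e₃ * e₄ ≠ 0 := mul_ne_zero he₃ he₄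
  have hμ : e₁ ^ 2 * e₂ ^ 2 * c0 ≠ 0 :=
    mul_ne_zero (mul_ne_zero (pow_ne_zero 2 he₁) (pow_ne_zero 2 he₂)) hc0
  have hscal : (e₃ * e₄) * cc e₀ = e₁ ^ 2 * e₂ ^ 2 * c0 := by
    have h1 : cc (a * (V₃ * V₄) + b * (U₃ * V₄ + U₄ * V₃) + d * (U₃ * U₄)) = 1 := by
      rw [hab, map_one]
    rw [he₀, map_add, map_add, map_mul, map_mul, map_mul]
    rw [map_add (f := cc) (a * (V₃ * V₄) + b * (U₃ * V₄ + U₄ * V₃)), map_add (f := cc) (a * (V₃ * V₄)),
      map_mul (f := cc) a, map_mul (f := cc) b, map_mul (f := cc) d] at h1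
    linear_combination cc a * k0 + cc b * k1 + cc d * k2 + (e₁ ^ 2 * e₂ ^ 2 * c0) * h1
  have he₀0 : e₀ ≠ 0 := by
    rintro h0
    rw [h0, map_zero, mul_zero] at hscal
    exact hμ hscal.symm
  refine parallelogram W hΔ h₁.1 h₂.1 h₃.1 h₄.1 (e := e₀) (e' := 1) he₀0 ?_ ?_ ?_
  · apply hinj
    apply mul_left_cancel₀ hν
    rw [one_mul, k0, map_mul, ← mul_assoc, hscal]
  · apply hinj
    apply mul_left_cancel₀ hν
    rw [one_mul, k1, map_mul, ← mul_assoc, hscal]
  · apply hinj
    apply mul_left_cancel₀ hν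
    rw [one_mul, k2, map_mul, ← mul_assoc, hscal]

/-! ### the generic point, and the points of `x`-degree `0` -/

omit [DecidableEq W.FunctionField] in
/-- **the generic point has `x`-degree `1`.** -/
theorem xdeg_genericPoint (hΔ : W.Δ ≠ 0) : xdeg W (IotaDescent23.genericPoint W hΔ) = 1 := by
  unfold IotaDescent23.genericPoint
  rw [xdeg_some_eq (nonsingular_xK_yK W hΔ) (U := X) (V := 1) isCoprime_one_right
    (by rw [map_one, mul_one]; rfl)]
  simp [ht]

/-- **the odd points of `x`-degree `0`** are `0` and the points with constant `x`-coordinate. -/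
theorem xdeg_eq_zero_iff (hΔ : W.Δ ≠ 0) {R : (W⁄W.FunctionField).Point} (hR : R ∈ oddPoints W) :
    xdeg W R = 0 ↔ R = 0 ∨ ∃ (a : k) (y : W.FunctionField)
      (h : (W⁄W.FunctionField).Nonsingular (algebraMap k W.FunctionField a) y),
      R = Point.some _ y h := by
  constructor
  · intro h0
    rcases R with _ | ⟨x, y, h⟩
    · exact Or.inl rfl
    · right
      obtain ⟨U, V, hUV⟩ := exists_isRep_of_mem_oddPoints W hΔ hR
      rw [xdeg_eq_of_isRep hUV] at h0
      obtain ⟨hc, hx⟩ := (isRep_some_iff W h U V).mp hUV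
      have hU0 : U.natDegree = 0 := Nat.le_zero.mp (h0 ▸ natDegree_le_ht_left U V)
      have hV0 : V.natDegree = 0 := Nat.le_zero.mp (h0 ▸ natDegree_le_ht_right U V)
      rw [eq_C_of_natDegree_eq_zero hU0, eq_C_of_natDegree_eq_zero hV0] at hx hc
      set u := U.coeff 0
      set v := V.coeff 0
      have hv : v ≠ 0 := by
        rintro hv
        rw [hv, map_zero, map_zero, mul_zero] at hx
        have hu : C u = 0 := SubstEmb17.algebraMap_functionField_injective W (by rw [← hx, map_zero])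
        rw [hv, hu, map_zero] at hc
        exact not_isCoprime_zero_zero hc
      have hxa : x = algebraMap k W.FunctionField (u / v) := by
        rw [← algebraMap_eq_coordinateRing, ← algebraMap_eq_coordinateRing] at hx
        have hv' : algebraMap k W.FunctionField v ≠ 0 := by
          rwa [Ne, map_eq_zero_iff _ (algebraMap k W.FunctionField).injective]
        rw [map_div₀, eq_div_iff hv', hx]
      subst hxa
      exact ⟨u / v, y, h, rfl⟩
  · rintro (rfl | ⟨a, y, h, rfl⟩)
    · exact xdeg_zero W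
    · exact xdeg_some_algebraMap W a h

/-! ### the `ℤ`-valued quadratic function on the group of odd points -/

/-- the `x`-degree as a `ℤ`-valued function on the group of odd points (the shape used by
`QuadRel18`). -/
noncomputable def dZ : ↥(oddPoints W) → ℤ := fun R => (xdeg W (R : (W⁄W.FunctionField).Point) : ℤ)

theorem dZ_apply (R : ↥(oddPoints W)) : dZ W R = (xdeg W (R : (W⁄W.FunctionField).Point) : ℤ) := rfl

theorem dZ_nonneg (R : ↥(oddPoints W)) : 0 ≤ dZ W R := Int.natCast_nonneg _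

/-- **the exact parallelogram law**, in the shape `hPL` of `QuadRel18`. -/
theorem dZ_parallelogram (hΔ : W.Δ ≠ 0) (x y : ↥(oddPoints W)) :
    dZ W (x + y) + dZ W (x - y) = 2 * dZ W x + 2 * dZ W y := by
  have h := xdeg_parallelogram W hΔ x.2 y.2
  simp only [dZ_apply, AddSubgroup.coe_add, AddSubgroup.coe_sub]
  exact_mod_cast h

theorem dZ_zsmul (hΔ : W.Δ ≠ 0) (n : ℤ) (x : ↥(oddPoints W)) : dZ W (n • x) = n ^ 2 * dZ W x :=
  QuadRel18.d_zsmul (dZ_parallelogram W hΔ) n x

/-- `xdeg (n • R) = n² xdeg R` on odd points. -/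
theorem xdeg_zsmul (hΔ : W.Δ ≠ 0) (n : ℤ) {R : (W⁄W.FunctionField).Point} (hR : R ∈ oddPoints W) :
    (xdeg W (n • R) : ℤ) = n ^ 2 * xdeg W R := by
  have h := dZ_zsmul W hΔ n ⟨R, hR⟩
  simpa only [dZ_apply, AddSubgroup.coe_zsmul] using h

/-- `xdeg (n • P₀) = n²`. -/
theorem xdeg_zsmul_genericPoint (hΔ : W.Δ ≠ 0) (n : ℤ) :
    (xdeg W (n • IotaDescent23.genericPoint W hΔ) : ℤ) = n ^ 2 := by
  rw [xdeg_zsmul W hΔ n (genericPoint_mem_oddPoints W hΔ), xdeg_genericPoint, Nat.cast_one, mul_one]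

/-! ### Frobenius (`FrobAlg2.frobAlg`) and the odd points -/

section Frobenius

open Fermat.Agent.ES.Q58.FrobAlg2

variable (ℓ : ℕ) [Fact ℓ.Prime]

/-- Frobenius of the function field commutes with the hyperelliptic involution. -/
theorem frobAlg_iota (W₀ : Affine (ZMod ℓ)) (z : W₀.FunctionField) :
    frobAlg ℓ W₀.FunctionField (iota W₀ z) = iota W₀ (frobAlg ℓ W₀.FunctionField z) := by
  simp only [frobAlg_apply, map_pow]

/-- Frobenius preserves the odd points. -/
theorem map_frobAlg_mem_oddPoints (W₀ : Affine (ZMod ℓ)) [DecidableEq W₀.FunctionField]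
    {R : (W₀⁄W₀.FunctionField).Point} (hR : R ∈ oddPoints W₀) :
    Point.map (W' := W₀) (frobAlg ℓ W₀.FunctionField) R ∈ oddPoints W₀ :=
  map_mem_oddPoints W₀ (frobAlg ℓ W₀.FunctionField) (frobAlg_iota ℓ W₀) hR

end Frobenius

end Fermat.Agent.ES.Q58.XDeg1
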