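/-
Programme S58 (elliptic Eichler–Shimura relation), PART I, brick (I-2) (helper2), Mathlib + `PLPoly2` only:
**composition of rational functions multiplies heights.**

`k` a field, `U V A B : k[X]`, `n : ℕ`.
* `homogVia φ P n a b = ∑ i ≤ n, φ (P.coeff i) * a ^ i * b ^ (n - i)` : the homogenisation of `P` in degree `n`
  evaluated at `(a, b)` (coefficients transported along a ring hom `φ`);
* `homog P n A B = ∑ i ≤ n, C (P.coeff i) * A ^ i * B ^ (n - i) : k[X]` : the numerator of `P (A / B)`;
* `isCoprime_homog` : `U, V` coprime, `A, B` coprime, `n = ht U V` ⟹ `homog U n A B`, `homog V n A B` coprime;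
* `ht_homog` : … and `ht (homog U n A B) (homog V n A B) = ht U V * ht A B`;
* `aeval_homog_mul` : the evaluation identity: in a field `F ⊇ k`, if `x · B(t) = A(t)` and `z · V(x) = U(x)` then
  `z · (homog V n A B)(t) = (homog U n A B)(t)`.
-/
import Fermat.Agent.ES.Q58.PLPoly2

set_option autoImplicit false

namespace Fermat.Agent.ES.Q58.RatComp2

open Polynomial Finset Fermat.Agent.ES.Q58.PLPoly2

variable {k : Type*} [Field k]

/-! ### homogenisation, evaluated along a ring hom -/

/-- `∑ i ≤ n, φ (P.coeff i) * a ^ i * b ^ (n - i)` -/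
noncomputable def homogVia {R : Type*} [CommRing R] (φ : k →+* R) (P : k[X]) (n : ℕ) (a b : R) : R :=
  ∑ i ∈ range (n + 1), φ (P.coeff i) * a ^ i * b ^ (n - i)

/-- the numerator of `P (A / B)`: `∑ i ≤ n, C (P.coeff i) * A ^ i * B ^ (n - i)`. -/
noncomputable def homog (P : k[X]) (n : ℕ) (A B : k[X]) : k[X] :=
  ∑ i ∈ range (n + 1), C (P.coeff i) * A ^ i * B ^ (n - i)

theorem homog_eq_homogVia (P : k[X]) (n : ℕ) (A B : k[X]) : homog P n A B = homogVia C P n A B := rfl

theorem map_homogVia {R S : Type*} [CommRing R] [CommRing S] (φ : k →+* R) (ψ : R →+* S) (P : k[X])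
    (n : ℕ) (a b : R) : ψ (homogVia φ P n a b) = homogVia (ψ.comp φ) P n (ψ a) (ψ b) := by
  simp only [homogVia, map_sum, map_mul, map_pow, RingHom.comp_apply]

/-- at `b = 0` only the top term survives. -/
theorem homogVia_zero_right {R : Type*} [CommRing R] (φ : k →+* R) (P : k[X]) (n : ℕ) (a : R) :
    homogVia φ P n a 0 = φ (P.coeff n) * a ^ n := by
  unfold homogVia
  rw [Finset.sum_eq_single n]
  · simp
  · intro i hi hin
    have : i < n := lt_of_le_of_ne (Nat.lt_succ_iff.mp (Finset.mem_range.mp hi)) hin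
    have h0 : n - i ≠ 0 := by omega
    rw [zero_pow h0, mul_zero]
  · intro h
    exact absurd (Finset.mem_range.mpr (Nat.lt_succ_self n)) h

/-- for `b ≠ 0` in a field, `homogVia` is `b ^ n * P (a / b)`. -/
theorem homogVia_eq_eval₂ {F : Type*} [Field F] (φ : k →+* F) (P : k[X]) (n : ℕ) (hn : P.natDegree ≤ n)
    (a b : F) (hb : b ≠ 0) : homogVia φ P n a b = b ^ n * P.eval₂ φ (a / b) := by
  rw [eval₂_eq_sum_range' φ (Nat.lt_succ_of_le hn), Finset.mul_sum]
  unfold homogVia
  refine Finset.sum_congr rfl fun i hi => ?_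
  have hin : i ≤ n := Nat.lt_succ_iff.mp (Finset.mem_range.mp hi)
  have hbn : b ^ n = b ^ i * b ^ (n - i) := by rw [← pow_add]; congr 1; omega
  rw [div_pow, hbn]
  have hbi : b ^ i ≠ 0 := pow_ne_zero _ hb
  field_simp

/-- **the homogenisations of two coprime polynomials have no common nontrivial zero**
(in degree `n = ht U V`). -/
theorem not_homogVia_eq_zero {F : Type*} [Field F] (φ : k →+* F) {U V : k[X]} (h : IsCoprime U V)
    {a b : F} (hab : a ≠ 0 ∨ b ≠ 0) (hU : homogVia φ U (ht U V) a b = 0)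
    (hV : homogVia φ V (ht U V) a b = 0) : False := by
  by_cases hb : b = 0
  · subst hb
    have ha : a ≠ 0 := by simpa using hab
    rw [homogVia_zero_right] at hU hV
    have hU' : U.coeff (ht U V) = 0 := by
      have := (mul_eq_zero.mp hU).resolve_right (pow_ne_zero _ ha)
      exact (map_eq_zero φ).mp this
    have hV' : V.coeff (ht U V) = 0 := by
      have := (mul_eq_zero.mp hV).resolve_right (pow_ne_zero _ ha)
      exact (map_eq_zero φ).mp this
    rcases top_ne_zero (ne_zero_of_isCoprime h) with h1 | h1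
    · exact h1 hU'
    · exact h1 hV'
  · rw [homogVia_eq_eval₂ φ U _ (natDegree_le_ht_left U V) a b hb] at hU
    rw [homogVia_eq_eval₂ φ V _ (natDegree_le_ht_right U V) a b hb] at hV
    have hU' : U.eval₂ φ (a / b) = 0 := (mul_eq_zero.mp hU).resolve_left (pow_ne_zero _ hb)
    have hV' : V.eval₂ φ (a / b) = 0 := (mul_eq_zero.mp hV).resolve_left (pow_ne_zero _ hb)
    obtain ⟨p, q, hpq⟩ := h
    have := congrArg (eval₂ φ (a / b)) hpq
    rw [eval₂_add, eval₂_mul, eval₂_mul, hU', hV', eval₂_one] at this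
    simp at this

/-! ### coprimality -/

theorem not_prime_dvd_homog {U V A B : k[X]} (hUV : IsCoprime U V) (hAB : IsCoprime A B) {π : k[X]}
    (hπ : Prime π) (hU : π ∣ homog U (ht U V) A B) (hV : π ∣ homog V (ht U V) A B) : False := by
  have : Fact (Irreducible π) := ⟨hπ.irreducible⟩
  let ψ : k[X] →+* AdjoinRoot π := AdjoinRoot.mk π
  have hψ : ∀ P : k[X], ψ P = 0 ↔ π ∣ P := fun P => AdjoinRoot.mk_eq_zero
  have e1 := (hψ _).mpr hU
  have e2 := (hψ _).mpr hV
  rw [homog_eq_homogVia, map_homogVia] at e1 e2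
  refine not_homogVia_eq_zero (ψ.comp C) hUV ?_ e1 e2
  by_contra hcon
  push Not at hcon
  exact not_dvd_both hAB hπ ((hψ _).mp hcon.1) ((hψ _).mp hcon.2)

/-- **(I-2), coprimality.** -/
theorem isCoprime_homog {U V A B : k[X]} (hUV : IsCoprime U V) (hAB : IsCoprime A B) :
    IsCoprime (homog U (ht U V) A B) (homog V (ht U V) A B) := by
  refine isCoprime_of_prime_dvd ?_ fun π hπ hU hV => not_prime_dvd_homog hUV hAB hπ hU hV
  rintro ⟨h1, h2⟩
  exact not_prime_dvd_homog hUV hAB prime_X (h1 ▸ dvd_zero _) (h2 ▸ dvd_zero _)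

/-! ### heights -/

theorem topCoeff_sum {ι : Type*} (s : Finset ι) (f : ι → k[X]) (c : ι → k) (N : ℕ)
    (h : ∀ i ∈ s, TopCoeff (f i) N (c i)) : TopCoeff (∑ i ∈ s, f i) N (∑ i ∈ s, c i) := by
  classical
  induction s using Finset.induction_on with
  | empty => exact ⟨by simp, by simp⟩
  | insert a s ha ih =>
    rw [Finset.sum_insert ha, Finset.sum_insert ha]
    exact (h a (Finset.mem_insert_self a s)).add
      (ih fun i hi => h i (Finset.mem_insert_of_mem hi))

theorem topCoeff_homog (P : k[X]) (n : ℕ) {A B : k[X]} {m : ℕ} {a b : k} (hA : TopCoeff A m a)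
    (hB : TopCoeff B m b) :
    TopCoeff (homog P n A B) (n * m) (homogVia (RingHom.id k) P n a b) := by
  unfold homog homogVia
  refine topCoeff_sum _ _ _ _ fun i hi => ?_
  have hin : i ≤ n := Nat.lt_succ_iff.mp (Finset.mem_range.mp hi)
  have h1 := ((TopCoeff.const (P.coeff i)).mul (hA.pow i)).mul (hB.pow (n - i))
  refine h1.cast ?_ rfl
  have : n = i + (n - i) := by omega
  calc 0 + i * m + (n - i) * m = (i + (n - i)) * m := by ring
    _ = n * m := by rw [← this]

theorem ht_eq_of_topCoeff {P Q : k[X]} {N : ℕ} {p q : k} (hP : TopCoeff P N p) (hQ : TopCoeff Q N q)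
    (h : p ≠ 0 ∨ q ≠ 0) : ht P Q = N := by
  refine le_antisymm (max_le hP.1 hQ.1) ?_
  rcases h with h | h
  · rw [← hP.natDegree_eq h]; exact le_max_left _ _
  · rw [← hQ.natDegree_eq h]; exact le_max_right _ _

/-- **(I-2), heights: composition of rational functions multiplies heights.** -/
theorem ht_homog {U V A B : k[X]} (hUV : IsCoprime U V) (hAB : A ≠ 0 ∨ B ≠ 0) :
    ht (homog U (ht U V) A B) (homog V (ht U V) A B) = ht U V * ht A B := by
  have hA := topCoeff_self A _ (natDegree_le_ht_left A B)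
  have hB := topCoeff_self B _ (natDegree_le_ht_right A B)
  refine ht_eq_of_topCoeff (topCoeff_homog U _ hA hB) (topCoeff_homog V _ hA hB) ?_
  by_contra hcon
  push Not at hcon
  exact not_homogVia_eq_zero (RingHom.id k) hUV (top_ne_zero hAB) hcon.1 hcon.2

theorem ht_homog_of_isCoprime {U V A B : k[X]} (hUV : IsCoprime U V) (hAB : IsCoprime A B) :
    ht (homog U (ht U V) A B) (homog V (ht U V) A B) = ht U V * ht A B :=
  ht_homog hUV (ne_zero_of_isCoprime hAB)

/-! ### the evaluation identity -/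

section Eval

variable {F : Type*} [Field F] [Algebra k F]

theorem aeval_homog (P : k[X]) (n : ℕ) (A B : k[X]) (t : F) :
    aeval t (homog P n A B) = homogVia (algebraMap k F) P n (aeval t A) (aeval t B) := by
  unfold homog homogVia
  simp only [map_sum, map_mul, map_pow, aeval_C]

/-- `(homog P n A B)(t) = B(t) ^ n * P (x)` when `x * B(t) = A(t)`, `B(t) ≠ 0`. -/
theorem aeval_homog_eq (P : k[X]) (n : ℕ) (hn : P.natDegree ≤ n) (A B : k[X]) (t x : F)
    (hB : aeval t B ≠ 0) (hx : x * aeval t B = aeval t A) :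
    aeval t (homog P n A B) = aeval t B ^ n * aeval x P := by
  rw [aeval_homog, homogVia_eq_eval₂ _ P n hn _ _ hB, ← hx, mul_div_assoc, div_self hB, mul_one]
  rfl

theorem aeval_ne_zero_of_isCoprime {A B : k[X]} (hAB : IsCoprime A B) {t x : F}
    (hx : x * aeval t B = aeval t A) : aeval t B ≠ 0 := by
  intro hB
  rw [hB, mul_zero] at hx
  obtain ⟨p, q, hpq⟩ := hAB
  have := congrArg (aeval t) hpq
  rw [map_add, map_mul, map_mul, ← hx, hB, map_one] at this
  simp at this

/-- **(I-2), the evaluation identity**: if `x = A(t) / B(t)` and `z = U(x) / V(x)` then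
`z = (homog U n A B)(t) / (homog V n A B)(t)`. -/
theorem aeval_homog_mul {U V A B : k[X]} (hAB : IsCoprime A B) (n : ℕ) (hU : U.natDegree ≤ n)
    (hV : V.natDegree ≤ n) {t x z : F} (hx : x * aeval t B = aeval t A)
    (hz : z * aeval x V = aeval x U) :
    z * aeval t (homog V n A B) = aeval t (homog U n A B) := by
  have hB := aeval_ne_zero_of_isCoprime hAB hx
  rw [aeval_homog_eq U n hU A B t x hB hx, aeval_homog_eq V n hV A B t x hB hx, ← hz]
  ring

/-- the evaluation identity in degree `n = ht U V`. -/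
theorem aeval_homog_mul_ht {U V A B : k[X]} (hAB : IsCoprime A B) {t x z : F}
    (hx : x * aeval t B = aeval t A) (hz : z * aeval x V = aeval x U) :
    z * aeval t (homog V (ht U V) A B) = aeval t (homog U (ht U V) A B) :=
  aeval_homog_mul hAB _ (natDegree_le_ht_left U V) (natDegree_le_ht_right U V) hx hz

end Eval

end Fermat.Agent.ES.Q58.RatComp2
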