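/-
Programme S58 (elliptic Eichler–Shimura relation), PART I, brick (I-3), representation level (helper2):
**substitution at an odd point multiplies the `x`-degree; Frobenius multiplies it by `ℓ`.**

`k` a field, `W : WeierstrassCurve.Affine k`, `K = W.FunctionField`, `c = algebraMap k[X] K`.
A pair `(U, V)` of coprime polynomials with `z * c V = c U` is a *coprime representation* of `z ∈ K`
(`IsXRep W z U V`).  The `x`-degree of a point is the height `ht U V` of a coprime representation of its
`x`-coordinate (brick (I-1), `XDeg1`); everything here is stated for representations, so this file does not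
depend on (I-1).

* `substHom_iota` : for an odd point `R = (x_R, y_R)` with `x_R` transcendental, `τ_R := substHom W …`
  commutes with the hyperelliptic involution `ι`;
* `map_substHom_mem_oddPoints` : `S` odd ⟹ `τ_R S` odd;
* `isXRep_substHom` : `(U_R, V_R)` represents `x_R`, `(U_S, V_S)` represents `z` ⟹
  `(homog U_S n U_R V_R, homog V_S n U_R V_R)` (`n = ht U_S V_S`) represents `τ_R z`, and
  `ht_substHom` : its height is `ht U_S V_S * ht U_R V_R`;
* `k = ZMod ℓ`: `frobK ℓ W : K →ₐ[ZMod ℓ] K` (`z ↦ z ^ ℓ`), `frobK_iota`, `frobK_substHom`,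
  `map_frobK_mem_oddPoints`, `isXRep_frobK` : `(U ^ ℓ, V ^ ℓ)` represents `z ^ ℓ`, `ht_pow`.
-/
import Fermat.Agent.ES.Q58.RatComp2
import Fermat.Agent.ES.Q58.FrobAlg2
import Fermat.Agent.ES.Q58.SubstEmb17

set_option autoImplicit false

namespace Fermat.Agent.ES.Q58.XDegMul2

open WeierstrassCurve WeierstrassCurve.Affine Polynomial
open Fermat.Agent.ES.Q58.IotaDescent23 Fermat.Agent.ES.Q58.SubstEmb17
open Fermat.Agent.ES.Q58.PLPoly2 Fermat.Agent.ES.Q58.RatComp2 Fermat.Agent.ES.Q58.FrobAlg2

variable {k : Type*} [Field k] (W : Affine k)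

/-! ### coprime representations -/

/-- `(U, V)` is a coprime representation of `z ∈ K`: `z = U(x) / V(x)`. -/
def IsXRep (z : W.FunctionField) (U V : k[X]) : Prop :=
  IsCoprime U V ∧ z * algebraMap k[X] W.FunctionField V = algebraMap k[X] W.FunctionField U

variable {W}

theorem IsXRep.isCoprime {z : W.FunctionField} {U V : k[X]} (h : IsXRep W z U V) : IsCoprime U V := h.1

theorem IsXRep.eq {z : W.FunctionField} {U V : k[X]} (h : IsXRep W z U V) :
    z * algebraMap k[X] W.FunctionField V = algebraMap k[X] W.FunctionField U := h.2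

theorem IsXRep.aeval {z : W.FunctionField} {U V : k[X]} (h : IsXRep W z U V) :
    z * aeval (xK W) V = aeval (xK W) U := by
  rw [aeval_xK, aeval_xK]; exact h.2

/-- the denominator of a coprime representation is nonzero. -/
theorem IsXRep.ne_zero {z : W.FunctionField} {U V : k[X]} (h : IsXRep W z U V) : V ≠ 0 := by
  rintro rfl
  have h2 := h.2
  rw [map_zero, mul_zero] at h2
  have hU : U = 0 := algebraMap_functionField_injective W (by rw [← h2, map_zero])
  have h1 := h.1
  rw [hU] at h1
  exact not_isCoprime_zero_zero h1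

/-- a representation of positive height represents a transcendental element. -/
theorem IsXRep.transcendental {z : W.FunctionField} {U V : k[X]} (h : IsXRep W z U V)
    (hpos : 0 < ht U V) : Transcendental k z :=
  transcendental_of_isCoprime W h.1 hpos h.2

theorem isXRep_xK : IsXRep W (xK W) X 1 := by
  refine ⟨isCoprime_one_right, ?_⟩
  rw [map_one, mul_one]; rfl

theorem ht_X_one : ht (X : k[X]) 1 = 1 := by
  simp [ht]

variable (W)

/-! ### substitution at an odd point -/

section Subst

variable [DecidableEq W.FunctionField]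

/-- **`τ_R` commutes with `ι`** for an odd point `R` with transcendental `x`-coordinate. -/
theorem substHom_iota {xR yR : W.FunctionField} (h : (W⁄W.FunctionField).Nonsingular xR yR)
    (hR : Point.some xR yR h ∈ oddPoints W) (hX : Transcendental k xR) (z : W.FunctionField) :
    substHom W h.1 hX (iota W z) = iota W (substHom W h.1 hX z) := by
  have key : (substHom W h.1 hX).comp ((iota W : W.FunctionField ≃ₐ[k] W.FunctionField) :
      W.FunctionField →ₐ[k] W.FunctionField) =
      ((iota W : W.FunctionField ≃ₐ[k] W.FunctionField) :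
        W.FunctionField →ₐ[k] W.FunctionField).comp (substHom W h.1 hX) := by
    apply SubstEmb17.algHom_ext
    · simp only [AlgHom.comp_apply, AlgEquiv.coe_toAlgHom]
      rw [iota_xK, substHom_xK, iota_x_of_mem_oddPoints W h hR]
    · simp only [AlgHom.comp_apply, AlgEquiv.coe_toAlgHom]
      rw [iota_yK, substHom_yK, iota_y_of_mem_oddPoints' W h hR]
      simp only [map_sub, map_neg, map_mul, AlgHom.commutes, substHom_xK, substHom_yK]
  exact AlgHom.congr_fun key z

/-- `S` odd ⟹ `τ_R S` odd. -/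
theorem map_substHom_mem_oddPoints {xR yR : W.FunctionField}
    (h : (W⁄W.FunctionField).Nonsingular xR yR) (hR : Point.some xR yR h ∈ oddPoints W)
    (hX : Transcendental k xR) {S : (W⁄W.FunctionField).Point} (hS : S ∈ oddPoints W) :
    Point.map (W' := W) (substHom W h.1 hX) S ∈ oddPoints W :=
  map_mem_oddPoints W _ (substHom_iota W h hR hX) hS

end Subst

/-- **substitution composes representations**: if `(U_R, V_R)` represents `x_R` and `(U_S, V_S)` represents
`z`, then the homogenised pair represents `τ_R z`. -/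
theorem isXRep_substHom {xR yR : W.FunctionField} (h : (W⁄W.FunctionField).Equation xR yR)
    (hX : Transcendental k xR) {UR VR : k[X]} (hRrep : IsXRep W xR UR VR) {z : W.FunctionField}
    {US VS : k[X]} (hSrep : IsXRep W z US VS) :
    IsXRep W (substHom W h hX z) (homog US (ht US VS) UR VR) (homog VS (ht US VS) UR VR) := by
  refine ⟨isCoprime_homog hSrep.1 hRrep.1, ?_⟩
  rw [← aeval_xK, ← aeval_xK]
  refine aeval_homog_mul_ht hRrep.1 hRrep.aeval ?_
  have := congrArg (substHom W h hX) hSrep.2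
  rwa [map_mul, substHom_algebraMap_polynomial, substHom_algebraMap_polynomial] at this

/-- **… and multiplies heights.** -/
theorem ht_substHom {UR VR US VS : k[X]} (hR : IsCoprime UR VR) (hS : IsCoprime US VS) :
    ht (homog US (ht US VS) UR VR) (homog VS (ht US VS) UR VR) = ht UR VR * ht US VS := by
  rw [ht_homog_of_isCoprime hS hR, mul_comm]

/-! ### powers (Frobenius) -/

theorem ht_pow (U V : k[X]) (n : ℕ) : ht (U ^ n) (V ^ n) = n * ht U V := by
  unfold ht
  rw [natDegree_pow, natDegree_pow, Nat.mul_max_mul_left]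

theorem isXRep_pow {z : W.FunctionField} {U V : k[X]} (h : IsXRep W z U V) (n : ℕ) :
    IsXRep W (z ^ n) (U ^ n) (V ^ n) := by
  refine ⟨h.1.pow, ?_⟩
  rw [map_pow, map_pow, ← mul_pow, h.2]

/-! ### uniqueness of coprime representations -/

/-- two coprime representations of the same element have the same height. -/
theorem IsXRep.ht_eq {z : W.FunctionField} {U V U' V' : k[X]} (h : IsXRep W z U V)
    (h' : IsXRep W z U' V') : ht U V = ht U' V' := by
  -- `U * V' = U' * V`
  have hV := h.ne_zero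
  have hV' := h'.ne_zero
  have hcross : U * V' = U' * V := by
    apply algebraMap_functionField_injective W
    rw [map_mul, map_mul, ← h.2, ← h'.2]
    ring
  -- `V ∣ V'` and `V' ∣ V`
  have h1 : V ∣ V' := by
    have : V ∣ U * V' := ⟨U', by rw [hcross]; ring⟩
    exact h.1.symm.dvd_of_dvd_mul_left this
  have h2 : V' ∣ V := by
    have : V' ∣ U' * V := ⟨U, by rw [← hcross]; ring⟩
    exact h'.1.symm.dvd_of_dvd_mul_left this
  obtain ⟨u, hu⟩ := associated_of_dvd_dvd h1 h2
  obtain ⟨c, hc, hcu⟩ : ∃ c : k, c ≠ 0 ∧ (↑u : k[X]) = C c := by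
    obtain ⟨c, hc, hcu⟩ := Polynomial.isUnit_iff.mp u.isUnit
    exact ⟨c, hc.ne_zero, hcu.symm⟩
  have hV'eq : V' = C c * V := by rw [← hu, hcu]; ring
  have hU'eq : U' = C c * U := by
    apply mul_right_cancel₀ hV
    rw [← hcross, hV'eq]; ring
  unfold ht
  rw [hU'eq, hV'eq, natDegree_C_mul hc, natDegree_C_mul hc]

/-! ### Frobenius of the function field (`k = ZMod ℓ`) -/

section Frob

variable (ℓ : ℕ) [Fact ℓ.Prime] (W₀ : Affine (ZMod ℓ))

/-- **the Frobenius `z ↦ z ^ ℓ` of the function field**, a `ZMod ℓ`-algebra endomorphism. -/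
noncomputable abbrev frobK : W₀.FunctionField →ₐ[ZMod ℓ] W₀.FunctionField :=
  frobAlg ℓ W₀.FunctionField

theorem frobK_apply (z : W₀.FunctionField) : frobK ℓ W₀ z = z ^ ℓ := rfl

/-- Frobenius commutes with `ι`. -/
theorem frobK_iota (z : W₀.FunctionField) : frobK ℓ W₀ (iota W₀ z) = iota W₀ (frobK ℓ W₀ z) := by
  rw [frobK_apply, frobK_apply, map_pow]

/-- Frobenius commutes with every `ZMod ℓ`-endomorphism of `K` (e.g. every `τ_R`). -/
theorem frobK_comm (f : W₀.FunctionField →ₐ[ZMod ℓ] W₀.FunctionField) (z : W₀.FunctionField) :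
    f (frobK ℓ W₀ z) = frobK ℓ W₀ (f z) :=
  map_frobAlg ℓ f z

theorem isXRep_frobK {z : W₀.FunctionField} {U V : (ZMod ℓ)[X]} (h : IsXRep W₀ z U V) :
    IsXRep W₀ (frobK ℓ W₀ z) (U ^ ℓ) (V ^ ℓ) :=
  isXRep_pow W₀ h ℓ

/-- iterated Frobenius of `x`. -/
theorem isXRep_frobK_iterate_xK (i : ℕ) :
    IsXRep W₀ ((frobK ℓ W₀)^[i] (xK W₀)) (X ^ ℓ ^ i) 1 := by
  rw [frobAlg_iterate]
  have := isXRep_pow W₀ (isXRep_xK (W := W₀)) (ℓ ^ i)
  rwa [one_pow] at this

theorem ht_X_pow_one (n : ℕ) : ht ((X : (ZMod ℓ)[X]) ^ n) 1 = n := by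
  simp [ht]

variable [DecidableEq W₀.FunctionField]

/-- the odd points are stable under Frobenius. -/
theorem map_frobK_mem_oddPoints {R : (W₀⁄W₀.FunctionField).Point} (hR : R ∈ oddPoints W₀) :
    Point.map (W' := W₀) (frobK ℓ W₀) R ∈ oddPoints W₀ :=
  map_mem_oddPoints W₀ _ (frobK_iota ℓ W₀) hR

/-- Frobenius on points commutes with the map on points induced by any `ZMod ℓ`-endomorphism of `K`. -/
theorem map_frobK_comm (f : W₀.FunctionField →ₐ[ZMod ℓ] W₀.FunctionField)
    (P : (W₀⁄W₀.FunctionField).Point) :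
    Point.map (W' := W₀) f (Point.map (W' := W₀) (frobK ℓ W₀) P) =
      Point.map (W' := W₀) (frobK ℓ W₀) (Point.map (W' := W₀) f P) :=
  pointMap_frobAlg_comm ℓ W₀ f P

/-- iterated Frobenius of the generic point is odd. -/
theorem iterate_frobK_genericPoint_mem_oddPoints (hΔ : W₀.Δ ≠ 0) (i : ℕ) :
    (Point.map (W' := W₀) (frobK ℓ W₀))^[i] (genericPoint W₀ hΔ) ∈ oddPoints W₀ := by
  induction i with
  | zero => exact genericPoint_mem_oddPoints W₀ hΔ
  | succ i ih =>
    rw [Function.iterate_succ_apply']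
    exact map_frobK_mem_oddPoints ℓ W₀ ih

end Frob

/-! ### the `x`-degree statements, for any function computed by coprime representations

`xdeg` is any function on points with `xdeg 0 = 0` whose value at an affine point is the height of any coprime
representation of the `x`-coordinate (the interface `xdeg_zero`, `xdeg_some_eq` of brick (I-1)). -/

section Generic

variable [DecidableEq W.FunctionField] (xdeg : (W⁄W.FunctionField).Point → ℕ)

/-- **(I-3): `xdeg (τ_R S) = xdeg R * xdeg S`** for odd points `R`, `S`, `x_R` transcendental. -/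
theorem xdeg_map_substHom_of (xdeg_zero : xdeg 0 = 0)
    (xdeg_some : ∀ {x y : W.FunctionField} (h : (W⁄W.FunctionField).Nonsingular x y) {U V : k[X]},
      IsCoprime U V → x * algebraMap k[X] W.FunctionField V = algebraMap k[X] W.FunctionField U →
      xdeg (Point.some x y h) = ht U V)
    (hΔ : W.Δ ≠ 0) {xR yR : W.FunctionField} (h : (W⁄W.FunctionField).Nonsingular xR yR)
    (hR : Point.some xR yR h ∈ oddPoints W) (hX : Transcendental k xR)
    {S : (W⁄W.FunctionField).Point} (hS : S ∈ oddPoints W) :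
    xdeg (Point.map (W' := W) (substHom W h.1 hX) S) = xdeg (Point.some xR yR h) * xdeg S := by
  obtain ⟨UR, VR, hcR, -, hxR⟩ := exists_coprime_x_of_mem_oddPoints W hΔ h hR
  cases S with
  | zero =>
    rw [show (Point.zero : (W⁄W.FunctionField).Point) = 0 from rfl, map_zero, xdeg_zero, mul_zero]
  | some xS yS hSn =>
    obtain ⟨US, VS, hcS, -, hxS⟩ := exists_coprime_x_of_mem_oddPoints W hΔ hSn hS
    have hrep := isXRep_substHom W h.1 hX (UR := UR) (VR := VR) ⟨hcR, hxR⟩ (z := xS) (US := US)
      (VS := VS) ⟨hcS, hxS⟩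
    rw [Point.map_some, xdeg_some _ hrep.1 hrep.2, xdeg_some h hcR hxR, xdeg_some hSn hcS hxS,
      ht_substHom hcR hcS]

end Generic

section GenericFrob

variable (ℓ : ℕ) [Fact ℓ.Prime] (W₀ : Affine (ZMod ℓ)) [DecidableEq W₀.FunctionField]
  (xdeg : (W₀⁄W₀.FunctionField).Point → ℕ)

/-- **(I-3): `xdeg (φ R) = ℓ * xdeg R`** for odd points `R`. -/
theorem xdeg_map_frobK_of (xdeg_zero : xdeg 0 = 0)
    (xdeg_some : ∀ {x y : W₀.FunctionField} (h : (W₀⁄W₀.FunctionField).Nonsingular x y)
      {U V : (ZMod ℓ)[X]}, IsCoprime U V →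
      x * algebraMap (ZMod ℓ)[X] W₀.FunctionField V = algebraMap (ZMod ℓ)[X] W₀.FunctionField U →
      xdeg (Point.some x y h) = ht U V)
    (hΔ : W₀.Δ ≠ 0) {R : (W₀⁄W₀.FunctionField).Point} (hR : R ∈ oddPoints W₀) :
    xdeg (Point.map (W' := W₀) (frobK ℓ W₀) R) = ℓ * xdeg R := by
  cases R with
  | zero =>
    rw [show (Point.zero : (W₀⁄W₀.FunctionField).Point) = 0 from rfl, map_zero, xdeg_zero, mul_zero]
  | some xR yR h =>
    obtain ⟨U, V, hc, -, hx⟩ := exists_coprime_x_of_mem_oddPoints W₀ hΔ h hR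
    have hrep := isXRep_frobK ℓ W₀ (z := xR) ⟨hc, hx⟩
    rw [Point.map_some, xdeg_some _ hrep.1 hrep.2, xdeg_some h hc hx, ht_pow]

/-- **(I-3): `xdeg (φ^i P₀) = ℓ ^ i`.** -/
theorem xdeg_iterate_frobK_genericPoint_of (xdeg_zero : xdeg 0 = 0)
    (xdeg_some : ∀ {x y : W₀.FunctionField} (h : (W₀⁄W₀.FunctionField).Nonsingular x y)
      {U V : (ZMod ℓ)[X]}, IsCoprime U V →
      x * algebraMap (ZMod ℓ)[X] W₀.FunctionField V = algebraMap (ZMod ℓ)[X] W₀.FunctionField U →
      xdeg (Point.some x y h) = ht U V)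
    (hΔ : W₀.Δ ≠ 0) (i : ℕ) :
    xdeg ((Point.map (W' := W₀) (frobK ℓ W₀))^[i] (genericPoint W₀ hΔ)) = ℓ ^ i := by
  induction i with
  | zero =>
    rw [Function.iterate_zero_apply, pow_zero, IotaDescent23.genericPoint,
      xdeg_some _ (isXRep_xK (W := W₀)).1 (isXRep_xK (W := W₀)).2, ht_X_one]
  | succ i ih =>
    rw [Function.iterate_succ_apply',
      xdeg_map_frobK_of ℓ W₀ xdeg xdeg_zero xdeg_some hΔ
        (iterate_frobK_genericPoint_mem_oddPoints ℓ W₀ hΔ i), ih, pow_succ']

end GenericFrob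

end Fermat.Agent.ES.Q58.XDegMul2
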