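/-
Programme Q (S58), PART I, brick I-7a (helper1): **the `x`-degree and Frobenius on `W(K)`, `K = 𝔽_ℓ(W)`.**

`k = ZMod ℓ`, `W : Affine (ZMod ℓ)`, `Δ ≠ 0`, `K = W.FunctionField`, `P₀` the generic point,
`φ = Point.map (frobK ℓ W)` (`frobK ℓ W = FrobAlg2.frobAlg ℓ K`).

* pure algebra (`QuadRel18` style): `polar_sq_le`, `d_add_pos`, `d_sub_pos` (Cauchy–Schwarz for a nonnegative
  `d` with the parallelogram law: `d x = 1`, `d y = ℓ ≥ 2` ⟹ `0 < d (x ± y)`);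
* `xdeg_map_frobK` : `xdeg (φ R) = ℓ * xdeg R` (odd `R`), `xdeg_map_substHom` : `xdeg (τ_R S) = xdeg R * xdeg S`
  (the specialisations of `XDegMul2` to `XDeg1.xdeg`);
* `xdeg_add_frob_pos`, `xdeg_sub_frob_pos` : `0 < xdeg (P₀ ± φ P₀)`; `sub_frob_ne_zero`;
  `exists_sub_frob_eq_some` : `P₀ − φ P₀ = (x_S, y_S)` with `x_S` transcendental;
* `xdeg_sub_frob_sq` : `xdeg (P₀ − φ² P₀) = xdeg (P₀ + φ P₀) * xdeg (P₀ − φ P₀)`;
* **`xdeg_rel`** : `xdeg (φ² P₀ − a • φ P₀ + ℓ • P₀) = 0` for `a = 1 + ℓ − xdeg (P₀ − φ P₀)`.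
-/
import Fermat.Agent.ES.Q58.XDeg1
import Fermat.Agent.ES.Q58.XDegMul2

set_option autoImplicit false

open Polynomial

namespace Fermat.Agent.ES.Q58.XDegFrob1

open WeierstrassCurve WeierstrassCurve.Affine
open Fermat.Agent.ES.Q58.IotaDescent23 Fermat.Agent.ES.Q58.SubstEmb17 Fermat.Agent.ES.Q58.PLPoly2
open Fermat.Agent.ES.Q58.XDeg1 Fermat.Agent.ES.Q58.XDegMul2 Fermat.Agent.ES.Q58.QuadRel18

/-! ### Cauchy–Schwarz for nonnegative quadratic functions -/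

section QuadPos

variable {M : Type*} [AddCommGroup M] {d : M → ℤ}

/-- Cauchy–Schwarz against a vector of norm `1`. -/
theorem polar_sq_le (hPL : ∀ x y : M, d (x + y) + d (x - y) = 2 * d x + 2 * d y)
    (hnn : ∀ x, 0 ≤ d x) {x : M} (hx : d x = 1) (y : M) : polar d x y ^ 2 ≤ 4 * d y := by
  have h := hnn ((-polar d x y) • x + (2 : ℤ) • y)
  rw [d_add (d := d), d_zsmul hPL, d_zsmul hPL, polar_zsmul_left hPL, polar_zsmul_right hPL, hx] at h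
  nlinarith

theorem d_add_pos (hPL : ∀ x y : M, d (x + y) + d (x - y) = 2 * d x + 2 * d y)
    (hnn : ∀ x, 0 ≤ d x) {x y : M} {ℓ : ℤ} (hℓ : 2 ≤ ℓ) (hx : d x = 1) (hy : d y = ℓ) :
    0 < d (x + y) := by
  have h := polar_sq_le hPL hnn hx y
  rw [hy] at h
  rw [d_add (d := d), hx, hy]
  by_contra hcon
  push Not at hcon
  nlinarith

theorem d_sub_pos (hPL : ∀ x y : M, d (x + y) + d (x - y) = 2 * d x + 2 * d y)
    (hnn : ∀ x, 0 ≤ d x) {x y : M} {ℓ : ℤ} (hℓ : 2 ≤ ℓ) (hx : d x = 1) (hy : d y = ℓ) :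
    0 < d (x - y) := by
  have h := polar_sq_le hPL hnn hx y
  rw [hy] at h
  rw [d_sub' hPL, hx, hy]
  by_contra hcon
  push Not at hcon
  nlinarith

end QuadPos

/-! ### specialisation of `XDegMul2` to `XDeg1.xdeg` -/

section Subst

variable {k : Type*} [Field k] (W : Affine k) [DecidableEq W.FunctionField]

/-- **`xdeg (τ_R S) = xdeg R * xdeg S`** for odd points `R`, `S`, `x_R` transcendental. -/
theorem xdeg_map_substHom (hΔ : W.Δ ≠ 0) {xR yR : W.FunctionField}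
    (h : (W⁄W.FunctionField).Nonsingular xR yR) (hR : Point.some xR yR h ∈ oddPoints W)
    (hX : Transcendental k xR) {S : (W⁄W.FunctionField).Point} (hS : S ∈ oddPoints W) :
    xdeg W (Point.map (W' := W) (substHom W h.1 hX) S) = xdeg W (Point.some xR yR h) * xdeg W S :=
  xdeg_map_substHom_of W (xdeg W) (xdeg_zero W) (fun {_ _} h {_ _} hUV hx => xdeg_some_eq h hUV hx) hΔ h hR hX hS

end Subst

section Frob

variable (ℓ : ℕ) [Fact ℓ.Prime] (W : Affine (ZMod ℓ)) [DecidableEq W.FunctionField]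

/-- **`xdeg (φ R) = ℓ * xdeg R`** for odd points `R`. -/
theorem xdeg_map_frobK (hΔ : W.Δ ≠ 0) {R : (W⁄W.FunctionField).Point} (hR : R ∈ oddPoints W) :
    xdeg W (Point.map (W' := W) (frobK ℓ W) R) = ℓ * xdeg W R :=
  xdeg_map_frobK_of ℓ W (xdeg W) (xdeg_zero W) (fun {_ _} h {_ _} hUV hx => xdeg_some_eq h hUV hx) hΔ hR

/-- Frobenius on the points of `W` over its function field. -/
noncomputable abbrev phi : (W⁄W.FunctionField).Point →+ (W⁄W.FunctionField).Point :=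
  Point.map (W' := W) (frobK ℓ W)

variable (hΔ : W.Δ ≠ 0)

/-- `P₀` as an element of the group of odd points. -/
noncomputable def E0 : ↥(oddPoints W) := ⟨IotaDescent23.genericPoint W hΔ, genericPoint_mem_oddPoints W hΔ⟩

/-- `φ P₀` as an element of the group of odd points. -/
noncomputable def E1 : ↥(oddPoints W) :=
  ⟨phi ℓ W (IotaDescent23.genericPoint W hΔ),
    map_frobK_mem_oddPoints ℓ W (genericPoint_mem_oddPoints W hΔ)⟩

/-- `φ² P₀` as an element of the group of odd points. -/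
noncomputable def E2 : ↥(oddPoints W) :=
  ⟨phi ℓ W (phi ℓ W (IotaDescent23.genericPoint W hΔ)),
    map_frobK_mem_oddPoints ℓ W (map_frobK_mem_oddPoints ℓ W (genericPoint_mem_oddPoints W hΔ))⟩

theorem dZ_E0 : dZ W (E0 ℓ W hΔ) = 1 := by
  rw [dZ_apply, E0, xdeg_genericPoint W hΔ, Nat.cast_one]

theorem dZ_E1 : dZ W (E1 ℓ W hΔ) = (ℓ : ℤ) := by
  rw [dZ_apply, E1, xdeg_map_frobK ℓ W hΔ (genericPoint_mem_oddPoints W hΔ),
    xdeg_genericPoint W hΔ, mul_one]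

theorem dZ_E2 : dZ W (E2 ℓ W hΔ) = (ℓ : ℤ) ^ 2 := by
  rw [dZ_apply, E2,
    xdeg_map_frobK ℓ W hΔ (map_frobK_mem_oddPoints ℓ W (genericPoint_mem_oddPoints W hΔ)),
    xdeg_map_frobK ℓ W hΔ (genericPoint_mem_oddPoints W hΔ), xdeg_genericPoint W hΔ, mul_one]
  push_cast
  ring

theorem two_le_cast : (2 : ℤ) ≤ (ℓ : ℤ) := by
  exact_mod_cast (Fact.out : ℓ.Prime).two_le

theorem dZ_E0_add_E1_pos : 0 < dZ W (E0 ℓ W hΔ + E1 ℓ W hΔ) :=
  d_add_pos (dZ_parallelogram W hΔ) (dZ_nonneg W) (two_le_cast ℓ) (dZ_E0 ℓ W hΔ) (dZ_E1 ℓ W hΔ)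

theorem dZ_E0_sub_E1_pos : 0 < dZ W (E0 ℓ W hΔ - E1 ℓ W hΔ) :=
  d_sub_pos (dZ_parallelogram W hΔ) (dZ_nonneg W) (two_le_cast ℓ) (dZ_E0 ℓ W hΔ) (dZ_E1 ℓ W hΔ)

/-- **`0 < xdeg (P₀ + φ P₀)`.** -/
theorem xdeg_add_frob_pos :
    0 < xdeg W (IotaDescent23.genericPoint W hΔ + phi ℓ W (IotaDescent23.genericPoint W hΔ)) := by
  have h := dZ_E0_add_E1_pos ℓ W hΔ
  rw [dZ_apply] at h
  exact_mod_cast h

/-- **`0 < xdeg (P₀ − φ P₀)`.** -/
theorem xdeg_sub_frob_pos :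
    0 < xdeg W (IotaDescent23.genericPoint W hΔ - phi ℓ W (IotaDescent23.genericPoint W hΔ)) := by
  have h := dZ_E0_sub_E1_pos ℓ W hΔ
  rw [dZ_apply] at h
  exact_mod_cast h

theorem sub_frob_mem_oddPoints :
    IotaDescent23.genericPoint W hΔ - phi ℓ W (IotaDescent23.genericPoint W hΔ) ∈ oddPoints W :=
  (E0 ℓ W hΔ - E1 ℓ W hΔ).2

theorem add_frob_mem_oddPoints :
    IotaDescent23.genericPoint W hΔ + phi ℓ W (IotaDescent23.genericPoint W hΔ) ∈ oddPoints W :=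
  (E0 ℓ W hΔ + E1 ℓ W hΔ).2

/-- `S = P₀ − φ P₀ ≠ 0`. -/
theorem sub_frob_ne_zero :
    IotaDescent23.genericPoint W hΔ - phi ℓ W (IotaDescent23.genericPoint W hΔ) ≠ 0 := by
  intro h
  have := xdeg_sub_frob_pos ℓ W hΔ
  rw [h, xdeg_zero] at this
  exact lt_irrefl 0 this

omit [DecidableEq W.FunctionField] in
/-- a point of positive `x`-degree is an affine point with transcendental `x`-coordinate. -/
theorem exists_eq_some_of_xdeg_pos {R : (W⁄W.FunctionField).Point} (hR : 0 < xdeg W R) :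
    ∃ (x y : W.FunctionField) (h : (W⁄W.FunctionField).Nonsingular x y),
      Transcendental (ZMod ℓ) x ∧ R = Point.some x y h := by
  rcases R with _ | ⟨x, y, h⟩
  · exfalso
    have h0 : xdeg W (0 : (W⁄W.FunctionField).Point) = 0 := xdeg_zero W
    have : xdeg W (Point.zero : (W⁄W.FunctionField).Point) = 0 := h0
    omega
  · exact ⟨x, y, h, transcendental_of_xdeg_pos W h hR, rfl⟩

/-- **`S = P₀ − φ P₀ = (x_S, y_S)` with `x_S` transcendental.** -/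
theorem exists_sub_frob_eq_some :
    ∃ (x y : W.FunctionField) (h : (W⁄W.FunctionField).Nonsingular x y),
      Transcendental (ZMod ℓ) x ∧
      IotaDescent23.genericPoint W hΔ - phi ℓ W (IotaDescent23.genericPoint W hΔ) = Point.some x y h :=
  exists_eq_some_of_xdeg_pos ℓ W (xdeg_sub_frob_pos ℓ W hΔ)

/-- **`xdeg (P₀ − φ² P₀) = xdeg (P₀ + φ P₀) * xdeg (P₀ − φ P₀)`** (`1 − φ² = (1 + φ)(1 − φ)` and `τ_R`,
`R = P₀ + φ P₀`). -/
theorem xdeg_sub_frob_sq :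
    xdeg W (IotaDescent23.genericPoint W hΔ - phi ℓ W (phi ℓ W (IotaDescent23.genericPoint W hΔ))) =
      xdeg W (IotaDescent23.genericPoint W hΔ + phi ℓ W (IotaDescent23.genericPoint W hΔ)) *
        xdeg W (IotaDescent23.genericPoint W hΔ - phi ℓ W (IotaDescent23.genericPoint W hΔ)) := by
  obtain ⟨xR, yR, hns, hX, hR⟩ := exists_eq_some_of_xdeg_pos ℓ W (xdeg_add_frob_pos ℓ W hΔ)
  have hRodd : Point.some xR yR hns ∈ oddPoints W := hR ▸ add_frob_mem_oddPoints ℓ W hΔ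
  have hτ : Point.map (W' := W) (substHom W hns.1 hX) (IotaDescent23.genericPoint W hΔ) =
      Point.some xR yR hns := map_substHom_genericPoint W hΔ hns hX
  have hmul := xdeg_map_substHom W hΔ hns hRodd hX (sub_frob_mem_oddPoints ℓ W hΔ)
  have himg : Point.map (W' := W) (substHom W hns.1 hX)
      (IotaDescent23.genericPoint W hΔ - phi ℓ W (IotaDescent23.genericPoint W hΔ)) =
      IotaDescent23.genericPoint W hΔ - phi ℓ W (phi ℓ W (IotaDescent23.genericPoint W hΔ)) := by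
    rw [map_sub, map_frobK_comm ℓ W (substHom W hns.1 hX), hτ, ← hR, map_add]
    abel
  rw [himg, ← hR] at hmul
  exact hmul

/-- the point `Z_a = φ² P₀ − a • φ P₀ + ℓ • P₀`. -/
noncomputable def relPoint (a : ℤ) : (W⁄W.FunctionField).Point :=
  phi ℓ W (phi ℓ W (IotaDescent23.genericPoint W hΔ)) - a • phi ℓ W (IotaDescent23.genericPoint W hΔ) +
    (ℓ : ℤ) • IotaDescent23.genericPoint W hΔ

theorem relPoint_mem_oddPoints (a : ℤ) : relPoint ℓ W hΔ a ∈ oddPoints W :=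
  (E2 ℓ W hΔ - a • E1 ℓ W hΔ + (ℓ : ℤ) • E0 ℓ W hΔ).2

/-- **the relation from the Gram matrix**: `xdeg (φ² P₀ − a • φ P₀ + ℓ • P₀) = 0` for
`a = 1 + ℓ − xdeg (P₀ − φ P₀)`. -/
theorem xdeg_rel :
    xdeg W (relPoint ℓ W hΔ ((1 : ℤ) + (ℓ : ℤ) -
      (xdeg W (IotaDescent23.genericPoint W hΔ - phi ℓ W (IotaDescent23.genericPoint W hΔ)) : ℤ))) = 0 := by
  have h12 : dZ W (E1 ℓ W hΔ + E2 ℓ W hΔ) = (ℓ : ℤ) * dZ W (E0 ℓ W hΔ + E1 ℓ W hΔ) := by
    rw [dZ_apply, dZ_apply]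
    have : ((E1 ℓ W hΔ + E2 ℓ W hΔ : ↥(oddPoints W)) : (W⁄W.FunctionField).Point) =
        phi ℓ W ((E0 ℓ W hΔ + E1 ℓ W hΔ : ↥(oddPoints W)) : (W⁄W.FunctionField).Point) := by
      rw [AddSubgroup.coe_add, AddSubgroup.coe_add, map_add]
      rfl
    rw [this, xdeg_map_frobK ℓ W hΔ (E0 ℓ W hΔ + E1 ℓ W hΔ).2]
    push_cast
    rfl
  have hprod : dZ W (E0 ℓ W hΔ - E2 ℓ W hΔ) =
      dZ W (E0 ℓ W hΔ - E1 ℓ W hΔ) * dZ W (E0 ℓ W hΔ + E1 ℓ W hΔ) := by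
    rw [dZ_apply, dZ_apply, dZ_apply]
    have h := xdeg_sub_frob_sq ℓ W hΔ
    have e1 : ((E0 ℓ W hΔ - E2 ℓ W hΔ : ↥(oddPoints W)) : (W⁄W.FunctionField).Point) =
        IotaDescent23.genericPoint W hΔ - phi ℓ W (phi ℓ W (IotaDescent23.genericPoint W hΔ)) := rfl
    have e2 : ((E0 ℓ W hΔ - E1 ℓ W hΔ : ↥(oddPoints W)) : (W⁄W.FunctionField).Point) =
        IotaDescent23.genericPoint W hΔ - phi ℓ W (IotaDescent23.genericPoint W hΔ) := rfl
    have e3 : ((E0 ℓ W hΔ + E1 ℓ W hΔ : ↥(oddPoints W)) : (W⁄W.FunctionField).Point) =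
        IotaDescent23.genericPoint W hΔ + phi ℓ W (IotaDescent23.genericPoint W hΔ) := rfl
    rw [e1, e2, e3, h]
    push_cast
    ring
  have hq := quad_rel (dZ_parallelogram W hΔ) (E0 ℓ W hΔ) (E1 ℓ W hΔ) (E2 ℓ W hΔ) (ℓ : ℤ)
    (dZ_E0 ℓ W hΔ) (dZ_E1 ℓ W hΔ) (dZ_E2 ℓ W hΔ) h12 hprod
  rw [dZ_apply] at hq
  have hq' : xdeg W ((E2 ℓ W hΔ - (1 + (ℓ : ℤ) - dZ W (E0 ℓ W hΔ - E1 ℓ W hΔ)) • E1 ℓ W hΔ +
      (ℓ : ℤ) • E0 ℓ W hΔ : ↥(oddPoints W)) : (W⁄W.FunctionField).Point) = 0 := by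
    exact_mod_cast hq
  exact hq'

end Frob

end Fermat.Agent.ES.Q58.XDegFrob1
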