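/-
Programme Q (S58), PART I, brick I-7b (helper1): **from the generic point to all points.**

`k = ZMod ℓ`, `W : Affine (ZMod ℓ)`, `Δ ≠ 0`, `K = W.FunctionField`, `P₀` the generic point.
For a field `L` over `ZMod ℓ` and `a : ℤ`: `psi ℓ W a L = φ_L² − a φ_L + ℓ` (an endomorphism of `W(L)`,
`φ_L = Point.map (frobAlg ℓ L)`).

* `map_psi` : `psi` is natural in `L`;
* `relPoint_eq_zero_of_xdeg` : `xdeg (psi K P₀) = 0 ⟹ psi K P₀ = 0` (a point with constant `x`-coordinate
  is fixed up to sign by every `τ_R`; use `R = 2 P₀` and `R = 3 P₀`);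
* `psi_eq_zero_of_generic` : `psi K P₀ = 0 ⟹ psi L Q = 0` for every field `L` algebraic over `ZMod ℓ` and every
  `Q ∈ W(L)` (embed `L` and `K` in `Ω = AlgebraicClosure K` and substitute `P₀ ↦ P₀ + Q`);
* **`frob_relation_of_manin`** : if `xdeg (P₀ − φ P₀) = N` then
  `φ_L² Q − (ℓ + 1 − N) • φ_L Q + ℓ • Q = 0` for all such `L`, `Q`.
-/
import Fermat.Agent.ES.Q58.XDegFrob1

set_option autoImplicit false

open Polynomial

namespace Fermat.Agent.ES.Q58.GenericRel1

open WeierstrassCurve WeierstrassCurve.Affine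
open Fermat.Agent.ES.Q58.IotaDescent23 Fermat.Agent.ES.Q58.SubstEmb17
open Fermat.Agent.ES.Q58.XDeg1 Fermat.Agent.ES.Q58.XDegMul2 Fermat.Agent.ES.Q58.FrobAlg2
open Fermat.Agent.ES.Q58.XDegFrob1

variable (ℓ : ℕ) [Fact ℓ.Prime] (W : Affine (ZMod ℓ))

/-! ### the endomorphism `φ² − a φ + ℓ` of `W(L)` -/

section Psi

variable (a : ℤ) (L : Type*) [Field L] [Algebra (ZMod ℓ) L] [DecidableEq L]

/-- `φ_L² − a φ_L + ℓ` on `W(L)`. -/
noncomputable def psi : (W⁄L).Point →+ (W⁄L).Point :=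
  (Point.map (W' := W) (frobAlg ℓ L)).comp (Point.map (W' := W) (frobAlg ℓ L)) -
    a • Point.map (W' := W) (frobAlg ℓ L) + (ℓ : ℤ) • AddMonoidHom.id (W⁄L).Point

theorem psi_apply (Q : (W⁄L).Point) :
    psi ℓ W a L Q = Point.map (W' := W) (frobAlg ℓ L) (Point.map (W' := W) (frobAlg ℓ L) Q) -
      a • Point.map (W' := W) (frobAlg ℓ L) Q + (ℓ : ℤ) • Q := rfl

variable {L}

/-- `psi` is natural. -/
theorem map_psi {L' : Type*} [Field L'] [Algebra (ZMod ℓ) L'] [DecidableEq L']
    (τ : L →ₐ[ZMod ℓ] L') (Q : (W⁄L).Point) :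
    Point.map (W' := W) τ (psi ℓ W a L Q) = psi ℓ W a L' (Point.map (W' := W) τ Q) := by
  rw [psi_apply, psi_apply, map_add, map_sub, map_zsmul, map_zsmul, pointMap_frobAlg_comm,
    pointMap_frobAlg_comm]

end Psi

/-! ### points with constant `x`-coordinate -/

section Const

variable {k : Type*} [Field k] {V : Affine k} {F F' : Type*} [Field F] [Field F'] [Algebra k F]
  [Algebra k F'] [DecidableEq F] [DecidableEq F']

/-- a point with `x`-coordinate in `k` is fixed up to sign by every `k`-embedding. -/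
theorem map_eq_or_eq_neg_of_const (τ : F →ₐ[k] F) (c : k) {y : F}
    (h : (V⁄F).Nonsingular (algebraMap k F c) y) :
    Point.map (W' := V) τ (Point.some _ y h) = Point.some _ y h ∨
      Point.map (W' := V) τ (Point.some _ y h) = -Point.some _ y h := by
  rw [Point.map_some]
  apply Point.X_eq_iff.mp
  exact τ.commutes c

end Const

/-! ### the generic relation -/

section Generic

variable [DecidableEq W.FunctionField] (hΔ : W.Δ ≠ 0)

theorem relPoint_eq_psi (a : ℤ) :
    relPoint ℓ W hΔ a = psi ℓ W a W.FunctionField (IotaDescent23.genericPoint W hΔ) := rfl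

/-- `τ_{n P₀}` multiplies `psi K P₀` by `n`. -/
theorem exists_map_relPoint_eq_zsmul (a : ℤ) {n : ℤ} (hn : n ≠ 0) :
    ∃ τ : W.FunctionField →ₐ[ZMod ℓ] W.FunctionField,
      Point.map (W' := W) τ (relPoint ℓ W hΔ a) = n • relPoint ℓ W hΔ a := by
  have hpos : 0 < xdeg W (n • IotaDescent23.genericPoint W hΔ) := by
    have h := xdeg_zsmul_genericPoint W hΔ n
    have h2 : 0 < n ^ 2 := by positivity
    rw [← h] at h2
    exact_mod_cast h2
  obtain ⟨x, y, hns, hX, hR⟩ := exists_eq_some_of_xdeg_pos ℓ W hpos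
  refine ⟨substHom W hns.1 hX, ?_⟩
  have hτ : Point.map (W' := W) (substHom W hns.1 hX) (IotaDescent23.genericPoint W hΔ) =
      n • IotaDescent23.genericPoint W hΔ := by
    rw [hR]
    exact map_substHom_genericPoint W hΔ hns hX
  rw [relPoint_eq_psi, map_psi, hτ, map_zsmul]

/-- **`xdeg (psi K P₀) = 0 ⟹ psi K P₀ = 0`.** -/
theorem relPoint_eq_zero_of_xdeg (a : ℤ) (h0 : xdeg W (relPoint ℓ W hΔ a) = 0) :
    relPoint ℓ W hΔ a = 0 := by
  rcases (xdeg_eq_zero_iff W hΔ (relPoint_mem_oddPoints ℓ W hΔ a)).mp h0 with h | ⟨c, y, h, hZ⟩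
  · exact h
  · obtain ⟨τ₂, h₂⟩ := exists_map_relPoint_eq_zsmul ℓ W hΔ a (n := 2) (by norm_num)
    obtain ⟨τ₃, h₃⟩ := exists_map_relPoint_eq_zsmul ℓ W hΔ a (n := 3) (by norm_num)
    have k₂ := map_eq_or_eq_neg_of_const (V := W) τ₂ c h
    have k₃ := map_eq_or_eq_neg_of_const (V := W) τ₃ c h
    rw [← hZ] at k₂ k₃
    rw [h₂] at k₂
    rw [h₃] at k₃
    set Z := relPoint ℓ W hΔ a with hZdef
    have e32 : (3 : ℤ) • Z - (2 : ℤ) • Z = Z := by
      rw [← sub_smul]
      norm_num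
    have e21 : (2 : ℤ) • Z - Z = Z := by
      rw [two_zsmul]
      abel
    rcases k₂ with k₂ | k₂
    · rw [k₂, sub_self] at e21
      exact e21.symm
    · rcases k₃ with k₃ | k₃
      · -- `3Z = Z`, `2Z = -Z`
        rw [k₃, k₂] at e32
        -- `Z - (-Z) = Z`
        have : Z + Z = Z := by
          rw [sub_neg_eq_add] at e32
          exact e32
        exact add_eq_right.mp this
      · rw [k₃, k₂, sub_self] at e32
        exact e32.symm

end Generic

/-! ### from the generic point to all points -/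

section Transfer

variable [DecidableEq W.FunctionField] (hΔ : W.Δ ≠ 0)

/-- the image of the generic point in an extension `Ω` of `K` is not an algebraic point. -/
theorem map_genericPoint_not_mem_algPoints {Ω : Type*} [Field Ω] [Algebra (ZMod ℓ) Ω] [DecidableEq Ω]
    (ι : W.FunctionField →ₐ[ZMod ℓ] Ω) :
    Point.map (W' := W) ι (IotaDescent23.genericPoint W hΔ) ∉ algPoints W Ω := by
  rw [IotaDescent23.genericPoint, Point.map_some, some_mem_algPoints_iff]
  intro h
  exact transcendental_xK W ((isAlgebraic_algHom_iff ι ι.injective).mp h)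

/-- translates of (the image of) the generic point by algebraic points are affine points with
transcendental `x`-coordinate. -/
theorem exists_eq_some_of_genericPoint_add {Ω : Type*} [Field Ω] [Algebra (ZMod ℓ) Ω] [DecidableEq Ω]
    (ι : W.FunctionField →ₐ[ZMod ℓ] Ω) {T : (W⁄Ω).Point} (hT : T ∈ algPoints W Ω) :
    ∃ (u v : Ω) (h : (W⁄Ω).Nonsingular u v), Transcendental (ZMod ℓ) u ∧
      Point.map (W' := W) ι (IotaDescent23.genericPoint W hΔ) + T = Point.some u v h := by
  have hnot := map_genericPoint_not_mem_algPoints ℓ W hΔ ι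
  have hnot' : Point.map (W' := W) ι (IotaDescent23.genericPoint W hΔ) + T ∉ algPoints W Ω := by
    intro h
    apply hnot
    have := sub_mem h hT
    rwa [add_sub_cancel_right] at this
  rcases hR : Point.map (W' := W) ι (IotaDescent23.genericPoint W hΔ) + T with _ | ⟨u, v, h⟩
  · exfalso
    rw [hR] at hnot'
    exact hnot' (zero_mem _)
  · refine ⟨u, v, h, ?_, rfl⟩
    intro hu
    rw [hR] at hnot'
    exact hnot' ((some_mem_algPoints_iff W h).mpr hu)

/-- **`psi K P₀ = 0 ⟹ psi L Q = 0` for every algebraic extension `L` of `ZMod ℓ`.** -/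
theorem psi_eq_zero_of_generic (a : ℤ) (hZ : relPoint ℓ W hΔ a = 0)
    (L : Type*) [Field L] [Algebra (ZMod ℓ) L] [Algebra.IsAlgebraic (ZMod ℓ) L] [DecidableEq L]
    (Q : (W⁄L).Point) : psi ℓ W a L Q = 0 := by
  classical
  let Ω := AlgebraicClosure W.FunctionField
  let j : L →ₐ[ZMod ℓ] Ω := IsAlgClosed.lift
  let ι : W.FunctionField →ₐ[ZMod ℓ] Ω := IsScalarTower.toAlgHom (ZMod ℓ) W.FunctionField Ω
  -- the relation at the image of `P₀`
  have h1 : psi ℓ W a Ω (Point.map (W' := W) ι (IotaDescent23.genericPoint W hΔ)) = 0 := by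
    rw [← map_psi, ← relPoint_eq_psi, hZ, map_zero]
  -- the relation at `P₀ + Q`
  obtain ⟨u, v, h, hu, hR⟩ := exists_eq_some_of_genericPoint_add ℓ W hΔ ι
    (map_mem_algPoints W j Q)
  have h2 : psi ℓ W a Ω (Point.map (W' := W) ι (IotaDescent23.genericPoint W hΔ) +
      Point.map (W' := W) j Q) = 0 := by
    rw [hR, ← map_substHom_genericPoint W hΔ h hu, ← map_psi, ← relPoint_eq_psi, hZ, map_zero]
  rw [map_add, h1, zero_add, ← map_psi] at h2
  exact Point.map_injective (W' := W) j (h2.trans (map_zero _).symm)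

/-- **the Eichler–Shimura relation in characteristic `ℓ`, modulo Manin's lemma**: if
`xdeg (P₀ − φ P₀) = N` then `φ² Q − (ℓ + 1 − N) • φ Q + ℓ • Q = 0` on `W(L)` for every field `L` algebraic
over `ZMod ℓ`. -/
theorem frob_relation_of_manin {N : ℕ}
    (hM : xdeg W (IotaDescent23.genericPoint W hΔ - phi ℓ W (IotaDescent23.genericPoint W hΔ)) = N)
    (L : Type*) [Field L] [Algebra (ZMod ℓ) L] [Algebra.IsAlgebraic (ZMod ℓ) L] [DecidableEq L]
    (Q : (W⁄L).Point) :
    Point.map (W' := W) (frobAlg ℓ L) (Point.map (W' := W) (frobAlg ℓ L) Q) -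
      ((ℓ : ℤ) + 1 - (N : ℤ)) • Point.map (W' := W) (frobAlg ℓ L) Q + (ℓ : ℤ) • Q = 0 := by
  have h0 := xdeg_rel ℓ W hΔ
  rw [hM, show (1 : ℤ) + (ℓ : ℤ) - (N : ℤ) = (ℓ : ℤ) + 1 - (N : ℤ) by ring] at h0
  have hZ := relPoint_eq_zero_of_xdeg ℓ W hΔ _ h0
  exact psi_eq_zero_of_generic ℓ W hΔ _ hZ L Q

end Transfer

end Fermat.Agent.ES.Q58.GenericRel1
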