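/-
Programme S58 (elliptic Eichler–Shimura relation), PART I, brick I-4 (helper3), Mathlib + `SubstEmb17` +
`PLPoly2`: **field degrees of the function field of a Weierstrass curve**.

`k` any field, `W : WeierstrassCurve.Affine k` (no hypothesis on `Δ`), `K = W.FunctionField`.

* `kx W : IntermediateField k K` — the subfield `k(x) = (ratHom W).fieldRange = k⟮x⟯` (`kx_eq_adjoin`);
* **(a)** `finrank_kx : Module.finrank (kx W) K = 2`;
  (`finrank_ratFunc_functionField` is the same for the `RatFunc k`-algebra structure given by `ratHom`);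
* `max_natDegree_num_denom` : for `U V` coprime, `V ≠ 0`, the normalised numerator and denominator of
  `U / V ∈ k(X)` have `max natDegree = ht U V`;
* `finrank_adjoin_ratFunc` : `[k(X) : k⟮U/V⟯] = ht U V` (from Mathlib's `RatFunc.finrank_eq_max_natDegree`);
* **(b)** `finrank_fieldRange_substHom` : if `(xS, yS) ∈ W(K)`, `xS · c V = c U` with `U V` coprime,
  then for `τ_S = SubstEmb17.substHom W h hX` (any proof `hX` of transcendence of `xS`):
  `Module.finrank τ_S.fieldRange K = ht U V`.
  (Towers `K ⊇ k(x) ⊇ k(x_S)` and `K ⊇ τ_S K ⊇ τ_S k(x) = k(x_S)` computed with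
  `IntermediateField.relfinrank`.)
* `finiteDimensional_fieldRange_substHom`, `isAlgebraic_fieldRange_substHom` : `K` is finite-dimensional,
  hence algebraic, over `τ_S.fieldRange` (as instances-to-be: use `haveI := …`);
* `finrank_fieldRange_substHom'`, … : the same with `hX` produced by
  `SubstEmb17.transcendental_of_isCoprime`.
-/
import Fermat.Agent.ES.Q58.SubstEmb17
import Fermat.Agent.ES.Q58.PLPoly2

set_option autoImplicit false

namespace Fermat.Agent.ES.Q58.FieldDeg3

open WeierstrassCurve WeierstrassCurve.Affine Polynomial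
open scoped Polynomial.Bivariate
open Fermat.Agent.ES.Q58.IotaDescent23 Fermat.Agent.ES.Q58.SubstEmb17
open Fermat.Agent.ES.Q58.PLPoly2
open IntermediateField

variable {k : Type*} [Field k] (W : Affine k)

/-! ### (a) `[K : k(x)] = 2` -/

theorem finrank_coordinateRing : Module.finrank k[X] W.CoordinateRing = 2 := by
  rw [Module.finrank_eq_card_basis (CoordinateRing.basis W)]
  simp

/-- `[K : k(X)] = 2` for the `k(X)`-algebra structure on `K` given by `ratHom`. -/
theorem finrank_ratFunc_functionField :
    @Module.finrank (RatFunc k) W.FunctionField _ _ (ratHom W).toRingHom.toAlgebra.toModule = 2 := by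
  let algR : Algebra (RatFunc k) W.FunctionField := (ratHom W).toRingHom.toAlgebra
  have : IsScalarTower k[X] (RatFunc k) W.FunctionField :=
    IsScalarTower.of_algebraMap_eq (fun p => (ratHom_algebraMap W p).symm)
  rw [IsFractionRing.finrank_eq k[X] (RatFunc k) W.CoordinateRing W.FunctionField,
    finrank_coordinateRing]

/-- the subfield `k(x)` of the function field `K`, as an intermediate field of `K / k`. -/
noncomputable def kx : IntermediateField k W.FunctionField := (ratHom W).fieldRange

/-- **(a)** `[K : k(x)] = 2`. -/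
theorem finrank_kx : Module.finrank (kx W) W.FunctionField = 2 := by
  rw [← finrank_ratFunc_functionField W]
  let algR : Algebra (RatFunc k) W.FunctionField := (ratHom W).toRingHom.toAlgebra
  symm
  refine Algebra.finrank_eq_of_equiv_equiv (ratHom W).equivFieldRange.toRingEquiv
    (RingEquiv.refl W.FunctionField) ?_
  ext z
  rfl

theorem ratHom_X : ratHom W (RatFunc.X : RatFunc k) = xK W := by
  rw [← RatFunc.algebraMap_X, ratHom_algebraMap]
  rfl

/-- `k(x) = k⟮x⟯`. -/
theorem kx_eq_adjoin : kx W = k⟮xK W⟯ := by
  rw [kx, AlgHom.fieldRange_eq_map, ← RatFunc.adjoin_X, IntermediateField.adjoin_map,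
    Set.image_singleton, ratHom_X]

theorem xK_mem_kx : xK W ∈ kx W := by
  rw [kx_eq_adjoin]
  exact mem_adjoin_simple_self k (xK W)

theorem algebraMap_polynomial_mem_kx (p : k[X]) : algebraMap k[X] W.FunctionField p ∈ kx W :=
  ⟨algebraMap k[X] (RatFunc k) p, ratHom_algebraMap W p⟩

/-- the image of `k(x)` under a `k`-endomorphism `τ` of `K` is `k⟮τ x⟯`. -/
theorem map_kx (τ : W.FunctionField →ₐ[k] W.FunctionField) :
    (kx W).map τ = k⟮τ (xK W)⟯ := by
  rw [kx_eq_adjoin, IntermediateField.adjoin_map, Set.image_singleton]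

/-- the image under `ratHom` of `k⟮f⟯ ⊆ k(X)` is `k⟮f(x)⟯`. -/
theorem map_adjoin_ratHom (f : RatFunc k) :
    (k⟮f⟯).map (ratHom W) = k⟮ratHom W f⟯ := by
  rw [IntermediateField.adjoin_map, Set.image_singleton]

/-! ### degrees of `k(X)` over `k(U/V)` -/

/-- two coprime presentations of the same fraction have numerators and denominators of the same
degrees. -/
theorem natDegree_eq_of_cross {A B U V : k[X]} (hAB : IsCoprime A B) (hUV : IsCoprime U V)
    (h : A * V = U * B) : A.natDegree = U.natDegree ∧ B.natDegree = V.natDegree := by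
  have hAU : A ∣ U := hAB.dvd_of_dvd_mul_right (h ▸ Dvd.intro _ rfl : A ∣ U * B)
  have hUA : U ∣ A := hUV.dvd_of_dvd_mul_right (h ▸ Dvd.intro _ rfl : U ∣ A * V)
  have hBV : B ∣ V := hAB.symm.dvd_of_dvd_mul_left (h ▸ Dvd.intro_left _ rfl : B ∣ A * V)
  have hVB : V ∣ B := hUV.symm.dvd_of_dvd_mul_left (h ▸ Dvd.intro_left _ rfl : V ∣ U * B)
  exact ⟨natDegree_eq_of_degree_eq (degree_eq_degree_of_associated (associated_of_dvd_dvd hAU hUA)),
    natDegree_eq_of_degree_eq (degree_eq_degree_of_associated (associated_of_dvd_dvd hBV hVB))⟩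

/-- numerator and denominator of a coprime fraction have the expected degrees. -/
theorem max_natDegree_num_denom {U V : k[X]} (hUV : IsCoprime U V) (hV : V ≠ 0) :
    max (algebraMap k[X] (RatFunc k) U / algebraMap k[X] (RatFunc k) V).num.natDegree
      (algebraMap k[X] (RatFunc k) U / algebraMap k[X] (RatFunc k) V).denom.natDegree = ht U V := by
  set f : RatFunc k := algebraMap k[X] (RatFunc k) U / algebraMap k[X] (RatFunc k) V with hf
  have hV' : algebraMap k[X] (RatFunc k) V ≠ 0 := by
    rw [Ne, map_eq_zero_iff _ (IsFractionRing.injective k[X] (RatFunc k))]; exact hV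
  have hd' : algebraMap k[X] (RatFunc k) f.denom ≠ 0 := by
    rw [Ne, map_eq_zero_iff _ (IsFractionRing.injective k[X] (RatFunc k))]; exact f.denom_ne_zero
  have hcross : f.num * V = U * f.denom := by
    apply IsFractionRing.injective k[X] (RatFunc k)
    have h1 := RatFunc.num_div_denom f
    rw [hf, div_eq_div_iff hd' hV'] at h1
    rw [map_mul, map_mul, h1]
  obtain ⟨h1, h2⟩ := natDegree_eq_of_cross f.isCoprime_num_denom hUV hcross
  rw [h1, h2]
  rfl

/-- `[k(X) : k(U/V)] = ht U V` for `U, V` coprime. -/
theorem finrank_adjoin_ratFunc {U V : k[X]} (hUV : IsCoprime U V) (hV : V ≠ 0) :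
    Module.finrank
      (k⟮(algebraMap k[X] (RatFunc k) U / algebraMap k[X] (RatFunc k) V : RatFunc k)⟯)
      (RatFunc k) = ht U V := by
  rw [RatFunc.finrank_eq_max_natDegree, max_natDegree_num_denom hUV hV]

/-- the denominator of a coprime presentation is nonzero. -/
theorem ne_zero_of_coprime_of_eq {U V : k[X]} (hUV : IsCoprime U V) {z : W.FunctionField}
    (hz : z * algebraMap k[X] W.FunctionField V = algebraMap k[X] W.FunctionField U) : V ≠ 0 := by
  rintro rfl
  rw [map_zero, mul_zero] at hz
  have hU : U = 0 := algebraMap_functionField_injective W (by rw [← hz, map_zero])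
  rw [hU] at hUV
  exact not_isCoprime_zero_zero hUV

/-- `z · c V = c U` means `z = (U/V)(x)`. -/
theorem eq_ratHom_div {U V : k[X]} (hV : V ≠ 0) {z : W.FunctionField}
    (hz : z * algebraMap k[X] W.FunctionField V = algebraMap k[X] W.FunctionField U) :
    z = ratHom W (algebraMap k[X] (RatFunc k) U / algebraMap k[X] (RatFunc k) V) := by
  have hVK : algebraMap k[X] W.FunctionField V ≠ 0 := by
    rw [Ne, map_eq_zero_iff _ (algebraMap_functionField_injective W)]; exact hV
  rw [map_div₀, ratHom_algebraMap, ratHom_algebraMap, eq_div_iff hVK, hz]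

/-- **`[k(x) : k(z)] = ht U V`** when `z = U(x)/V(x)` with `U, V` coprime. -/
theorem relfinrank_adjoin_kx {U V : k[X]} (hUV : IsCoprime U V) {z : W.FunctionField}
    (hz : z * algebraMap k[X] W.FunctionField V = algebraMap k[X] W.FunctionField U) :
    (k⟮z⟯).relfinrank (kx W) = ht U V := by
  have hV : V ≠ 0 := ne_zero_of_coprime_of_eq W hUV hz
  rw [eq_ratHom_div W hV hz, ← map_adjoin_ratHom, kx, AlgHom.fieldRange_eq_map,
    relfinrank_map_map, relfinrank_top_right, finrank_adjoin_ratFunc hUV hV]

theorem adjoin_le_kx {U V : k[X]} (hUV : IsCoprime U V) {z : W.FunctionField}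
    (hz : z * algebraMap k[X] W.FunctionField V = algebraMap k[X] W.FunctionField U) :
    k⟮z⟯ ≤ kx W := by
  have hV : V ≠ 0 := ne_zero_of_coprime_of_eq W hUV hz
  rw [adjoin_simple_le_iff, eq_ratHom_div W hV hz]
  exact ⟨_, rfl⟩

/-! ### (b) `[K : τ_S K] = ht U V` -/

/-- **(b), general form**: for a `k`-endomorphism `τ` of `K` with `τ x = U(x)/V(x)`, `U, V` coprime and
`[K : τ K] = ht U V` (automatically `0 < ht U V`, as `τ` is injective). -/
theorem finrank_fieldRange_of_apply_xK (τ : W.FunctionField →ₐ[k] W.FunctionField) {U V : k[X]}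
    (hUV : IsCoprime U V)
    (hx : τ (xK W) * algebraMap k[X] W.FunctionField V = algebraMap k[X] W.FunctionField U) :
    Module.finrank τ.fieldRange W.FunctionField = ht U V := by
  set A : IntermediateField k W.FunctionField := k⟮τ (xK W)⟯ with hA
  have hA1 : A ≤ kx W := adjoin_le_kx W hUV hx
  have hA2 : A ≤ τ.fieldRange := by
    rw [hA, ← map_kx, AlgHom.fieldRange_eq_map]
    exact IntermediateField.map_mono τ le_top
  have h1 : A.relfinrank (kx W) = ht U V := relfinrank_adjoin_kx W hUV hx
  have h2 : A.relfinrank τ.fieldRange = 2 := by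
    rw [hA, ← map_kx, AlgHom.fieldRange_eq_map, relfinrank_map_map, relfinrank_top_right,
      finrank_kx]
  have e1 := relfinrank_mul_relfinrank hA1 (le_top : kx W ≤ ⊤)
  have e2 := relfinrank_mul_relfinrank hA2 (le_top : τ.fieldRange ≤ ⊤)
  rw [h1, relfinrank_top_right, finrank_kx] at e1
  rw [h2, relfinrank_top_right] at e2
  have : 2 * Module.finrank τ.fieldRange W.FunctionField = 2 * ht U V := by
    rw [e2, ← e1, mul_comm]
  exact Nat.eq_of_mul_eq_mul_left (by norm_num) this

/-- **(b)**: `[K : τ_S K] = ht U V` for the substitution embedding `τ_S` at a point `S = (xS, yS)` of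
`W(K)` with `xS = U(x)/V(x)`, `U, V` coprime. -/
theorem finrank_fieldRange_substHom {xS yS : W.FunctionField}
    (h : (W⁄W.FunctionField).Equation xS yS) (hX : Transcendental k xS) {U V : k[X]}
    (hUV : IsCoprime U V)
    (hx : xS * algebraMap k[X] W.FunctionField V = algebraMap k[X] W.FunctionField U) :
    Module.finrank (substHom W h hX).fieldRange W.FunctionField = ht U V := by
  apply finrank_fieldRange_of_apply_xK W (substHom W h hX) hUV
  rw [substHom_xK]
  exact hx

/-- `K` is finite-dimensional over `τ_S K`. -/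
theorem finiteDimensional_fieldRange_substHom {xS yS : W.FunctionField}
    (h : (W⁄W.FunctionField).Equation xS yS) (hX : Transcendental k xS) {U V : k[X]}
    (hUV : IsCoprime U V) (hpos : 0 < ht U V)
    (hx : xS * algebraMap k[X] W.FunctionField V = algebraMap k[X] W.FunctionField U) :
    FiniteDimensional (substHom W h hX).fieldRange W.FunctionField :=
  Module.finite_of_finrank_pos (by rw [finrank_fieldRange_substHom W h hX hUV hx]; exact hpos)

/-- `K` is algebraic over `τ_S K`. -/
theorem isAlgebraic_fieldRange_substHom {xS yS : W.FunctionField}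
    (h : (W⁄W.FunctionField).Equation xS yS) (hX : Transcendental k xS) {U V : k[X]}
    (hUV : IsCoprime U V) (hpos : 0 < ht U V)
    (hx : xS * algebraMap k[X] W.FunctionField V = algebraMap k[X] W.FunctionField U) :
    Algebra.IsAlgebraic (substHom W h hX).fieldRange W.FunctionField :=
  haveI := finiteDimensional_fieldRange_substHom W h hX hUV hpos hx
  Algebra.IsAlgebraic.of_finite _ _

/-- the transcendence of `xS`, from `SubstEmb17`. -/
theorem transcendental_x {xS : W.FunctionField} {U V : k[X]}
    (hUV : IsCoprime U V) (hpos : 0 < ht U V)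
    (hx : xS * algebraMap k[X] W.FunctionField V = algebraMap k[X] W.FunctionField U) :
    Transcendental k xS :=
  transcendental_of_isCoprime W hUV hpos hx

/-- **(b)** with the transcendence proof supplied by `transcendental_x`. -/
theorem finrank_fieldRange_substHom' {xS yS : W.FunctionField}
    (h : (W⁄W.FunctionField).Equation xS yS) {U V : k[X]}
    (hUV : IsCoprime U V) (hpos : 0 < ht U V)
    (hx : xS * algebraMap k[X] W.FunctionField V = algebraMap k[X] W.FunctionField U) :
    Module.finrank (substHom W h (transcendental_x W hUV hpos hx)).fieldRange W.FunctionField =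
      ht U V :=
  finrank_fieldRange_substHom W h _ hUV hx

end Fermat.Agent.ES.Q58.FieldDeg3
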