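/-
Programme Q (S58), PART I, brick I-5 (helper4): **separability of the function field over the image of the
substitution embedding at `S = P₀ − φ P₀`.**
-/
import Fermat.Agent.ES.Q58.SubstEmb17
import Fermat.Agent.ES.Q58.InsepLeaves5
import Fermat.Agent.ES.Q58.InsepLeavesB5
import Fermat.Agent.ES.Q58.InsepPoly9

set_option autoImplicit false

namespace Fermat.Agent.ES.Q58.Sep4

open WeierstrassCurve WeierstrassCurve.Affine Polynomial
open Fermat.Agent.ES.Q58.IotaDescent23 Fermat.Agent.ES.Q58.SubstEmb17

/-! ### A separability criterion -/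

/-- a root `x` of `g` with `g'(x) ≠ 0` is separable. -/
theorem isSeparable_of_aeval_derivative_ne_zero {F E : Type*} [Field F] [Field E] [Algebra F E]
    {x : E} {g : F[X]} (h0 : aeval x g = 0) (h1 : aeval x (derivative g) ≠ 0) :
    IsSeparable F x := by
  have hg : g ≠ 0 := by
    rintro rfl
    simp at h1
  have hint : IsIntegral F x := IsAlgebraic.isIntegral ⟨g, hg, h0⟩
  obtain ⟨h, hh⟩ := minpoly.dvd F x h0
  unfold IsSeparable
  rw [separable_iff_derivative_ne_zero (minpoly.irreducible hint)]
  intro hq
  apply h1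
  rw [hh, derivative_mul, hq, zero_mul, zero_add, map_mul, minpoly.aeval, zero_mul]


/-- a root `y` of `T² + b T − c` with `2 y + b ≠ 0` is separable. -/
theorem isSeparable_of_quadratic {F E : Type*} [Field F] [Field E] [Algebra F E] {y : E} (b c : F)
    (h0 : y ^ 2 + algebraMap F E b * y - algebraMap F E c = 0)
    (h1 : 2 * y + algebraMap F E b ≠ 0) : IsSeparable F y := by
  apply isSeparable_of_aeval_derivative_ne_zero (g := X ^ 2 + C b * X - C c)
  · rw [map_sub, map_add, map_mul, map_pow, aeval_X, aeval_C, aeval_C]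
    exact h0
  · have hder : derivative (X ^ 2 + C b * X - C c : F[X]) = C 2 * X + C b := by
      rw [derivative_sub, derivative_add, derivative_X_sq, derivative_C_mul, derivative_X,
        derivative_C, mul_one, sub_zero]
    rw [hder, map_add, map_mul, aeval_X, aeval_C, aeval_C, map_ofNat]
    exact h1

/-! ### The function field is generated by `x` and `y` -/

section Gen

variable {k : Type*} [Field k] (W : Affine k)

/-- the image of `p + q y` in the function field. -/
theorem algebraMap_smul_basis (p q : k[X]) :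
    algebraMap W.CoordinateRing W.FunctionField
        (p • (1 : W.CoordinateRing) + q • CoordinateRing.mk W Polynomial.X) =
      aeval (xK W) p + aeval (xK W) q * yK W := by
  rw [Algebra.smul_def, Algebra.smul_def, mul_one, map_add, map_mul,
    ← IsScalarTower.algebraMap_apply k[X] W.CoordinateRing W.FunctionField,
    ← IsScalarTower.algebraMap_apply k[X] W.CoordinateRing W.FunctionField, aeval_xK, aeval_xK]
  rfl

/-- **an intermediate field of `K / k` containing `x` and `y` is everything.** -/
theorem eq_top_of_xK_yK_mem (L : IntermediateField k W.FunctionField) (hx : xK W ∈ L)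
    (hy : yK W ∈ L) : L = ⊤ := by
  have hpoly : ∀ p : k[X], aeval (xK W) p ∈ L := by
    intro p
    have := IntermediateField.aeval_coe L (R := k) ⟨xK W, hx⟩ p
    rw [this]
    exact SetLike.coe_mem _
  have hcoord : ∀ a : W.CoordinateRing, algebraMap W.CoordinateRing W.FunctionField a ∈ L := by
    intro a
    obtain ⟨p, q, rfl⟩ := CoordinateRing.exists_smul_basis_eq a
    rw [algebraMap_smul_basis]
    exact add_mem (hpoly p) (mul_mem (hpoly q) hy)
  rw [eq_top_iff]
  intro z _
  obtain ⟨a, b, -, rfl⟩ := IsFractionRing.div_surjective (A := W.CoordinateRing) z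
  exact div_mem (hcoord a) (hcoord b)

end Gen


/-! ### Separability over the image of the substitution at `S = P₀ − φ P₀` -/

section Sep

variable (ℓ : ℕ) [Fact ℓ.Prime] (W : Affine (ZMod ℓ))

theorem baseChange_Δ_ne_zero (hΔ : W.Δ ≠ 0) (L : Type*) [Field L] [Algebra (ZMod ℓ) L] :
    (W⁄L).Δ ≠ 0 := by
  show (W.map (algebraMap (ZMod ℓ) L)).Δ ≠ 0
  rw [WeierstrassCurve.map_Δ]
  exact (map_ne_zero_iff _ (FaithfulSMul.algebraMap_injective (ZMod ℓ) L)).mpr hΔ

variable [DecidableEq W.FunctionField]

/-- `S = P₀ − φ P₀` is an odd point. -/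
theorem sub_frob_mem_oddPoints (hΔ : W.Δ ≠ 0) (φ : W.FunctionField →ₐ[ZMod ℓ] W.FunctionField)
    (hφ : ∀ z, φ z = z ^ ℓ) :
    genericPoint W hΔ - Point.map (W' := W) φ (genericPoint W hΔ) ∈ oddPoints W :=
  sub_mem (genericPoint_mem_oddPoints W hΔ)
    (map_mem_oddPoints W φ (fun z => by rw [hφ, hφ, map_pow]) (genericPoint_mem_oddPoints W hΔ))

/-- **the Wronskian of the `x`-coordinate of `S = P₀ − φ P₀` does not vanish** (else `S = φ S'`, so
`P₀ = φ (P₀ + S')` and `x` would be an `ℓ`-th power). -/
theorem wronskian_ne_zero (hΔ : W.Δ ≠ 0) (φ : W.FunctionField →ₐ[ZMod ℓ] W.FunctionField)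
    (hφ : ∀ z, φ z = z ^ ℓ) {xS yS : W.FunctionField} (h : (W⁄W.FunctionField).Nonsingular xS yS)
    (hX : Transcendental (ZMod ℓ) xS)
    (hS : genericPoint W hΔ - Point.map (W' := W) φ (genericPoint W hΔ) = Point.some xS yS h)
    {U V : (ZMod ℓ)[X]} (hUV : IsCoprime U V)
    (hx : xS * algebraMap (ZMod ℓ)[X] W.FunctionField V = algebraMap (ZMod ℓ)[X] W.FunctionField U) :
    derivative U * V ≠ U * derivative V := by
  intro hW
  obtain ⟨U₁, V₁, -, hU, hV⟩ := InsepPoly9.exists_pow_of_wronskian ℓ hUV hW
  have hcinj := algebraMap_functionField_injective W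
  have hV0 : V ≠ 0 := by
    rintro rfl
    rw [map_zero, mul_zero] at hx
    have hU0 : U = 0 := hcinj (by rw [← hx, map_zero])
    rw [hU0] at hUV
    exact not_isCoprime_zero_zero hUV
  have hV₁0 : V₁ ≠ 0 := by
    rintro rfl
    apply hV0
    rw [hV, zero_pow (Fact.out : ℓ.Prime).ne_zero]
  have hcV₁ : algebraMap (ZMod ℓ)[X] W.FunctionField V₁ ≠ 0 :=
    (map_ne_zero_iff _ hcinj).mpr hV₁0
  set w : W.FunctionField :=
    algebraMap (ZMod ℓ)[X] W.FunctionField U₁ / algebraMap (ZMod ℓ)[X] W.FunctionField V₁ with hw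
  have hwℓ : w ^ ℓ = xS := by
    rw [hw, div_pow, ← map_pow, ← map_pow, ← hU, ← hV, div_eq_iff ((map_ne_zero_iff _ hcinj).mpr hV0),
      hx]
  have hwrange : w ∉ Set.range (algebraMap (ZMod ℓ) W.FunctionField) := by
    rintro ⟨a, ha⟩
    apply hX
    rw [← hwℓ, ← ha, ← map_pow]
    exact isAlgebraic_algebraMap _
  have heq : (W.map (algebraMap (ZMod ℓ) W.FunctionField)).toAffine.Equation (w ^ ℓ) yS := by
    rw [hwℓ]
    exact h.1
  obtain ⟨y', hy', heq'⟩ := InsepLeavesB5.exists_frobenius_preimage_y_zmod ℓ W heq (by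
    intro h2
    subst h2
    exact InsepLeavesB5.a₁_mul_add_a₃_ne_zero W hΔ hwrange)
  have hns' : (W⁄W.FunctionField).Nonsingular w y' :=
    ((W⁄W.FunctionField).equation_iff_nonsingular_of_Δ_ne_zero
      (baseChange_Δ_ne_zero ℓ W hΔ W.FunctionField)).mp heq'
  -- `S = φ S'`
  have hS' : Point.map (W' := W) φ (Point.some w y' hns') = Point.some xS yS h := by
    rw [Point.map_some]
    simp only [hφ, hwℓ, hy']
  -- `P₀ = φ (P₀ + S')`
  have hP : genericPoint W hΔ =
      Point.map (W' := W) φ (genericPoint W hΔ + Point.some w y' hns') := by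
    rw [map_add, hS', ← hS]
    abel
  rcases hQ : genericPoint W hΔ + Point.some w y' hns' with _ | ⟨u, v, huv⟩
  · rw [hQ] at hP
    exact Point.some_ne_zero _ hP
  · rw [hQ, Point.map_some, IotaDescent23.genericPoint] at hP
    have hxu : xK W = φ u := (Point.some.inj hP).1
    rw [hφ] at hxu
    have : CharP (ZMod ℓ) ℓ := ZMod.charP ℓ
    exact InsepLeaves5.x_ne_pow' W ℓ hΔ u hxu.symm


/-- **(I-5) the function field is separable over the image of the substitution embedding at
`S = P₀ − φ P₀`.** -/
theorem isSeparable_fieldRange (hΔ : W.Δ ≠ 0) (φ : W.FunctionField →ₐ[ZMod ℓ] W.FunctionField)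
    (hφ : ∀ z, φ z = z ^ ℓ) {xS yS : W.FunctionField} (h : (W⁄W.FunctionField).Nonsingular xS yS)
    (hX : Transcendental (ZMod ℓ) xS)
    (hS : genericPoint W hΔ - Point.map (W' := W) φ (genericPoint W hΔ) = Point.some xS yS h) :
    Algebra.IsSeparable (substHom W h.1 hX).fieldRange W.FunctionField := by
  have hodd : Point.some xS yS h ∈ oddPoints W := hS ▸ sub_frob_mem_oddPoints ℓ W hΔ φ hφ
  obtain ⟨U, V, hUV, hV0, hx⟩ := exists_coprime_x_of_mem_oddPoints W hΔ h hodd
  have hWr := wronskian_ne_zero ℓ W hΔ φ hφ h hX hS hUV hx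
  have hcinj := algebraMap_functionField_injective W
  set F : IntermediateField (ZMod ℓ) W.FunctionField := (substHom W h.1 hX).fieldRange with hF
  -- `x` is separable over `F`
  have hxsep : IsSeparable F (xK W) := by
    let xF : F := ⟨xS, ⟨xK W, substHom_xK W h.1 hX⟩⟩
    have hxF : algebraMap F W.FunctionField xF = xS := rfl
    apply isSeparable_of_aeval_derivative_ne_zero
      (g := U.map (algebraMap (ZMod ℓ) F) - C xF * V.map (algebraMap (ZMod ℓ) F))
    · rw [map_sub, map_mul, aeval_map_algebraMap, aeval_map_algebraMap, aeval_C, hxF, aeval_xK,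
        aeval_xK, hx, sub_self]
    · rw [derivative_sub, derivative_C_mul, derivative_map, derivative_map, map_sub, map_mul,
        aeval_map_algebraMap, aeval_map_algebraMap, aeval_C, hxF, aeval_xK, aeval_xK]
      intro h0
      apply hWr
      apply hcinj
      rw [map_mul, map_mul]
      linear_combination (algebraMap (ZMod ℓ)[X] W.FunctionField V) * h0 +
        (algebraMap (ZMod ℓ)[X] W.FunctionField (derivative V)) * hx
  -- `y` is separable over the separable closure of `F`, hence over `F`
  have hxE : xK W ∈ separableClosure F W.FunctionField := mem_separableClosure_iff.mpr hxsep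
  have hysep : IsSeparable F (yK W) := by
    set E : IntermediateField F W.FunctionField := separableClosure F W.FunctionField with hE
    let xE : E := ⟨xK W, hxE⟩
    have hxEc : algebraMap E W.FunctionField xE = xK W := rfl
    have hyE : IsSeparable E (yK W) := by
      set b : E := algebraMap (ZMod ℓ) E W.a₁ * xE + algebraMap (ZMod ℓ) E W.a₃ with hb
      set c0 : E := xE ^ 3 + algebraMap (ZMod ℓ) E W.a₂ * xE ^ 2 + algebraMap (ZMod ℓ) E W.a₄ * xE +
            algebraMap (ZMod ℓ) E W.a₆ with hc0
      have hbK : algebraMap E W.FunctionField b =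
          algebraMap (ZMod ℓ) W.FunctionField W.a₁ * xK W +
            algebraMap (ZMod ℓ) W.FunctionField W.a₃ := by
        rw [hb, map_add, map_mul, hxEc, ← IsScalarTower.algebraMap_apply (ZMod ℓ) E W.FunctionField,
          ← IsScalarTower.algebraMap_apply (ZMod ℓ) E W.FunctionField]
      have hcK : algebraMap E W.FunctionField c0 =
          xK W ^ 3 + algebraMap (ZMod ℓ) W.FunctionField W.a₂ * xK W ^ 2 +
            algebraMap (ZMod ℓ) W.FunctionField W.a₄ * xK W +
            algebraMap (ZMod ℓ) W.FunctionField W.a₆ := by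
        rw [hc0]
        simp only [map_add, map_mul, map_pow, hxEc,
          ← IsScalarTower.algebraMap_apply (ZMod ℓ) E W.FunctionField]
      apply isSeparable_of_quadratic b c0
      · have heq := equation_xK_yK W
        rw [equation_iff] at heq
        simp only [baseChange_a₁, baseChange_a₂, baseChange_a₃, baseChange_a₄, baseChange_a₆] at heq
        rw [hbK, hcK]
        linear_combination heq
      · have hne := two_yK_ne_zero W hΔ
        rw [hbK]
        intro h0
        apply hne
        linear_combination h0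
    exact IsSeparable.of_algebra_isSeparable_of_isSeparable F hyE
  have hyE : yK W ∈ separableClosure F W.FunctionField := mem_separableClosure_iff.mpr hysep
  rw [← separableClosure.eq_top_iff]
  have htop := eq_top_of_xK_yK_mem W
    ((separableClosure F W.FunctionField).restrictScalars (ZMod ℓ)) hxE hyE
  rw [eq_top_iff]
  intro z _
  have : z ∈ (separableClosure F W.FunctionField).restrictScalars (ZMod ℓ) := by
    rw [htop]; trivial
  exact this

end Sep

end Fermat.Agent.ES.Q58.Sep4
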