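/-
Programme Q (S58), PART I, brick I-6 (helper4): **Manin's lemma, Galois form.**
-/
import Fermat.Agent.ES.Q58.Sep4
import Fermat.Agent.ES.Q58.FrobAlg2

set_option autoImplicit false

namespace Fermat.Agent.ES.Q58.Manin4

open WeierstrassCurve WeierstrassCurve.Affine Polynomial
open Fermat.Agent.ES.Q58.IotaDescent23 Fermat.Agent.ES.Q58.SubstEmb17

/-! ### Frobenius-fixed elements and points -/

section Fixed

variable (ℓ : ℕ) [Fact ℓ.Prime]

/-- elements of a field over `ZMod ℓ` fixed by Frobenius lie in the prime field. -/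
theorem mem_range_of_pow_eq_self {L : Type*} [Field L] [Algebra (ZMod ℓ) L] {u : L}
    (hu : u ^ ℓ = u) : u ∈ Set.range (algebraMap (ZMod ℓ) L) := by
  have : CharP L ℓ :=
    charP_of_injective_algebraMap (FaithfulSMul.algebraMap_injective (ZMod ℓ) L) ℓ
  have h1 := (Subfield.mem_bot_iff_pow_eq_self L ℓ).mpr hu
  have h2 : (⊥ : Subfield L) ≤ (algebraMap (ZMod ℓ) L).fieldRange := bot_le
  exact h2 h1

variable (W : Affine (ZMod ℓ))

/-- points fixed by Frobenius are rational over the prime field. -/
theorem mem_range_of_map_frob_eq {L : Type*} [Field L] [Algebra (ZMod ℓ) L] [DecidableEq L]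
    (ψ : L →ₐ[ZMod ℓ] L) (hψ : ∀ z, ψ z = z ^ ℓ) (Q : (W⁄L).Point)
    (hQ : Point.map (W' := W) ψ Q = Q) :
    Q ∈ Set.range (Point.map (W' := W) (Algebra.ofId (ZMod ℓ) L)) := by
  cases Q with
  | zero => exact ⟨0, rfl⟩
  | some u v huv =>
    rw [Point.map_some] at hQ
    obtain ⟨hu, hv⟩ := Point.some.inj hQ
    rw [hψ] at hu hv
    obtain ⟨a, rfl⟩ := mem_range_of_pow_eq_self ℓ hu
    obtain ⟨b, rfl⟩ := mem_range_of_pow_eq_self ℓ hv
    have h' : (W⁄(ZMod ℓ)).Nonsingular a b :=
      (W.baseChange_nonsingular (Algebra.ofId (ZMod ℓ) L).injective a b).mp huv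
    exact ⟨Point.some a b h', by rw [Point.map_some]; rfl⟩

end Fixed


/-! ### The embeddings of `K` over the image of the substitution at `S = P₀ − φ P₀` -/

section Manin

variable (ℓ : ℕ) [Fact ℓ.Prime] (W : Affine (ZMod ℓ)) [DecidableEq W.FunctionField]

/-- the generic point is not an algebraic point. -/
theorem genericPoint_not_mem_algPoints (hΔ : W.Δ ≠ 0) :
    genericPoint W hΔ ∉ algPoints W W.FunctionField := by
  rw [IotaDescent23.genericPoint, some_mem_algPoints_iff]
  exact transcendental_xK W

/-- translating the generic point by a rational point `D`: the point `P₀ + D` has a transcendental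
`x`-coordinate. -/
theorem exists_some_genericPoint_add (hΔ : W.Δ ≠ 0) (D : (W⁄(ZMod ℓ)).Point) :
    ∃ (u v : W.FunctionField) (huv : (W⁄W.FunctionField).Nonsingular u v),
      Transcendental (ZMod ℓ) u ∧
      genericPoint W hΔ + Point.map (W' := W) (Algebra.ofId (ZMod ℓ) W.FunctionField) D =
        Point.some u v huv := by
  have hD : Point.map (W' := W) (Algebra.ofId (ZMod ℓ) W.FunctionField) D ∈
      algPoints W W.FunctionField := map_mem_algPoints W _ D
  rcases hR : genericPoint W hΔ +
      Point.map (W' := W) (Algebra.ofId (ZMod ℓ) W.FunctionField) D with _ | ⟨u, v, huv⟩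
  · exfalso
    apply genericPoint_not_mem_algPoints ℓ W hΔ
    have : genericPoint W hΔ =
        -Point.map (W' := W) (Algebra.ofId (ZMod ℓ) W.FunctionField) D := by
      rw [eq_neg_iff_add_eq_zero]; exact hR
    rw [this]
    exact neg_mem hD
  · exact ⟨u, v, huv, transcendental_of_genericPoint_add W hΔ hD huv hR, rfl⟩


variable (hΔ : W.Δ ≠ 0) (φ : W.FunctionField →ₐ[ZMod ℓ] W.FunctionField) (hφ : ∀ z, φ z = z ^ ℓ)
  {xS yS : W.FunctionField} (h : (W⁄W.FunctionField).Nonsingular xS yS)
  (hX : Transcendental (ZMod ℓ) xS)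
  (hS : genericPoint W hΔ - Point.map (W' := W) φ (genericPoint W hΔ) = Point.some xS yS h)

include hφ hS in
/-- the translation by a rational point fixes `S = P₀ − φ P₀`. -/
theorem substHom_fix (D : (W⁄(ZMod ℓ)).Point) {u v : W.FunctionField}
    (huv : (W⁄W.FunctionField).Nonsingular u v) (hu : Transcendental (ZMod ℓ) u)
    (hR : genericPoint W hΔ + Point.map (W' := W) (Algebra.ofId (ZMod ℓ) W.FunctionField) D =
      Point.some u v huv) :
    substHom W huv.1 hu xS = xS ∧ substHom W huv.1 hu yS = yS := by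
  set t := substHom W huv.1 hu with ht
  have h1 : Point.map (W' := W) t (genericPoint W hΔ) = Point.some u v huv :=
    map_substHom_genericPoint W hΔ huv hu
  have hcomm : t.comp φ = φ.comp t := AlgHom.ext fun z => by
    rw [AlgHom.comp_apply, AlgHom.comp_apply, hφ, hφ, map_pow]
  have h2 : Point.map (W' := W) t (Point.map (W' := W) φ (genericPoint W hΔ)) =
      Point.map (W' := W) φ (Point.map (W' := W) t (genericPoint W hΔ)) := by
    rw [Point.map_map, Point.map_map, hcomm]
  have hφD : φ.comp (Algebra.ofId (ZMod ℓ) W.FunctionField) =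
      Algebra.ofId (ZMod ℓ) W.FunctionField := AlgHom.ext fun a => by
    rw [AlgHom.comp_apply]
    exact φ.commutes a
  have h3 : Point.map (W' := W) φ
      (Point.map (W' := W) (Algebra.ofId (ZMod ℓ) W.FunctionField) D) =
      Point.map (W' := W) (Algebra.ofId (ZMod ℓ) W.FunctionField) D := by
    rw [Point.map_map, hφD]
  have h4 : Point.map (W' := W) t (Point.some xS yS h) = Point.some xS yS h := by
    rw [← hS, map_sub, h2, h1, ← hR, map_add, h3]
    abel
  rw [Point.map_some] at h4
  exact ⟨(Point.some.inj h4).1, (Point.some.inj h4).2⟩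


local notation "Ω" => AlgebraicClosure W.FunctionField
local notation "ι" => IsScalarTower.toAlgHom (ZMod ℓ) W.FunctionField (AlgebraicClosure W.FunctionField)

omit [DecidableEq W.FunctionField] in
/-- an embedding over the range of the substitution at `S` fixes the coordinates of `S`. -/
theorem emb_fix (σ : Field.Emb (substHom W h.1 hX).fieldRange W.FunctionField) :
    σ xS = algebraMap W.FunctionField Ω xS ∧ σ yS = algebraMap W.FunctionField Ω yS := by
  have key : ∀ z : W.FunctionField, σ (substHom W h.1 hX z) =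
      algebraMap W.FunctionField Ω (substHom W h.1 hX z) := by
    intro z
    exact σ.commutes ⟨substHom W h.1 hX z, ⟨z, rfl⟩⟩
  have hx := key (xK W)
  have hy := key (yK W)
  rw [substHom_xK] at hx
  rw [substHom_yK] at hy
  exact ⟨hx, hy⟩


open scoped Classical in
include hφ hS in
/-- the image of the generic point under an embedding over the range of the substitution at `S`
differs from the generic point by a rational point. -/
theorem emb_point (σ : Field.Emb (substHom W h.1 hX).fieldRange W.FunctionField) :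
    ∃ D : (W⁄(ZMod ℓ)).Point,
      Point.map (W' := W) (σ.restrictScalars (ZMod ℓ)) (genericPoint W hΔ) =
        Point.map (W' := W) ι
          (genericPoint W hΔ + Point.map (W' := W) (Algebra.ofId (ZMod ℓ) W.FunctionField) D) := by
  set σk : W.FunctionField →ₐ[ZMod ℓ] Ω := σ.restrictScalars (ZMod ℓ) with hσk
  set ψ : Ω →ₐ[ZMod ℓ] Ω := FrobAlg2.frobAlg ℓ Ω with hψ
  obtain ⟨hfx, hfy⟩ := emb_fix ℓ W h hX σ
  -- `σ S = ι S`
  have h1 : Point.map (W' := W) σk (Point.some xS yS h) =
      Point.map (W' := W) ι (Point.some xS yS h) := by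
    rw [Point.map_some, Point.map_some]
    congr 1
  -- commutation with Frobenius
  have hc1 : σk.comp φ = ψ.comp σk := AlgHom.ext fun z => by
    rw [AlgHom.comp_apply, AlgHom.comp_apply, hφ, map_pow]; rfl
  have hc2 : (ι : W.FunctionField →ₐ[ZMod ℓ] Ω).comp φ = ψ.comp ι := AlgHom.ext fun z => by
    rw [AlgHom.comp_apply, AlgHom.comp_apply, hφ, map_pow]; rfl
  have h2 : Point.map (W' := W) σk (genericPoint W hΔ) -
        Point.map (W' := W) ψ (Point.map (W' := W) σk (genericPoint W hΔ)) =
      Point.map (W' := W) ι (genericPoint W hΔ) -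
        Point.map (W' := W) ψ (Point.map (W' := W) ι (genericPoint W hΔ)) := by
    rw [Point.map_map, Point.map_map, ← hc1, ← hc2, ← Point.map_map, ← Point.map_map, ← map_sub,
      ← map_sub, hS, h1]
  have h3 : Point.map (W' := W) ψ (Point.map (W' := W) σk (genericPoint W hΔ) -
        Point.map (W' := W) ι (genericPoint W hΔ)) =
      Point.map (W' := W) σk (genericPoint W hΔ) - Point.map (W' := W) ι (genericPoint W hΔ) := by
    rw [map_sub]
    exact (sub_eq_sub_iff_sub_eq_sub.mp h2).symm
  obtain ⟨D, hD⟩ := mem_range_of_map_frob_eq ℓ W ψ (fun _ => rfl) _ h3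
  refine ⟨D, ?_⟩
  have hιD : (ι : W.FunctionField →ₐ[ZMod ℓ] Ω).comp (Algebra.ofId (ZMod ℓ) W.FunctionField) =
      Algebra.ofId (ZMod ℓ) Ω := AlgHom.ext fun a => by
    rw [AlgHom.comp_apply]
    exact (ι : W.FunctionField →ₐ[ZMod ℓ] Ω).commutes a
  rw [map_add, Point.map_map, hιD, hD]
  abel


open scoped Classical in
include hφ hS in
/-- every rational point `D` gives an embedding over the range of the substitution at `S`, sending the
generic point to `P₀ + D`. -/
theorem exists_emb (D : (W⁄(ZMod ℓ)).Point) :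
    ∃ σ : Field.Emb (substHom W h.1 hX).fieldRange W.FunctionField,
      Point.map (W' := W) (σ.restrictScalars (ZMod ℓ)) (genericPoint W hΔ) =
        Point.map (W' := W) ι
          (genericPoint W hΔ + Point.map (W' := W) (Algebra.ofId (ZMod ℓ) W.FunctionField) D) := by
  obtain ⟨u, v, huv, hu, hR⟩ := exists_some_genericPoint_add ℓ W hΔ D
  obtain ⟨hfx, hfy⟩ := substHom_fix ℓ W hΔ φ hφ h hS D huv hu hR
  set t := substHom W huv.1 hu with ht
  -- `t ∘ τ = τ`
  have hcomp : t.comp (substHom W h.1 hX) = substHom W h.1 hX := by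
    apply SubstEmb17.algHom_ext
    · rw [AlgHom.comp_apply, substHom_xK, hfx]
    · rw [AlgHom.comp_apply, substHom_yK, hfy]
  let σ : Field.Emb (substHom W h.1 hX).fieldRange W.FunctionField :=
    { ((ι : W.FunctionField →ₐ[ZMod ℓ] Ω).comp t : W.FunctionField →+* Ω) with
      commutes' := by
        rintro ⟨_, ⟨z, rfl⟩⟩
        show (ι : W.FunctionField →ₐ[ZMod ℓ] Ω) (t (substHom W h.1 hX z)) =
          algebraMap W.FunctionField Ω (substHom W h.1 hX z)
        rw [← AlgHom.comp_apply t, hcomp]
        rfl }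
  refine ⟨σ, ?_⟩
  have hσ : σ.restrictScalars (ZMod ℓ) = (ι : W.FunctionField →ₐ[ZMod ℓ] Ω).comp t :=
    AlgHom.ext fun z => rfl
  rw [hσ, ← Point.map_map, map_substHom_genericPoint W hΔ huv hu, hR]


open scoped Classical in
include hφ hS in
/-- **(I-6) Manin's lemma, Galois form**: the number of embeddings of `K` over the range of the
substitution at `S = P₀ − φ P₀` is the number of rational points. -/
theorem finSepDegree_eq_card :
    Field.finSepDegree (substHom W h.1 hX).fieldRange W.FunctionField =
      Nat.card (W⁄(ZMod ℓ)).Point := by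
  let Φ : Field.Emb (substHom W h.1 hX).fieldRange W.FunctionField → (W⁄Ω).Point :=
    fun σ => Point.map (W' := W) (σ.restrictScalars (ZMod ℓ)) (genericPoint W hΔ)
  let Θ : (W⁄(ZMod ℓ)).Point → (W⁄Ω).Point := fun D => Point.map (W' := W) ι
    (genericPoint W hΔ + Point.map (W' := W) (Algebra.ofId (ZMod ℓ) W.FunctionField) D)
  have hΦ : Function.Injective Φ := by
    intro σ σ' hσ
    simp only [Φ, IotaDescent23.genericPoint, Point.map_some] at hσ
    apply AlgHom.restrictScalars_injective (ZMod ℓ)
    exact SubstEmb17.algHom_ext W (Point.some.inj hσ).1 (Point.some.inj hσ).2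
  have hΘ : Function.Injective Θ := by
    intro D D' hD
    exact Point.map_injective _ (add_left_cancel (Point.map_injective _ hD))
  have hrange : Set.range Φ = Set.range Θ := by
    ext Q
    constructor
    · rintro ⟨σ, rfl⟩
      obtain ⟨D, hD⟩ := emb_point ℓ W hΔ φ hφ h hX hS σ
      exact ⟨D, hD.symm⟩
    · rintro ⟨D, rfl⟩
      obtain ⟨σ, hσ⟩ := exists_emb ℓ W hΔ φ hφ h hX hS D
      exact ⟨σ, hσ⟩
  unfold Field.finSepDegree
  rw [← Nat.card_range_of_injective hΦ, hrange, Nat.card_range_of_injective hΘ]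

end Manin

end Fermat.Agent.ES.Q58.Manin4
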