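/-
Programme Q (S58), PART I, bricks I-4 + I-5 + I-6 assembled (helper4): **Manin's lemma**
`xdeg (P₀ − φ P₀) = #W(𝔽_ℓ)`.
-/
import Fermat.Agent.ES.Q58.Manin4
import Fermat.Agent.ES.Q58.FieldDeg3
import Fermat.Agent.ES.Q58.XDeg1
import Fermat.Agent.ES.Q58.XDegMul2

set_option autoImplicit false

namespace Fermat.Agent.ES.Q58.ManinDeg4

open WeierstrassCurve WeierstrassCurve.Affine Polynomial
open Fermat.Agent.ES.Q58.IotaDescent23 Fermat.Agent.ES.Q58.SubstEmb17
open Fermat.Agent.ES.Q58.FrobAlg2 Fermat.Agent.ES.Q58.XDeg1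

variable (ℓ : ℕ) [Fact ℓ.Prime] (W : Affine (ZMod ℓ)) [DecidableEq W.FunctionField]

omit [Fact ℓ.Prime] [DecidableEq W.FunctionField] in
/-- the points over the base field of the trivial base change. -/
theorem card_baseChange_self :
    Nat.card (W⁄(ZMod ℓ)).Point = Nat.card W.toAffine.Point := by
  have : W.baseChange (ZMod ℓ) = W := by
    ext <;> rfl
  exact congrArg (fun W' : WeierstrassCurve (ZMod ℓ) => Nat.card W'.toAffine.Point) this

/-- an odd point of `x`-degree `0` is an algebraic point. -/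
theorem mem_algPoints_of_xdeg_eq_zero (hΔ : W.Δ ≠ 0) {R : (W⁄W.FunctionField).Point}
    (hR : R ∈ oddPoints W) (h0 : xdeg W R = 0) : R ∈ algPoints W W.FunctionField := by
  rcases (xdeg_eq_zero_iff W hΔ hR).mp h0 with rfl | ⟨a, y, h, rfl⟩
  · exact zero_mem _
  · rw [some_mem_algPoints_iff]
    exact isAlgebraic_algebraMap a

/-- `xdeg (φ P₀) = ℓ`. -/
theorem xdeg_frob_genericPoint (hΔ : W.Δ ≠ 0) :
    xdeg W (Point.map (W' := W) (frobAlg ℓ W.FunctionField) (genericPoint W hΔ)) = ℓ := by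
  have := XDegMul2.xdeg_map_frobK_of ℓ W (xdeg W) (xdeg_zero W)
    (fun h _ _ hUV hx => xdeg_some_eq h hUV hx) hΔ (genericPoint_mem_oddPoints W hΔ)
  rw [xdeg_genericPoint, mul_one] at this
  exact this

/-- `S = P₀ − φ P₀` has positive `x`-degree. -/
theorem xdeg_sub_frob_pos (hΔ : W.Δ ≠ 0) :
    0 < xdeg W (genericPoint W hΔ -
      Point.map (W' := W) (frobAlg ℓ W.FunctionField) (genericPoint W hΔ)) := by
  rw [Nat.pos_iff_ne_zero]
  intro h0
  set P₀ := genericPoint W hΔ with hP₀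
  set φ := frobAlg ℓ W.FunctionField with hφ
  set S := P₀ - Point.map (W' := W) φ P₀ with hS
  have hP₀odd : P₀ ∈ oddPoints W := genericPoint_mem_oddPoints W hΔ
  have hSodd : S ∈ oddPoints W := Sep4.sub_frob_mem_oddPoints ℓ W hΔ φ (fun _ => rfl)
  have hSalg : S ∈ algPoints W W.FunctionField := mem_algPoints_of_xdeg_eq_zero ℓ W hΔ hSodd h0
  have hpar := xdeg_parallelogram W hΔ hP₀odd hSodd
  have hsub : P₀ - S = Point.map (W' := W) φ P₀ := by rw [hS]; abel
  rw [hsub, xdeg_frob_genericPoint ℓ W hΔ, xdeg_genericPoint, h0] at hpar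
  have hℓ : 2 ≤ ℓ := (Fact.out : ℓ.Prime).two_le
  have h1 : xdeg W (P₀ + S) = 0 := by omega
  have h2 : P₀ + S ∈ algPoints W W.FunctionField :=
    mem_algPoints_of_xdeg_eq_zero ℓ W hΔ (add_mem hP₀odd hSodd) h1
  apply Manin4.genericPoint_not_mem_algPoints ℓ W hΔ
  have : P₀ = (P₀ + S) - S := by abel
  rw [← hP₀, this]
  exact sub_mem h2 hSalg


/-- **Manin's lemma**: `xdeg (P₀ − φ P₀) = #W(𝔽_ℓ)`. -/
theorem xdeg_sub_frob (hΔ : W.Δ ≠ 0) :
    xdeg W (genericPoint W hΔ -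
      Point.map (W' := W) (frobAlg ℓ W.FunctionField) (genericPoint W hΔ)) =
      Nat.card W.toAffine.Point := by
  have hpos := xdeg_sub_frob_pos ℓ W hΔ
  have hSodd := Sep4.sub_frob_mem_oddPoints ℓ W hΔ (frobAlg ℓ W.FunctionField) (fun _ => rfl)
  rcases hS : genericPoint W hΔ -
      Point.map (W' := W) (frobAlg ℓ W.FunctionField) (genericPoint W hΔ) with _ | ⟨xS, yS, h⟩
  · rw [hS] at hpos
    exact absurd (xdeg_zero W) hpos.ne'
  · rw [hS] at hpos hSodd
    have hX : Transcendental (ZMod ℓ) xS := transcendental_of_xdeg_pos W h hpos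
    obtain ⟨U, V, hUV, -, hx⟩ := exists_coprime_x_of_mem_oddPoints W hΔ h hSodd
    rw [xdeg_some_eq h hUV hx, ← FieldDeg3.finrank_fieldRange_substHom W h.1 hX hUV hx]
    have hsep := Sep4.isSeparable_fieldRange ℓ W hΔ (frobAlg ℓ W.FunctionField) (fun _ => rfl) h hX hS
    rw [← Field.finSepDegree_eq_finrank_of_isSeparable,
      Manin4.finSepDegree_eq_card ℓ W hΔ (frobAlg ℓ W.FunctionField) (fun _ => rfl) h hX hS,
      card_baseChange_self]

/-- Manin's lemma, `ℤ`-valued form on the group of odd points (the shape used with `QuadRel18`). -/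
theorem dZ_sub_frob (hΔ : W.Δ ≠ 0) :
    dZ W (⟨genericPoint W hΔ, genericPoint_mem_oddPoints W hΔ⟩ -
      ⟨Point.map (W' := W) (frobAlg ℓ W.FunctionField) (genericPoint W hΔ),
        map_frobAlg_mem_oddPoints ℓ W (genericPoint_mem_oddPoints W hΔ)⟩) =
      (Nat.card W.toAffine.Point : ℤ) := by
  rw [dZ_apply]
  exact congrArg (Nat.cast : ℕ → ℤ) (xdeg_sub_frob ℓ W hΔ)

end Fermat.Agent.ES.Q58.ManinDeg4
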