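/-
Programme Q (S58), PART II (helper5): the reduction relation on prime-to-residue odd torsion.

Abstract setting: `L` a field, `A` a valuation subring, `ρ : A →+* κ` a ring homomorphism to a field
whose kernel is the maximal ideal.  `V` a Weierstrass curve over `L` with coefficients in `A`,
`Vt` its reduction over `κ` (`CurveRed`), assumed of good reduction (`Vt.Δ ≠ 0`).

`RedPt P Pt` : the point `P` of `V` reduces to the point `Pt` of `Vt` (`O ↦ O`,
`(x, y) ↦ (ρ x, ρ y)`, integral coordinates).  For `m` odd with `v m = 1`: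
* every point killed by `m` has a reduction (`exists_redPt`);
* reduction is injective on points killed by `m` (`redPt_inj`);
* reduction is additive on points killed by `m` (`redPt_add`, `redPt_neg`, `redPt_nsmul`,
  `redPt_zsmul`, `redPt_sub`);
* reduction commutes with a pair of field maps compatible with `ρ` (`redPt_map`).
-/
import Mathlib
import Fermat.Agent.S05.Kernel
import Fermat.Agent.ES.EC.CongE1_20

set_option autoImplicit false

open WeierstrassCurve WeierstrassCurve.Affine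

namespace Fermat.Agent.ES.Q58.RedHom5

open Fermat.Agent.S05.Kernel Fermat.Agent.ES.EC.CongE1_20

/-! ### The reduction relation on elements -/

section Red

variable {L : Type*} [Field L] (A : ValuationSubring L) {κ : Type*} [Field κ] (ρ : A →+* κ)

/-- `x` lies in `A` and reduces to `c`. -/
def Red (x : L) (c : κ) : Prop := ∃ h : x ∈ A, ρ ⟨x, h⟩ = c

variable {A ρ}

theorem Red.mem {x : L} {c : κ} (h : Red A ρ x c) : x ∈ A := h.1

theorem Red.val_le {x : L} {c : κ} (h : Red A ρ x c) : A.valuation x ≤ 1 :=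
  (A.valuation_le_one_iff x).mpr h.1

theorem Red.unique {x : L} {c d : κ} (h : Red A ρ x c) (h' : Red A ρ x d) : c = d := by
  obtain ⟨h1, rfl⟩ := h
  obtain ⟨h2, rfl⟩ := h'
  rfl

theorem red_of_mem {x : L} (h : x ∈ A) : Red A ρ x (ρ ⟨x, h⟩) := ⟨h, rfl⟩

theorem red_of_val_le {x : L} (h : A.valuation x ≤ 1) : ∃ c : κ, Red A ρ x c :=
  ⟨_, red_of_mem ((A.valuation_le_one_iff x).mp h)⟩

theorem red_zero : Red A ρ 0 0 := ⟨A.zero_mem, map_zero ρ⟩

theorem red_one : Red A ρ 1 1 := ⟨A.one_mem, map_one ρ⟩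

theorem Red.add {x y : L} {c d : κ} (hx : Red A ρ x c) (hy : Red A ρ y d) :
    Red A ρ (x + y) (c + d) := by
  obtain ⟨h1, rfl⟩ := hx
  obtain ⟨h2, rfl⟩ := hy
  exact ⟨A.add_mem _ _ h1 h2, map_add ρ ⟨x, h1⟩ ⟨y, h2⟩⟩

theorem Red.mul {x y : L} {c d : κ} (hx : Red A ρ x c) (hy : Red A ρ y d) :
    Red A ρ (x * y) (c * d) := by
  obtain ⟨h1, rfl⟩ := hx
  obtain ⟨h2, rfl⟩ := hy
  exact ⟨A.mul_mem _ _ h1 h2, map_mul ρ ⟨x, h1⟩ ⟨y, h2⟩⟩

theorem Red.neg {x : L} {c : κ} (hx : Red A ρ x c) : Red A ρ (-x) (-c) := by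
  obtain ⟨h1, rfl⟩ := hx
  exact ⟨A.neg_mem _ h1, map_neg ρ ⟨x, h1⟩⟩

theorem Red.sub {x y : L} {c d : κ} (hx : Red A ρ x c) (hy : Red A ρ y d) :
    Red A ρ (x - y) (c - d) := by
  rw [sub_eq_add_neg, sub_eq_add_neg]
  exact hx.add hy.neg

theorem Red.pow {x : L} {c : κ} (hx : Red A ρ x c) (n : ℕ) : Red A ρ (x ^ n) (c ^ n) := by
  induction n with
  | zero => rw [pow_zero, pow_zero]; exact red_one
  | succ n ih => rw [pow_succ, pow_succ]; exact ih.mul hx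

theorem red_natCast (n : ℕ) : Red A ρ (n : L) (n : κ) := by
  induction n with
  | zero => rw [Nat.cast_zero, Nat.cast_zero]; exact red_zero
  | succ n ih => rw [Nat.cast_succ, Nat.cast_succ]; exact ih.add red_one

theorem red_two : Red A ρ (2 : L) (2 : κ) := by
  have := red_natCast (A := A) (ρ := ρ) 2
  simpa using this

theorem red_three : Red A ρ (3 : L) (3 : κ) := by
  have := red_natCast (A := A) (ρ := ρ) 3
  simpa using this

/-- the kernel of `ρ` is the maximal ideal. -/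
def KerMax (A : ValuationSubring L) (ρ : A →+* κ) : Prop :=
  ∀ a : A, ρ a = 0 ↔ A.valuation (a : L) < 1

theorem red_zero_iff (hρ : KerMax A ρ) {x : L} : Red A ρ x 0 ↔ A.valuation x < 1 := by
  constructor
  · rintro ⟨h, h0⟩
    exact (hρ ⟨x, h⟩).mp h0
  · intro h
    have hx : x ∈ A := (A.valuation_le_one_iff x).mp h.le
    exact ⟨hx, (hρ ⟨x, hx⟩).mpr h⟩

theorem Red.val_sub_lt (hρ : KerMax A ρ) {x y : L} {c : κ} (hx : Red A ρ x c)
    (hy : Red A ρ y c) : A.valuation (x - y) < 1 := by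
  have := hx.sub hy
  rw [sub_self] at this
  exact (red_zero_iff hρ).mp this

theorem Red.val_eq_one (hρ : KerMax A ρ) {x : L} {c : κ} (hx : Red A ρ x c) (hc : c ≠ 0) :
    A.valuation x = 1 := by
  apply le_antisymm hx.val_le
  by_contra hlt
  push Not at hlt
  exact hc (hx.unique ((red_zero_iff hρ).mpr hlt))

theorem Red.eq_zero_of_val_lt (hρ : KerMax A ρ) {x : L} {c : κ} (hx : Red A ρ x c)
    (h : A.valuation x < 1) : c = 0 :=
  hx.unique ((red_zero_iff hρ).mpr h)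

theorem Red.inv (hρ : KerMax A ρ) {x : L} {c : κ} (hx : Red A ρ x c) (hc : c ≠ 0) :
    Red A ρ x⁻¹ c⁻¹ := by
  have hv : A.valuation x = 1 := hx.val_eq_one hρ hc
  have hx0 : x ≠ 0 := by
    rintro rfl
    rw [map_zero] at hv
    exact zero_ne_one hv
  have hinv : x⁻¹ ∈ A := by
    rw [← A.valuation_le_one_iff, map_inv₀, hv, inv_one]
  have h1 := (red_of_mem (ρ := ρ) hinv).mul hx
  rw [inv_mul_cancel₀ hx0] at h1
  have h2 : ρ ⟨x⁻¹, hinv⟩ * c = 1 := h1.unique red_one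
  refine ⟨hinv, ?_⟩
  exact eq_inv_of_mul_eq_one_left h2

theorem Red.div (hρ : KerMax A ρ) {x y : L} {c d : κ} (hx : Red A ρ x c) (hy : Red A ρ y d)
    (hd : d ≠ 0) : Red A ρ (x / y) (c / d) := by
  rw [div_eq_mul_inv, div_eq_mul_inv]
  exact hx.mul (hy.inv hρ hd)

end Red

/-! ### Curves -/

section Curve

variable {L : Type*} [Field L] (A : ValuationSubring L) {κ : Type*} [Field κ] (ρ : A →+* κ)

/-- The curve `Vt` over `κ` is the reduction of the curve `V` over `L`. -/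
structure CurveRed (V : Affine L) (Vt : Affine κ) : Prop where
  a₁ : Red A ρ V.a₁ Vt.a₁
  a₂ : Red A ρ V.a₂ Vt.a₂
  a₃ : Red A ρ V.a₃ Vt.a₃
  a₄ : Red A ρ V.a₄ Vt.a₄
  a₆ : Red A ρ V.a₆ Vt.a₆

variable {A ρ} {V : Affine L} {Vt : Affine κ}

theorem CurveRed.integralCoeffs (hV : CurveRed A ρ V Vt) : IntegralCoeffs A.valuation V :=
  ⟨hV.a₁.val_le, hV.a₂.val_le, hV.a₃.val_le, hV.a₄.val_le, hV.a₆.val_le⟩

theorem CurveRed.equation (hV : CurveRed A ρ V Vt) {x y : L} {c d : κ} (h : V.Equation x y)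
    (hx : Red A ρ x c) (hy : Red A ρ y d) : Vt.Equation c d := by
  rw [equation_iff] at h ⊢
  have hl : Red A ρ (y ^ 2 + V.a₁ * x * y + V.a₃ * y) (d ^ 2 + Vt.a₁ * c * d + Vt.a₃ * d) :=
    ((hy.pow 2).add ((hV.a₁.mul hx).mul hy)).add (hV.a₃.mul hy)
  have hr : Red A ρ (x ^ 3 + V.a₂ * x ^ 2 + V.a₄ * x + V.a₆)
      (c ^ 3 + Vt.a₂ * c ^ 2 + Vt.a₄ * c + Vt.a₆) :=
    (((hx.pow 3).add (hV.a₂.mul (hx.pow 2))).add (hV.a₄.mul hx)).add hV.a₆
  rw [h] at hl
  exact hl.unique hr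

theorem CurveRed.nonsingular (hV : CurveRed A ρ V Vt) (hΔ : Vt.Δ ≠ 0) {x y : L} {c d : κ}
    (h : V.Equation x y) (hx : Red A ρ x c) (hy : Red A ρ y d) : Vt.Nonsingular c d :=
  (Vt.equation_iff_nonsingular_of_Δ_ne_zero hΔ).mp (hV.equation h hx hy)

theorem CurveRed.negY (hV : CurveRed A ρ V Vt) {x y : L} {c d : κ}
    (hx : Red A ρ x c) (hy : Red A ρ y d) : Red A ρ (V.negY x y) (Vt.negY c d) := by
  unfold Affine.negY
  exact (hy.neg.sub (hV.a₁.mul hx)).sub hV.a₃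

theorem CurveRed.addX (hV : CurveRed A ρ V Vt) {x₁ x₂ l : L} {c₁ c₂ lt : κ}
    (hx₁ : Red A ρ x₁ c₁) (hx₂ : Red A ρ x₂ c₂) (hl : Red A ρ l lt) :
    Red A ρ (V.addX x₁ x₂ l) (Vt.addX c₁ c₂ lt) := by
  unfold Affine.addX
  exact ((((hl.pow 2).add (hV.a₁.mul hl)).sub hV.a₂).sub hx₁).sub hx₂

theorem CurveRed.negAddY (hV : CurveRed A ρ V Vt) {x₁ x₂ y₁ l : L} {c₁ c₂ d₁ lt : κ}
    (hx₁ : Red A ρ x₁ c₁) (hx₂ : Red A ρ x₂ c₂) (hy₁ : Red A ρ y₁ d₁) (hl : Red A ρ l lt) :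
    Red A ρ (V.negAddY x₁ x₂ y₁ l) (Vt.negAddY c₁ c₂ d₁ lt) := by
  unfold Affine.negAddY
  exact (hl.mul ((hV.addX hx₁ hx₂ hl).sub hx₁)).add hy₁

theorem CurveRed.addY (hV : CurveRed A ρ V Vt) {x₁ x₂ y₁ l : L} {c₁ c₂ d₁ lt : κ}
    (hx₁ : Red A ρ x₁ c₁) (hx₂ : Red A ρ x₂ c₂) (hy₁ : Red A ρ y₁ d₁) (hl : Red A ρ l lt) :
    Red A ρ (V.addY x₁ x₂ y₁ l) (Vt.addY c₁ c₂ d₁ lt) := by
  unfold Affine.addY
  exact hV.negY (hV.addX hx₁ hx₂ hl) (hV.negAddY hx₁ hx₂ hy₁ hl)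

/-- `2 y + a₁ x + a₃` reduces. -/
theorem CurveRed.psi (hV : CurveRed A ρ V Vt) {x y : L} {c d : κ}
    (hx : Red A ρ x c) (hy : Red A ρ y d) :
    Red A ρ (2 * y + V.a₁ * x + V.a₃) (2 * d + Vt.a₁ * c + Vt.a₃) :=
  ((red_two.mul hy).add (hV.a₁.mul hx)).add hV.a₃

/-- `a₁ y - (3 x² + 2 a₂ x + a₄)` reduces. -/
theorem CurveRed.polyX (hV : CurveRed A ρ V Vt) {x y : L} {c d : κ}
    (hx : Red A ρ x c) (hy : Red A ρ y d) :
    Red A ρ (V.a₁ * y - (3 * x ^ 2 + 2 * V.a₂ * x + V.a₄))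
      (Vt.a₁ * d - (3 * c ^ 2 + 2 * Vt.a₂ * c + Vt.a₄)) :=
  (hV.a₁.mul hy).sub (((red_three.mul (hx.pow 2)).add ((red_two.mul hV.a₂).mul hx)).add hV.a₄)

end Curve

/-! ### Points -/

section Val

variable {L : Type*} [Field L] {Γ₀ : Type*} [LinearOrderedCommGroupWithZero Γ₀]
  {v : Valuation L Γ₀} {V : Affine L}

/-- a non-integral slope gives a non-integral `x`-coordinate of the sum. -/
theorem one_lt_val_addX (hint : IntegralCoeffs v V) {x₁ x₂ l : L} (hx₁ : v x₁ ≤ 1)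
    (hx₂ : v x₂ ≤ 1) (hl : 1 < v l) : 1 < v (V.addX x₁ x₂ l) := by
  obtain ⟨ha₁, ha₂, -, -, -⟩ := hint
  have hvl2 : v (l ^ 2) = v l ^ 2 := map_pow v l 2
  have hpos : 0 < v l := lt_trans zero_lt_one hl
  have hlt : v l < v l ^ 2 := by
    calc v l = v l * 1 := (mul_one _).symm
      _ < v l * v l := mul_lt_mul_of_pos_left hl hpos
      _ = v l ^ 2 := (sq _).symm
  have hrest : v (V.a₁ * l - V.a₂ - x₁ - x₂) ≤ v l := by
    have t1 : v (V.a₁ * l) ≤ v l := by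
      rw [map_mul]
      calc v V.a₁ * v l ≤ 1 * v l := mul_le_mul_left ha₁ _
        _ = v l := one_mul _
    exact v.map_sub_le (v.map_sub_le (v.map_sub_le t1 (ha₂.trans hl.le)) (hx₁.trans hl.le))
      (hx₂.trans hl.le)
  have hsum : V.addX x₁ x₂ l = l ^ 2 + (V.a₁ * l - V.a₂ - x₁ - x₂) := by
    rw [Affine.addX]; ring
  rw [hsum, v.map_add_eq_of_lt_left (by rw [hvl2]; exact lt_of_le_of_lt hrest hlt), hvl2]
  exact lt_trans hl hlt

end Val

section Points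

variable {L : Type*} [Field L] (A : ValuationSubring L) {κ : Type*} [Field κ]
  (ρ : A →+* κ) {V : Affine L} {Vt : Affine κ}

/-- the point `P` of `V` reduces to the point `Pt` of `Vt`. -/
def RedPt : V.Point → Vt.Point → Prop
  | .zero, .zero => True
  | .some x y _, .some c d _ => Red A ρ x c ∧ Red A ρ y d
  | .zero, .some _ _ _ => False
  | .some _ _ _, .zero => False

variable {A ρ}

theorem redPt_zero_zero : RedPt A ρ (0 : V.Point) (0 : Vt.Point) := trivial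

theorem redPt_some_some {x y : L} {h : V.Nonsingular x y} {c d : κ} {ht : Vt.Nonsingular c d} :
    RedPt A ρ (Point.some x y h) (Point.some c d ht) ↔ Red A ρ x c ∧ Red A ρ y d := Iff.rfl

theorem redPt_zero_right {P : V.Point} : RedPt A ρ P (0 : Vt.Point) ↔ P = 0 := by
  rcases P with _ | ⟨x, y, h⟩
  · exact ⟨fun _ => rfl, fun _ => trivial⟩
  · exact ⟨fun h0 => h0.elim, fun h0 => absurd h0 (Point.some_ne_zero h)⟩

theorem redPt_zero_left {Pt : Vt.Point} : RedPt A ρ (0 : V.Point) Pt ↔ Pt = 0 := by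
  rcases Pt with _ | ⟨c, d, h⟩
  · exact ⟨fun _ => rfl, fun _ => trivial⟩
  · exact ⟨fun h0 => h0.elim, fun h0 => absurd h0 (Point.some_ne_zero h)⟩

/-- the reduction of a point is unique. -/
theorem RedPt.unique {P : V.Point} {Pt Pt' : Vt.Point} (h : RedPt A ρ P Pt)
    (h' : RedPt A ρ P Pt') : Pt = Pt' := by
  rcases P with _ | ⟨x, y, hP⟩
  · rw [redPt_zero_left.mp h, redPt_zero_left.mp h']
  · rcases Pt with _ | ⟨c, d, hc⟩
    · exact h.elim
    · rcases Pt' with _ | ⟨c', d', hc'⟩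
      · exact h'.elim
      · obtain ⟨h1, h2⟩ := h
        obtain ⟨h1', h2'⟩ := h'
        simp only [Point.some.injEq]
        exact ⟨h1.unique h1', h2.unique h2'⟩

theorem RedPt.neg (hV : CurveRed A ρ V Vt) {P : V.Point} {Pt : Vt.Point} (h : RedPt A ρ P Pt) :
    RedPt A ρ (-P) (-Pt) := by
  rcases P with _ | ⟨x, y, hP⟩
  · rw [redPt_zero_left.mp h]
    exact redPt_zero_zero
  · rcases Pt with _ | ⟨c, d, hc⟩
    · exact h.elim
    · obtain ⟨h1, h2⟩ := h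
      rw [Point.neg_some, Point.neg_some]
      exact ⟨h1, hV.negY h1 h2⟩

variable [DecidableEq L]

/-- integrality of the coordinates of a point killed by `n` with `v n = 1`. -/
theorem val_le_of_nsmul_eq_zero (hint : IntegralCoeffs A.valuation V) {x y : L}
    (h : V.Nonsingular x y) {n : ℕ} (hvn : A.valuation (n : L) = 1)
    (hP : n • Point.some x y h = 0) : A.valuation x ≤ 1 ∧ A.valuation y ≤ 1 := by
  have hvx : A.valuation x ≤ 1 := x_integral_of_nsmul_eq_zero hint h hvn hP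
  refine ⟨hvx, ?_⟩
  by_contra hy
  exact absurd (vx_of_vy hint h.1 (not_le.mp hy)) (not_lt.mpr hvx)

/-- **Existence of the reduction** of a point killed by `n`, `v n = 1`. -/
theorem exists_redPt (hV : CurveRed A ρ V Vt) (hΔ : Vt.Δ ≠ 0) {P : V.Point} {n : ℕ}
    (hvn : A.valuation (n : L) = 1) (hP : n • P = 0) : ∃ Pt : Vt.Point, RedPt A ρ P Pt := by
  rcases P with _ | ⟨x, y, h⟩
  · exact ⟨0, redPt_zero_zero⟩
  · obtain ⟨hvx, hvy⟩ := val_le_of_nsmul_eq_zero hV.integralCoeffs h hvn hP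
    obtain ⟨c, hc⟩ := red_of_val_le (ρ := ρ) hvx
    obtain ⟨d, hd⟩ := red_of_val_le (ρ := ρ) hvy
    exact ⟨Point.some c d (hV.nonsingular hΔ h.1 hc hd), hc, hd⟩

/-- a point of odd order prime to the residue characteristic is not congruent to its negative. -/
theorem val_psi_eq_one (hρ : KerMax A ρ) (hV : CurveRed A ρ V Vt) (hΔ : Vt.Δ ≠ 0) {x y : L}
    (h : V.Nonsingular x y) {m : ℕ} (hm : Odd m) (hvm : A.valuation (m : L) = 1)
    (hP : m • Point.some x y h = 0) : A.valuation (2 * y + V.a₁ * x + V.a₃) = 1 := by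
  have hint := hV.integralCoeffs
  obtain ⟨hvx, hvy⟩ := val_le_of_nsmul_eq_zero hint h hvm hP
  obtain ⟨c, hc⟩ := red_of_val_le (ρ := ρ) hvx
  obtain ⟨d, hd⟩ := red_of_val_le (ρ := ρ) hvy
  have hns := hV.nonsingular hΔ h.1 hc hd
  have hψ := hV.psi hc hd
  apply le_antisymm hψ.val_le
  by_contra hlt
  push Not at hlt
  have hψ0 : 2 * d + Vt.a₁ * c + Vt.a₃ = 0 := hψ.eq_zero_of_val_lt hρ hlt
  have hN : Vt.a₁ * d - (3 * c ^ 2 + 2 * Vt.a₂ * c + Vt.a₄) ≠ 0 := by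
    rcases (Vt.nonsingular_iff' c d).mp hns with ⟨-, h1 | h1⟩
    · exact h1
    · exact absurd hψ0 h1
  have hvN : A.valuation (V.a₁ * y - (3 * x ^ 2 + 2 * V.a₂ * x + V.a₄)) = 1 :=
    (hV.polyX hc hd).val_eq_one hρ hN
  -- `P + P` lies in the kernel of reduction
  have hE : InE1 A.valuation (Point.some x y h + Point.some x y h) := by
    by_cases hy : y = V.negY x y
    · rw [Point.add_self_of_Y_eq hy]
      exact inE1_zero _
    · rw [Point.add_self_of_Y_ne hy, inE1_some, slope_of_Y_ne rfl hy]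
      apply one_lt_val_addX hint hvx hvx
      have hDe : y - V.negY x y = 2 * y + V.a₁ * x + V.a₃ := by
        rw [Affine.negY]; ring
      have hNe : 3 * x ^ 2 + 2 * V.a₂ * x + V.a₄ - V.a₁ * y
          = -(V.a₁ * y - (3 * x ^ 2 + 2 * V.a₂ * x + V.a₄)) := by ring
      have hD0 : A.valuation (2 * y + V.a₁ * x + V.a₃) ≠ 0 := by
        rw [← hDe]
        exact (Valuation.ne_zero_iff _).mpr (sub_ne_zero.mpr hy)
      rw [hDe, hNe, map_div₀, Valuation.map_neg, hvN, one_div]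
      exact (one_lt_inv₀ (zero_lt_iff.mpr hD0)).mpr hlt
  have h2 : Point.some x y h + Point.some x y h = 0 := by
    apply eq_zero_of_nsmul_eq_zero hint hE hvm
    rw [smul_add, hP, add_zero]
  obtain ⟨k, hk⟩ := hm
  have h0 : Point.some x y h = 0 := by
    have e1 : m • Point.some x y h
        = k • (Point.some x y h + Point.some x y h) + Point.some x y h := by
      rw [hk, add_smul, mul_comm, mul_smul, one_smul, two_nsmul]
    rw [hP, h2, nsmul_zero, zero_add] at e1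
    exact e1.symm
  exact Point.some_ne_zero h h0

/-- **Injectivity of the reduction** on points of odd order prime to the residue
characteristic. -/
theorem redPt_inj (hρ : KerMax A ρ) (hV : CurveRed A ρ V Vt) (hΔ : Vt.Δ ≠ 0) {m : ℕ}
    (hm : Odd m) (hvm : A.valuation (m : L) = 1) {P Q : V.Point} {Pt : Vt.Point}
    (hP : m • P = 0) (hQ : m • Q = 0) (h : RedPt A ρ P Pt) (h' : RedPt A ρ Q Pt) : P = Q := by
  rcases Pt with _ | ⟨c, d, hc⟩
  · rw [redPt_zero_right.mp h, redPt_zero_right.mp h']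
  · rcases P with _ | ⟨x₁, y₁, h₁⟩
    · exact h.elim
    · rcases Q with _ | ⟨x₂, y₂, h₂⟩
      · exact h'.elim
      · obtain ⟨hx₁, hy₁⟩ := h
        obtain ⟨hx₂, hy₂⟩ := h'
        exact eq_of_congruent_of_nsmul_eq_zero hV.integralCoeffs h₁ h₂
          (hx₁.val_sub_lt hρ hx₂) (hy₁.val_sub_lt hρ hy₂)
          (val_psi_eq_one hρ hV hΔ h₂ hm hvm hQ) hvm hP hQ

variable [DecidableEq κ]

/-- the generic case of the addition. -/
theorem redPt_add_some (hV : CurveRed A ρ V Vt) {x₁ y₁ x₂ y₂ : L} {h₁ : V.Nonsingular x₁ y₁}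
    {h₂ : V.Nonsingular x₂ y₂} {c₁ d₁ c₂ d₂ : κ} {ht₁ : Vt.Nonsingular c₁ d₁}
    {ht₂ : Vt.Nonsingular c₂ d₂} (hx₁ : Red A ρ x₁ c₁) (hy₁ : Red A ρ y₁ d₁)
    (hx₂ : Red A ρ x₂ c₂) (hxy : ¬(x₁ = x₂ ∧ y₁ = V.negY x₂ y₂))
    (hcd : ¬(c₁ = c₂ ∧ d₁ = Vt.negY c₂ d₂))
    (hl : Red A ρ (V.slope x₁ x₂ y₁ y₂) (Vt.slope c₁ c₂ d₁ d₂)) :
    RedPt A ρ (Point.some x₁ y₁ h₁ + Point.some x₂ y₂ h₂)
      (Point.some c₁ d₁ ht₁ + Point.some c₂ d₂ ht₂) := by
  rw [Point.add_some hxy, Point.add_some hcd]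
  exact ⟨hV.addX hx₁ hx₂ hl, hV.addY hx₁ hx₂ hy₁ hl⟩

/-- **Additivity of the reduction** on points of odd order prime to the residue
characteristic. -/
theorem redPt_add (hρ : KerMax A ρ) (hV : CurveRed A ρ V Vt) (hΔ : Vt.Δ ≠ 0) {m : ℕ}
    (hm : Odd m) (hvm : A.valuation (m : L) = 1) {P Q : V.Point} {Pt Qt : Vt.Point}
    (hP : m • P = 0) (hQ : m • Q = 0) (h : RedPt A ρ P Pt) (h' : RedPt A ρ Q Qt) :
    RedPt A ρ (P + Q) (Pt + Qt) := by
  rcases P with _ | ⟨x₁, y₁, h₁⟩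
  · rw [redPt_zero_left.mp h, ← Point.zero_def, zero_add, zero_add]
    exact h'
  rcases Q with _ | ⟨x₂, y₂, h₂⟩
  · rw [redPt_zero_left.mp h', ← Point.zero_def, add_zero, add_zero]
    exact h
  rcases Pt with _ | ⟨c₁, d₁, ht₁⟩
  · exact h.elim
  rcases Qt with _ | ⟨c₂, d₂, ht₂⟩
  · exact h'.elim
  obtain ⟨hx₁, hy₁⟩ := h
  obtain ⟨hx₂, hy₂⟩ := h'
  by_cases hc : c₁ = c₂
  · by_cases hd : d₁ = Vt.negY c₂ d₂
    · -- opposite reductions
      rw [Point.add_of_Y_eq hc hd]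
      have hnegQ : RedPt A ρ (-Point.some x₂ y₂ h₂) (-Point.some c₂ d₂ ht₂) :=
        RedPt.neg hV (redPt_some_some.mpr ⟨hx₂, hy₂⟩)
      have hPt : Point.some c₁ d₁ ht₁ = -Point.some c₂ d₂ ht₂ := by
        rw [Point.neg_some]
        simp only [Point.some.injEq]
        exact ⟨hc, hd⟩
      have hP' : RedPt A ρ (Point.some x₁ y₁ h₁) (-Point.some c₂ d₂ ht₂) := by
        rw [← hPt]
        exact redPt_some_some.mpr ⟨hx₁, hy₁⟩
      have hQ' : m • (-Point.some x₂ y₂ h₂) = 0 := by rw [smul_neg, hQ, neg_zero]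
      have hPQ := redPt_inj hρ hV hΔ hm hvm hP hQ' hP' hnegQ
      rw [hPQ, neg_add_cancel]
      exact redPt_zero_zero
    · -- equal reductions
      have hdd : d₁ = d₂ := Y_eq_of_Y_ne ht₁.1 ht₂.1 hc hd
      have hQ'' : RedPt A ρ (Point.some x₂ y₂ h₂) (Point.some c₁ d₁ ht₁) := by
        rw [redPt_some_some, hc, hdd]
        exact ⟨hx₂, hy₂⟩
      have hPQ := redPt_inj hρ hV hΔ hm hvm hP hQ (redPt_some_some.mpr ⟨hx₁, hy₁⟩) hQ''
      simp only [Point.some.injEq] at hPQ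
      obtain ⟨hxx, hyy⟩ := hPQ
      have hψ := val_psi_eq_one hρ hV hΔ h₂ hm hvm hQ
      have hDe : y₁ - V.negY x₁ y₁ = 2 * y₂ + V.a₁ * x₂ + V.a₃ := by
        rw [Affine.negY, hxx, hyy]; ring
      have hy : y₁ ≠ V.negY x₂ y₂ := by
        intro hcon
        rw [← hxx, ← hyy] at hcon
        rw [← hDe, sub_eq_zero.mpr hcon, map_zero] at hψ
        exact zero_ne_one hψ
      have hDt : d₁ - Vt.negY c₁ d₁ ≠ 0 := by
        rw [hc, hdd, sub_ne_zero]
        rw [hdd] at hd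
        exact hd
      refine redPt_add_some hV hx₁ hy₁ hx₂ (fun hcon => hy hcon.2) (fun hcon => hd hcon.2) ?_
      rw [slope_of_Y_ne hxx hy, slope_of_Y_ne hc hd]
      refine Red.div hρ ?_ (hy₁.sub (hV.negY hx₁ hy₁)) hDt
      exact (((red_three.mul (hx₁.pow 2)).add ((red_two.mul hV.a₂).mul hx₁)).add hV.a₄).sub
        (hV.a₁.mul hy₁)
  · -- distinct reduced `x`-coordinates
    have hx : x₁ ≠ x₂ := by
      rintro rfl
      exact hc (hx₁.unique hx₂)
    refine redPt_add_some hV hx₁ hy₁ hx₂ (fun hcon => hx hcon.1) (fun hcon => hc hcon.1) ?_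
    rw [slope_of_X_ne hx, slope_of_X_ne hc]
    exact Red.div hρ (hy₁.sub hy₂) (hx₁.sub hx₂) (sub_ne_zero.mpr hc)

/-- reduction and multiples. -/
theorem redPt_nsmul (hρ : KerMax A ρ) (hV : CurveRed A ρ V Vt) (hΔ : Vt.Δ ≠ 0) {m : ℕ}
    (hm : Odd m) (hvm : A.valuation (m : L) = 1) {P : V.Point} {Pt : Vt.Point}
    (hP : m • P = 0) (h : RedPt A ρ P Pt) (n : ℕ) : RedPt A ρ (n • P) (n • Pt) := by
  induction n with
  | zero =>
    rw [zero_smul, zero_smul]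
    exact redPt_zero_zero
  | succ n ih =>
    rw [succ_nsmul, succ_nsmul]
    refine redPt_add hρ hV hΔ hm hvm ?_ hP ih h
    rw [smul_comm, hP, smul_zero]

theorem redPt_zsmul (hρ : KerMax A ρ) (hV : CurveRed A ρ V Vt) (hΔ : Vt.Δ ≠ 0) {m : ℕ}
    (hm : Odd m) (hvm : A.valuation (m : L) = 1) {P : V.Point} {Pt : Vt.Point}
    (hP : m • P = 0) (h : RedPt A ρ P Pt) (n : ℤ) : RedPt A ρ (n • P) (n • Pt) := by
  rcases n with n | n
  · rw [Int.ofNat_eq_natCast, natCast_zsmul, natCast_zsmul]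
    exact redPt_nsmul hρ hV hΔ hm hvm hP h n
  · rw [negSucc_zsmul, negSucc_zsmul]
    exact RedPt.neg hV (redPt_nsmul hρ hV hΔ hm hvm hP h (n + 1))

theorem redPt_sub (hρ : KerMax A ρ) (hV : CurveRed A ρ V Vt) (hΔ : Vt.Δ ≠ 0) {m : ℕ}
    (hm : Odd m) (hvm : A.valuation (m : L) = 1) {P Q : V.Point} {Pt Qt : Vt.Point}
    (hP : m • P = 0) (hQ : m • Q = 0) (h : RedPt A ρ P Pt) (h' : RedPt A ρ Q Qt) :
    RedPt A ρ (P - Q) (Pt - Qt) := by
  rw [sub_eq_add_neg, sub_eq_add_neg]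
  refine redPt_add hρ hV hΔ hm hvm hP ?_ h (RedPt.neg hV h')
  rw [smul_neg, hQ, neg_zero]

end Points

/-! ### Compatibility with field maps -/

section Map

variable {K₀ : Type*} [CommRing K₀] {L : Type*} [Field L] [DecidableEq L] [Algebra K₀ L]
  {k : Type*} [CommRing k] {κ : Type*} [Field κ] [DecidableEq κ] [Algebra k κ]
  {A : ValuationSubring L} {ρ : A →+* κ} {V₀ : Affine K₀} {Vt₀ : Affine k}

/-- reduction commutes with a pair of maps `σ` of `L` and `φ` of `κ` compatible with `ρ`. -/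
theorem redPt_map (σ : L →ₐ[K₀] L) (φ : κ →ₐ[k] κ)
    (hσ : ∀ (x : L) (c : κ), Red A ρ x c → Red A ρ (σ x) (φ c))
    {P : (V₀⁄L).Point} {Pt : (Vt₀⁄κ).Point} (h : RedPt A ρ P Pt) :
    RedPt A ρ (Point.map σ P) (Point.map φ Pt) := by
  rcases P with _ | ⟨x, y, hP⟩
  · rw [redPt_zero_left.mp h]
    exact redPt_zero_zero
  · rcases Pt with _ | ⟨c, d, hc⟩
    · exact h.elim
    · obtain ⟨h1, h2⟩ := h
      rw [Point.map_some, Point.map_some]
      exact ⟨hσ _ _ h1, hσ _ _ h2⟩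

end Map

end Fermat.Agent.ES.Q58.RedHom5
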