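/-
Programme Q (S58), PART II, assembly (helper5): the Eichler–Shimura relation on the generic fibre
(`TraceCong20.RelQbar W`) from the relation in characteristic `ℓ` (`CharRel`, PART I), by
reduction of the odd prime-to-`r` torsion modulo a place over the good prime `r` (`RedHom5`).
-/
import Mathlib
import Fermat.Agent.ES.Q58.TraceCong20
import Fermat.Agent.ES.Q58.RedHom5
import Fermat.Agent.S05.Inertia
import Fermat.Agent.ES.EC.LiftTorsion29

set_option autoImplicit false

open WeierstrassCurve WeierstrassCurve.Affine WeierstrassCurve.Affine.Point Polynomial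

namespace Fermat.Agent.ES.Q58.RelQbar5

open Fermat.Agent.ES.Q58.RedHom5 Fermat.Agent.S05.Inertia

local notation "Qb" => AlgebraicClosure ℚ
local notation "GQ" => (AlgebraicClosure ℚ ≃ₐ[ℚ] AlgebraicClosure ℚ)

/-- **The Eichler–Shimura relation in characteristic `ℓ`** (PART I): on an elliptic curve `W₀`
over `𝔽_ℓ`, the `ℓ`-power Frobenius `φ` of an algebraic extension `κ` of `𝔽_ℓ` satisfies
`φ² - a φ + ℓ = 0` on `W₀(κ)`, `a = ℓ + 1 - #W₀(𝔽_ℓ)`. -/
def CharRel : Prop :=
  ∀ (ℓ : ℕ) [Fact ℓ.Prime] (W₀ : WeierstrassCurve (ZMod ℓ)), W₀.Δ ≠ 0 →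
    ∀ (κ : Type) [Field κ] [DecidableEq κ] [Algebra (ZMod ℓ) κ]
      [Algebra.IsAlgebraic (ZMod ℓ) κ] (φ : κ →ₐ[ZMod ℓ] κ), (∀ x : κ, φ x = x ^ ℓ) →
      ∀ Q : (W₀.toAffine⁄κ).Point,
        Point.map φ (Point.map φ Q)
          - ((ℓ : ℤ) + 1 - (Nat.card W₀.toAffine.Point : ℤ)) • Point.map φ Q
          + (ℓ : ℤ) • Q = 0

/-! ### The residue field of a place of `ℚ̄` -/

section Residue

variable {L : Type*} [Field L] (A : ValuationSubring L)

theorem kerMax_residue : KerMax A (IsLocalRing.residue A) := by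
  intro a
  rw [IsLocalRing.residue_eq_zero_iff, ← ValuationSubring.valuation_lt_one_iff]

theorem red_intCast (n : ℤ) : Red A (IsLocalRing.residue A) (n : L) (n : IsLocalRing.ResidueField A) := by
  refine ⟨intCast_mem A n, ?_⟩
  have : (⟨(n : L), intCast_mem A n⟩ : A) = ((n : ℤ) : A) := Subtype.ext (by simp)
  rw [this, map_intCast]

/-- the residue field of a valuation subring of an algebraic extension of `ℚ` is algebraic over
the prime field. -/
theorem isAlgebraic_residueField {L : Type*} [Field L] [Algebra ℚ L] [Algebra.IsAlgebraic ℚ L]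
    (A : ValuationSubring L) {r : ℕ} [hr : Fact r.Prime]
    [Algebra (ZMod r) (IsLocalRing.ResidueField A)] :
    Algebra.IsAlgebraic (ZMod r) (IsLocalRing.ResidueField A) := by
  constructor
  intro c
  obtain ⟨a, rfl⟩ := IsLocalRing.residue_surjective c
  have h1 : IsAlgebraic ℚ (a : L) := Algebra.IsAlgebraic.isAlgebraic _
  have h2 : IsAlgebraic ℤ (a : L) := (IsFractionRing.isAlgebraic_iff ℤ ℚ L).mpr h1
  obtain ⟨p, hp0, hp⟩ := h2
  have hchar : CharZero L := algebraRat.charZero L
  have hq : aeval (a : L) p.primPart = 0 := aeval_primPart_eq_zero hp0 hp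
  have hprim : p.primPart.IsPrimitive := isPrimitive_primPart p
  refine ⟨p.primPart.map (Int.castRingHom (ZMod r)), ?_, ?_⟩
  · intro h0
    have hdvd : C (r : ℤ) ∣ p.primPart := by
      rw [C_dvd_iff_dvd_coeff]
      intro n
      have h3 := congrArg (fun f => f.coeff n) h0
      simp only [coeff_map, eq_intCast, coeff_zero] at h3
      exact (ZMod.intCast_zmod_eq_zero_iff_dvd _ _).mp h3
    have hu : IsUnit (r : ℤ) := hprim _ hdvd
    have hr1 : r = 1 := by
      have := Int.isUnit_iff_natAbs_eq.mp hu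
      simpa using this
    exact hr.out.ne_one hr1
  · rw [aeval_def, eval₂_map]
    have e : (algebraMap (ZMod r) (IsLocalRing.ResidueField A)).comp (Int.castRingHom (ZMod r))
        = (IsLocalRing.residue A).comp (Int.castRingHom A) := RingHom.ext_int _ _
    rw [e, ← hom_eval₂]
    have h4 : eval₂ (Int.castRingHom A) a p.primPart = 0 := by
      apply Subtype.ext
      have h5 := hom_eval₂ p.primPart (Int.castRingHom A) A.subtype a
      rw [show A.subtype.comp (Int.castRingHom A) = Int.castRingHom L from RingHom.ext_int _ _]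
        at h5
      have h6 : eval₂ (Int.castRingHom L) (a : L) p.primPart = 0 := by
        rw [← hq, aeval_def]
        rfl
      change A.subtype (eval₂ (Int.castRingHom A) a p.primPart) = 0
      rw [h5]
      exact h6
    rw [h4, _root_.map_zero]

end Residue

/-! ### Frobenius elements and the reduction -/

section Frob

variable {K L : Type*} [Field K] [Field L] [Algebra K L] (A : ValuationSubring L)

/-- a Frobenius element at `A` induces the `q`-power map on residues. -/
theorem red_frob {σ : L ≃ₐ[K] L} {q : ℕ} (hσ : A.IsFrobeniusAt σ q) {x : L}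
    {c : IsLocalRing.ResidueField A} (h : Red A (IsLocalRing.residue A) x c) :
    Red A (IsLocalRing.residue A) (σ x) (c ^ q) := by
  obtain ⟨hx, rfl⟩ := h
  have hσx : σ x ∈ A :=
    (apply_mem_iff_of_mem_decomposition hσ.mem_decompositionSubgroup x).mpr hx
  refine ⟨hσx, ?_⟩
  have h1 := hσ.smul_residue_eq (IsLocalRing.residue A ⟨x, hx⟩)
  rw [← IsLocalRing.ResidueField.residue_smul] at h1
  rw [← h1]
  rfl

end Frob

/-! ### The relation on the generic fibre -/

section Main

open Fermat.Agent.ES.EC

/-- **PART II.**  The Eichler–Shimura relation on the odd prime-to-`r` torsion of the generic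
fibre follows from the relation in characteristic `r`. -/
theorem relQbar_of_charRel (hchar : CharRel) (W : WeierstrassCurve ℤ) :
    TraceCong20.RelQbar W := by
  intro r hr hgood m hm hrm A σ hA hσ Q hQ
  have : Fact r.Prime := ⟨hr⟩
  have : CharP (IsLocalRing.ResidueField A) r := LiftTorsion29.charP_residueField A hr hA
  let : Algebra (ZMod r) (IsLocalRing.ResidueField A) := ZMod.algebra _ r
  have : Algebra.IsAlgebraic (ZMod r) (IsLocalRing.ResidueField A) :=
    isAlgebraic_residueField A
  let : DecidableEq (IsLocalRing.ResidueField A) := Classical.decEq _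
  have hρ : KerMax A (IsLocalRing.residue A) := kerMax_residue A
  -- the curve and its reduction
  have hV : CurveRed A (IsLocalRing.residue A) ((W.map (Int.castRingHom ℚ))⁄Qb)
      ((W.reductionMod r).toAffine⁄(IsLocalRing.ResidueField A)) := by
    refine ⟨?_, ?_, ?_, ?_, ?_⟩
    · change Red A (IsLocalRing.residue A) (algebraMap ℚ Qb (Int.castRingHom ℚ W.a₁))
        (algebraMap (ZMod r) _ (Int.castRingHom (ZMod r) W.a₁))
      rw [eq_intCast, eq_intCast, map_intCast, map_intCast]
      exact red_intCast A _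
    · change Red A (IsLocalRing.residue A) (algebraMap ℚ Qb (Int.castRingHom ℚ W.a₂))
        (algebraMap (ZMod r) _ (Int.castRingHom (ZMod r) W.a₂))
      rw [eq_intCast, eq_intCast, map_intCast, map_intCast]
      exact red_intCast A _
    · change Red A (IsLocalRing.residue A) (algebraMap ℚ Qb (Int.castRingHom ℚ W.a₃))
        (algebraMap (ZMod r) _ (Int.castRingHom (ZMod r) W.a₃))
      rw [eq_intCast, eq_intCast, map_intCast, map_intCast]
      exact red_intCast A _
    · change Red A (IsLocalRing.residue A) (algebraMap ℚ Qb (Int.castRingHom ℚ W.a₄))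
        (algebraMap (ZMod r) _ (Int.castRingHom (ZMod r) W.a₄))
      rw [eq_intCast, eq_intCast, map_intCast, map_intCast]
      exact red_intCast A _
    · change Red A (IsLocalRing.residue A) (algebraMap ℚ Qb (Int.castRingHom ℚ W.a₆))
        (algebraMap (ZMod r) _ (Int.castRingHom (ZMod r) W.a₆))
      rw [eq_intCast, eq_intCast, map_intCast, map_intCast]
      exact red_intCast A _
  have hΔ₀ : (W.reductionMod r).Δ ≠ 0 := by
    rw [WeierstrassCurve.reductionMod, WeierstrassCurve.map_Δ, eq_intCast]
    intro h0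
    exact hgood ((ZMod.intCast_zmod_eq_zero_iff_dvd _ r).mp h0)
  have hΔ : ((W.reductionMod r).toAffine⁄(IsLocalRing.ResidueField A)).Δ ≠ 0 := by
    change ((W.reductionMod r).map (algebraMap (ZMod r) (IsLocalRing.ResidueField A))).Δ ≠ 0
    rw [WeierstrassCurve.map_Δ]
    exact (map_ne_zero_iff _ (algebraMap (ZMod r) (IsLocalRing.ResidueField A)).injective).mpr hΔ₀
  have hvm : A.valuation ((m : ℕ) : Qb) = 1 := valuation_natCast_eq_one hr hA hrm
  -- the Frobenius of the residue field
  set φ : IsLocalRing.ResidueField A →ₐ[ZMod r] IsLocalRing.ResidueField A :=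
    FiniteField.frobeniusAlgHom (ZMod r) (IsLocalRing.ResidueField A) with hφdef
  have hφ : ∀ x : IsLocalRing.ResidueField A, φ x = x ^ r := by
    intro x
    rw [hφdef, FiniteField.coe_frobeniusAlgHom, ZMod.card]
  have hcompat : ∀ (x : Qb) (c : IsLocalRing.ResidueField A),
      Red A (IsLocalRing.residue A) x c → Red A (IsLocalRing.residue A) (σ.toAlgHom x) (φ c) := by
    intro x c h
    rw [hφ]
    exact red_frob A hσ h
  -- reductions
  obtain ⟨Qt, hQt⟩ := exists_redPt hV hΔ hvm hQ
  have h1 : RedPt A (IsLocalRing.residue A) (σ • Q) (Point.map φ Qt) :=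
    redPt_map σ.toAlgHom φ hcompat hQt
  have h2 : RedPt A (IsLocalRing.residue A) (σ • σ • Q) (Point.map φ (Point.map φ Qt)) :=
    redPt_map σ.toAlgHom φ hcompat h1
  have hσm : ∀ R : ((W.map (Int.castRingHom ℚ))⁄Qb).Point, m • R = 0 → m • (σ • R) = 0 := by
    intro R hR
    rw [algEquiv_smul_def, ← map_nsmul, hR, _root_.map_zero]
  have hQ1 : m • (σ • Q) = 0 := hσm Q hQ
  have hQ2 : m • (σ • σ • Q) = 0 := hσm _ hQ1
  have h3 := redPt_zsmul hρ hV hΔ hm hvm hQ1 h1 (W.apOfModel r)
  have h4 := redPt_nsmul hρ hV hΔ hm hvm hQ hQt r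
  have hQ3 : m • (W.apOfModel r • (σ • Q)) = 0 := by
    rw [smul_comm, hQ1, zsmul_zero]
  have hQ4 : m • (r • Q) = 0 := by
    rw [smul_comm, hQ, nsmul_zero]
  have h5 := redPt_sub hρ hV hΔ hm hvm hQ2 hQ3 h2 h3
  have hQ5 : m • (σ • σ • Q - W.apOfModel r • (σ • Q)) = 0 := by
    rw [nsmul_sub, hQ2, hQ3, sub_zero]
  have h6 := redPt_add hρ hV hΔ hm hvm hQ5 hQ4 h5 h4
  -- the relation in characteristic `r`
  have h7 := hchar r (W.reductionMod r) hΔ₀ (IsLocalRing.ResidueField A) φ hφ Qt
  have hap : W.apOfModel r = (r : ℤ) + 1 - (Nat.card (W.reductionMod r).toAffine.Point : ℤ) := by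
    unfold WeierstrassCurve.apOfModel WeierstrassCurve.traceOfFrobenius WeierstrassCurve.card
    rw [Nat.card_zmod]
  rw [← hap, natCast_zsmul] at h7
  rw [h7] at h6
  exact redPt_zero_right.mp h6

end Main

end Fermat.Agent.ES.Q58.RelQbar5
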