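/-
Programme Q (S58), PART I, final adapter (helper1): **the Eichler–Shimura relation in characteristic `ℓ`
(`RelQbar5.CharRel`)**, from `GenericRel1.frob_relation_of_manin` and Manin's lemma `ManinDeg4.xdeg_sub_frob`.

* `frob_relation` : `φ² Q − (ℓ + 1 − #W(𝔽_ℓ)) • φ Q + ℓ • Q = 0` on `W(L)`, for every Weierstrass curve `W` over
  `ZMod ℓ` with `Δ ≠ 0` and every field `L` algebraic over `ZMod ℓ`;
* `charRel : RelQbar5.CharRel`;
* `relQbar W : TraceCong20.RelQbar W` for every `W : WeierstrassCurve ℤ` (PART I + PART II).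
-/
import Fermat.Agent.ES.Q58.GenericRel1
import Fermat.Agent.ES.Q58.ManinDeg4
import Fermat.Agent.ES.Q58.RelQbar5

set_option autoImplicit false

namespace Fermat.Agent.ES.Q58.CharRel1

open WeierstrassCurve WeierstrassCurve.Affine
open Fermat.Agent.ES.Q58.IotaDescent23 Fermat.Agent.ES.Q58.XDeg1 Fermat.Agent.ES.Q58.FrobAlg2
open Fermat.Agent.ES.Q58.XDegFrob1 Fermat.Agent.ES.Q58.GenericRel1

/-- **the Eichler–Shimura relation in characteristic `ℓ`.** -/
theorem frob_relation (ℓ : ℕ) [Fact ℓ.Prime] (W : Affine (ZMod ℓ))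
    (hΔ : W.Δ ≠ 0) (L : Type*) [Field L] [Algebra (ZMod ℓ) L] [Algebra.IsAlgebraic (ZMod ℓ) L]
    [DecidableEq L] (Q : (W⁄L).Point) :
    Point.map (W' := W) (frobAlg ℓ L) (Point.map (W' := W) (frobAlg ℓ L) Q) -
      ((ℓ : ℤ) + 1 - (Nat.card W.Point : ℤ)) • Point.map (W' := W) (frobAlg ℓ L) Q +
      (ℓ : ℤ) • Q = 0 := by
  classical
  exact frob_relation_of_manin ℓ W hΔ (ManinDeg4.xdeg_sub_frob ℓ W hΔ) L Q

/-- **`CharRel` (the input of PART II).** -/
theorem charRel : RelQbar5.CharRel := by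
  intro ℓ _ W₀ hΔ κ _ _ _ _ φ hφ Q
  have hφ' : φ = frobAlg ℓ κ := AlgHom.ext fun x => by rw [hφ, frobAlg_apply]
  subst hφ'
  exact frob_relation ℓ W₀.toAffine hΔ κ Q

/-- **the Eichler–Shimura relation on the generic fibre** (PART I + PART II). -/
theorem relQbar (W : WeierstrassCurve ℤ) : TraceCong20.RelQbar W :=
  RelQbar5.relQbar_of_charRel charRel W

end Fermat.Agent.ES.Q58.CharRel1
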