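/-
Programme S58 (elliptic Eichler–Shimura relation), PART I, brick (I-7), the `xdeg`-independent half (helper2):
**from the generic point to all points.**

`ℓ` prime, `W : WeierstrassCurve.Affine (ZMod ℓ)`, `Δ ≠ 0`, `K = W.FunctionField`, `P₀` the generic point,
`φ = Point.map (frobAlg ℓ ·)` the Frobenius on points, `relMap a = φ² − a φ + ℓ` (an endomorphism of `W(F)` for every
field `F ⊇ ZMod ℓ`, natural in `F`: `map_relMap`).

* `rel_of_generic` **(D)** : if `relMap a P₀ = 0` in `W(K)` then `relMap a Q = 0` for every field `L` algebraic over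
  `ZMod ℓ` and every `Q ∈ W(L)` (embed `L` into `Ω = AlgebraicClosure K`, substitute `P₀ ↦ P₀ + Q`, subtract);
* `map_eq_or_eq_neg_of_const_x` : a `k`-endomorphism of `K` maps a point with constant `x`-coordinate to `±` itself;
* `relMap_genericPoint_eq_zero` **(C)** : if `Z = relMap a P₀` has constant `x`-coordinate (or is `0`) and `2 P₀`,
  `3 P₀` are not algebraic points (e.g. have positive `x`-degree), then `Z = 0` (`τ_{nP₀} Z = n Z` and `= ± Z`).
-/
import Fermat.Agent.ES.Q58.XDegMul2

set_option autoImplicit false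

namespace Fermat.Agent.ES.Q58.GenericToAll2

open WeierstrassCurve WeierstrassCurve.Affine Polynomial
open Fermat.Agent.ES.Q58.IotaDescent23 Fermat.Agent.ES.Q58.SubstEmb17
open Fermat.Agent.ES.Q58.FrobAlg2 Fermat.Agent.ES.Q58.XDegMul2

/-! ### points that are not algebraic have transcendental `x` -/

section NotAlg

variable {k : Type*} [Field k] (W : Affine k) {L : Type*} [Field L] [Algebra k L] [DecidableEq L]

/-- a point that is not an algebraic point is affine with transcendental `x`-coordinate. -/
theorem exists_transcendental_of_not_mem_algPoints {R : (W⁄L).Point} (hR : R ∉ algPoints W L) :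
    ∃ (u v : L) (h : (W⁄L).Nonsingular u v), R = Point.some u v h ∧ Transcendental k u := by
  cases R with
  | zero => exact absurd (zero_mem (algPoints W L)) hR
  | some u v h =>
    refine ⟨u, v, h, rfl, fun hu => hR ?_⟩
    exact (some_mem_algPoints_iff W h).mpr hu

variable [DecidableEq W.FunctionField]

/-- the image of the generic point in any extension of `K` is not an algebraic point. -/
theorem map_genericPoint_not_mem_algPoints (hΔ : W.Δ ≠ 0) (i : W.FunctionField →ₐ[k] L) :
    Point.map (W' := W) i (genericPoint W hΔ) ∉ algPoints W L := by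
  rw [IotaDescent23.genericPoint, Point.map_some, some_mem_algPoints_iff]
  intro h
  exact transcendental_xK W ((isAlgebraic_algHom_iff i i.injective).mp h)

/-- translates of the generic point by algebraic points are not algebraic points. -/
theorem map_genericPoint_add_not_mem_algPoints (hΔ : W.Δ ≠ 0) (i : W.FunctionField →ₐ[k] L)
    {T : (W⁄L).Point} (hT : T ∈ algPoints W L) :
    Point.map (W' := W) i (genericPoint W hΔ) + T ∉ algPoints W L := by
  intro h
  apply map_genericPoint_not_mem_algPoints W hΔ i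
  have := sub_mem h hT
  rwa [add_sub_cancel_right] at this

end NotAlg

/-! ### the endomorphism `φ² − a φ + ℓ` -/

variable (ℓ : ℕ) [Fact ℓ.Prime] (W : Affine (ZMod ℓ))

section RelMap

variable (F : Type*) [Field F] [Algebra (ZMod ℓ) F] [DecidableEq F]

/-- the Frobenius `φ` on points. -/
noncomputable def frobPt : (W⁄F).Point →+ (W⁄F).Point := Point.map (W' := W) (frobAlg ℓ F)

/-- **the endomorphism `φ² − a φ + ℓ`** of `W(F)`. -/
noncomputable def relMap (a : ℤ) : (W⁄F).Point →+ (W⁄F).Point :=
  (frobPt ℓ W F).comp (frobPt ℓ W F) - a • frobPt ℓ W F + (ℓ : ℤ) • AddMonoidHom.id _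

variable {F}

theorem frobPt_apply (P : (W⁄F).Point) :
    frobPt ℓ W F P = Point.map (W' := W) (frobAlg ℓ F) P := rfl

theorem relMap_apply (a : ℤ) (P : (W⁄F).Point) :
    relMap ℓ W F a P = frobPt ℓ W F (frobPt ℓ W F P) - a • frobPt ℓ W F P + (ℓ : ℤ) • P := rfl

variable {F' : Type*} [Field F'] [Algebra (ZMod ℓ) F'] [DecidableEq F']

theorem map_frobPt (f : F →ₐ[ZMod ℓ] F') (P : (W⁄F).Point) :
    Point.map (W' := W) f (frobPt ℓ W F P) = frobPt ℓ W F' (Point.map (W' := W) f P) :=
  pointMap_frobAlg_comm ℓ W f P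

/-- **naturality of `φ² − a φ + ℓ`.** -/
theorem map_relMap (f : F →ₐ[ZMod ℓ] F') (a : ℤ) (P : (W⁄F).Point) :
    Point.map (W' := W) f (relMap ℓ W F a P) = relMap ℓ W F' a (Point.map (W' := W) f P) := by
  rw [relMap_apply, relMap_apply, map_add, map_sub, map_zsmul, map_zsmul, map_frobPt, map_frobPt]

end RelMap

/-! ### (D): from the generic point to all points -/

section D

variable [DecidableEq W.FunctionField]

/-- **(D)**: the relation at the generic point implies the relation at every point over every algebraic extension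
of `ZMod ℓ`. -/
theorem rel_of_generic (hΔ : W.Δ ≠ 0) (a : ℤ)
    (hgen : relMap ℓ W W.FunctionField a (genericPoint W hΔ) = 0)
    (L : Type*) [Field L] [Algebra (ZMod ℓ) L] [Algebra.IsAlgebraic (ZMod ℓ) L] [DecidableEq L]
    (Q : (W⁄L).Point) : relMap ℓ W L a Q = 0 := by
  classical
  -- the ambient field
  let Ω := AlgebraicClosure W.FunctionField
  let i : W.FunctionField →ₐ[ZMod ℓ] Ω := IsScalarTower.toAlgHom (ZMod ℓ) W.FunctionField Ω
  let j : L →ₐ[ZMod ℓ] Ω := IsAlgClosed.lift
  -- the relation at `i P₀`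
  have h0 : relMap ℓ W Ω a (Point.map (W' := W) i (genericPoint W hΔ)) = 0 := by
    rw [← map_relMap, hgen, map_zero]
  -- the relation at `i P₀ + j Q`
  have hT : Point.map (W' := W) j Q ∈ algPoints W Ω := map_mem_algPoints W j Q
  obtain ⟨u, v, h, hR, hX⟩ := exists_transcendental_of_not_mem_algPoints W
    (map_genericPoint_add_not_mem_algPoints W hΔ i hT)
  have h1 : relMap ℓ W Ω a (Point.map (W' := W) i (genericPoint W hΔ) + Point.map (W' := W) j Q) = 0 := by
    rw [hR, ← map_substHom_genericPoint W hΔ h hX, ← map_relMap, hgen, map_zero]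
  -- subtract
  have h2 : relMap ℓ W Ω a (Point.map (W' := W) j Q) = 0 := by
    rw [map_add, h0, zero_add] at h1
    exact h1
  -- descend along `j`
  apply Point.map_injective (W' := W) j
  rw [map_relMap, h2, map_zero]

end D

/-! ### (C): a constant value of the relation at the generic point vanishes -/

section C

variable {k : Type*} [Field k] (W' : Affine k) [DecidableEq W'.FunctionField]

/-- a `k`-endomorphism of `K` maps a point with constant `x`-coordinate to `±` itself. -/
theorem map_eq_or_eq_neg_of_const_x (τ : W'.FunctionField →ₐ[k] W'.FunctionField)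
    {Z : (W'⁄W'.FunctionField).Point}
    (hZ : ∀ (x y : W'.FunctionField) (h : (W'⁄W'.FunctionField).Nonsingular x y),
      Z = Point.some x y h → x ∈ Set.range (algebraMap k W'.FunctionField)) :
    Point.map (W' := W') τ Z = Z ∨ Point.map (W' := W') τ Z = -Z := by
  cases Z with
  | zero => left; rfl
  | some x y h =>
    obtain ⟨c, hc⟩ := hZ x y h rfl
    have hx : τ x = x := by rw [← hc, AlgHom.commutes]
    have h' : (W'⁄W'.FunctionField).Nonsingular (τ x) (τ y) :=
      (W'.baseChange_nonsingular τ.injective x y).mpr h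
    rw [Point.map_some, Point.neg_some]
    rcases Y_eq_of_X_eq h'.1 h.1 hx with hy | hy
    · left
      simp only [Point.some.injEq]
      exact ⟨hx, hy⟩
    · right
      simp only [Point.some.injEq]
      exact ⟨hx, hy⟩

end C

section C'

variable [DecidableEq W.FunctionField]

/-- `τ_{nP₀} (relMap a P₀) = n • relMap a P₀`. -/
theorem map_substHom_relMap (hΔ : W.Δ ≠ 0) (a : ℤ) (n : ℤ) {u v : W.FunctionField}
    (h : (W⁄W.FunctionField).Nonsingular u v) (hX : Transcendental (ZMod ℓ) u)
    (hn : n • genericPoint W hΔ = Point.some u v h) :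
    Point.map (W' := W) (substHom W h.1 hX) (relMap ℓ W W.FunctionField a (genericPoint W hΔ)) =
      n • relMap ℓ W W.FunctionField a (genericPoint W hΔ) := by
  rw [map_relMap, map_substHom_genericPoint W hΔ h hX, ← hn, map_zsmul]

/-- **(C)**: if `Z = (φ² − aφ + ℓ) P₀` is `0` or has constant `x`-coordinate, and `2P₀`, `3P₀` are not algebraic
points, then `Z = 0`. -/
theorem relMap_genericPoint_eq_zero (hΔ : W.Δ ≠ 0) (a : ℤ)
    (hZ : ∀ (x y : W.FunctionField) (h : (W⁄W.FunctionField).Nonsingular x y),
      relMap ℓ W W.FunctionField a (genericPoint W hΔ) = Point.some x y h →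
        x ∈ Set.range (algebraMap (ZMod ℓ) W.FunctionField))
    (h2 : (2 : ℤ) • genericPoint W hΔ ∉ algPoints W W.FunctionField)
    (h3 : (3 : ℤ) • genericPoint W hΔ ∉ algPoints W W.FunctionField) :
    relMap ℓ W W.FunctionField a (genericPoint W hΔ) = 0 := by
  set Z := relMap ℓ W W.FunctionField a (genericPoint W hΔ) with hZdef
  obtain ⟨u₂, v₂, hn₂, e₂, hX₂⟩ := exists_transcendental_of_not_mem_algPoints W h2
  obtain ⟨u₃, v₃, hn₃, e₃, hX₃⟩ := exists_transcendental_of_not_mem_algPoints W h3
  have k2 := map_substHom_relMap ℓ W hΔ a 2 hn₂ hX₂ e₂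
  have k3 := map_substHom_relMap ℓ W hΔ a 3 hn₃ hX₃ e₃
  rw [← hZdef] at k2 k3
  have c2 := map_eq_or_eq_neg_of_const_x W (substHom W hn₂.1 hX₂) hZ
  have c3 := map_eq_or_eq_neg_of_const_x W (substHom W hn₃.1 hX₃) hZ
  rw [k2] at c2
  rw [k3] at c3
  -- `2Z = ±Z`, `3Z = ±Z`
  rcases c2 with c2 | c2
  · -- `2Z = Z`
    have : (2 : ℤ) • Z - Z = 0 := by rw [c2, sub_self]
    rw [two_zsmul, add_sub_cancel_right] at this
    exact this
  · -- `3Z = 0`
    have t3 : (3 : ℤ) • Z = 0 := by
      have : (2 : ℤ) • Z + Z = 0 := by rw [c2, neg_add_cancel]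
      rw [show (3 : ℤ) = 2 + 1 by norm_num, add_zsmul, one_zsmul]
      exact this
    rcases c3 with c3 | c3
    · -- `3Z = Z`
      rw [t3] at c3
      exact c3.symm
    · -- `3Z = -Z`
      rw [t3] at c3
      exact neg_eq_zero.mp c3.symm

end C'

end Fermat.Agent.ES.Q58.GenericToAll2
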