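/-
Programme S58 (elliptic Eichler–Shimura relation), PART I, brick (I-3), final form (helper2):
the multiplicativity statements of `XDegMul2` for the `x`-degree `XDeg1.xdeg` of brick (I-1).

* `xdeg_map_substHom` : `xdeg (τ_R S) = xdeg R * xdeg S` (`R`, `S` odd, `x_R` transcendental);
* `xdeg_map_substHom_of_pos` : the same with `τ_R` built from `0 < xdeg R`;
* `xdeg_map_frobK` : `xdeg (φ R) = ℓ * xdeg R` (`R` odd);
* `xdeg_iterate_frobK_genericPoint` : `xdeg (φ^i P₀) = ℓ ^ i`.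
-/
import Fermat.Agent.ES.Q58.XDeg1
import Fermat.Agent.ES.Q58.XDegMul2

set_option autoImplicit false

namespace Fermat.Agent.ES.Q58.XDegMulB2

open WeierstrassCurve WeierstrassCurve.Affine Polynomial
open Fermat.Agent.ES.Q58.IotaDescent23 Fermat.Agent.ES.Q58.SubstEmb17
open Fermat.Agent.ES.Q58.FrobAlg2 Fermat.Agent.ES.Q58.XDegMul2 Fermat.Agent.ES.Q58.XDeg1

section General

variable {k : Type*} [Field k] (W : Affine k) [DecidableEq W.FunctionField]

/-- **(I-3): `xdeg (τ_R S) = xdeg R * xdeg S`** for odd points `R`, `S`, `x_R` transcendental. -/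
theorem xdeg_map_substHom (hΔ : W.Δ ≠ 0) {xR yR : W.FunctionField}
    (h : (W⁄W.FunctionField).Nonsingular xR yR) (hR : Point.some xR yR h ∈ oddPoints W)
    (hX : Transcendental k xR) {S : (W⁄W.FunctionField).Point} (hS : S ∈ oddPoints W) :
    xdeg W (Point.map (W' := W) (substHom W h.1 hX) S) = xdeg W (Point.some xR yR h) * xdeg W S :=
  xdeg_map_substHom_of W (xdeg W) (xdeg_zero W) (@xdeg_some_eq _ _ W) hΔ h hR hX hS

/-- the same, with the transcendence of `x_R` deduced from `0 < xdeg R`. -/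
theorem xdeg_map_substHom_of_pos (hΔ : W.Δ ≠ 0) {xR yR : W.FunctionField}
    (h : (W⁄W.FunctionField).Nonsingular xR yR) (hR : Point.some xR yR h ∈ oddPoints W)
    (hpos : 0 < xdeg W (Point.some xR yR h)) {S : (W⁄W.FunctionField).Point}
    (hS : S ∈ oddPoints W) :
    xdeg W (Point.map (W' := W) (substHom W h.1 (transcendental_of_xdeg_pos W h hpos)) S) =
      xdeg W (Point.some xR yR h) * xdeg W S :=
  xdeg_map_substHom W hΔ h hR _ hS

end General

section Frob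

variable (ℓ : ℕ) [Fact ℓ.Prime] (W₀ : Affine (ZMod ℓ)) [DecidableEq W₀.FunctionField]

/-- **(I-3): `xdeg (φ R) = ℓ * xdeg R`** for odd points `R`. -/
theorem xdeg_map_frobK (hΔ : W₀.Δ ≠ 0) {R : (W₀⁄W₀.FunctionField).Point} (hR : R ∈ oddPoints W₀) :
    xdeg W₀ (Point.map (W' := W₀) (frobK ℓ W₀) R) = ℓ * xdeg W₀ R :=
  xdeg_map_frobK_of ℓ W₀ (xdeg W₀) (xdeg_zero W₀) (@xdeg_some_eq _ _ W₀) hΔ hR

/-- **(I-3): `xdeg (φ^i P₀) = ℓ ^ i`.** -/
theorem xdeg_iterate_frobK_genericPoint (hΔ : W₀.Δ ≠ 0) (i : ℕ) :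
    xdeg W₀ ((Point.map (W' := W₀) (frobK ℓ W₀))^[i] (genericPoint W₀ hΔ)) = ℓ ^ i :=
  xdeg_iterate_frobK_genericPoint_of ℓ W₀ (xdeg W₀) (xdeg_zero W₀)
    (@xdeg_some_eq _ _ W₀) hΔ i

end Frob

end Fermat.Agent.ES.Q58.XDegMulB2
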