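/-
Programme S58 (elliptic Eichler–Shimura relation), PART I, brick (I-7) (helper2):
**the relation `φ² − a φ + ℓ = 0` on `W(L)` for every algebraic extension `L` of `ZMod ℓ`**, with
`a = ℓ + 1 − xdeg (P₀ − φ P₀)`; by Manin's lemma (brick (I-6)) `xdeg (P₀ − φ P₀) = #W(F_ℓ)`.

`ℓ` prime, `W : WeierstrassCurve.Affine (ZMod ℓ)`, `Δ ≠ 0`, `K = W.FunctionField`, `P₀` the generic point,
`φ = frobPt ℓ W K`.
* `xdeg_add_frob_pos` : `0 < xdeg (P₀ + φ P₀)` (from the nonnegativity of the quadratic function `xdeg`);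
* `map_substHom_sub_frob` : `τ_R (P₀ − φ P₀) = P₀ − φ² P₀` for `R = P₀ + φ P₀`;
* `xdeg_sub_frob_sq` : `xdeg (P₀ − φ² P₀) = xdeg (P₀ − φ P₀) * xdeg (P₀ + φ P₀)`;
* `xdeg_relMap_genericPoint` : `xdeg ((φ² − aφ + ℓ) P₀) = 0` (`QuadRel18.quad_rel`);
* `relMap_genericPoint` : `(φ² − aφ + ℓ) P₀ = 0`;
* `relMap_eq_zero` : `(φ² − aφ + ℓ) Q = 0` for all `Q ∈ W(L)`, `L` algebraic over `ZMod ℓ`;
* `relMap_eq_zero_of_card` : the same with `a = ℓ + 1 − #W(F_ℓ)`, given `xdeg (P₀ − φ P₀) = #W(F_ℓ)`.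
-/
import Fermat.Agent.ES.Q58.XDegMulB2
import Fermat.Agent.ES.Q58.GenericToAll2

set_option autoImplicit false

namespace Fermat.Agent.ES.Q58.GenericRel2

open WeierstrassCurve WeierstrassCurve.Affine Polynomial
open Fermat.Agent.ES.Q58.IotaDescent23 Fermat.Agent.ES.Q58.SubstEmb17
open Fermat.Agent.ES.Q58.FrobAlg2 Fermat.Agent.ES.Q58.XDegMul2 Fermat.Agent.ES.Q58.XDeg1
open Fermat.Agent.ES.Q58.XDegMulB2 Fermat.Agent.ES.Q58.GenericToAll2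

variable (ℓ : ℕ) [Fact ℓ.Prime] (W : Affine (ZMod ℓ)) [DecidableEq W.FunctionField]

/-- `φ` preserves odd points (for `frobPt`). -/
theorem frobPt_mem_oddPoints {R : (W⁄W.FunctionField).Point} (hR : R ∈ oddPoints W) :
    frobPt ℓ W W.FunctionField R ∈ oddPoints W :=
  map_frobK_mem_oddPoints ℓ W hR

theorem xdeg_frobPt (hΔ : W.Δ ≠ 0) {R : (W⁄W.FunctionField).Point} (hR : R ∈ oddPoints W) :
    xdeg W (frobPt ℓ W W.FunctionField R) = ℓ * xdeg W R :=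
  xdeg_map_frobK ℓ W hΔ hR

/-- the three odd points `P₀`, `φ P₀`, `φ² P₀`. -/
noncomputable def e0 (hΔ : W.Δ ≠ 0) : ↥(oddPoints W) :=
  ⟨genericPoint W hΔ, genericPoint_mem_oddPoints W hΔ⟩

noncomputable def e1 (hΔ : W.Δ ≠ 0) : ↥(oddPoints W) :=
  ⟨frobPt ℓ W W.FunctionField (genericPoint W hΔ),
    frobPt_mem_oddPoints ℓ W (genericPoint_mem_oddPoints W hΔ)⟩

noncomputable def e2 (hΔ : W.Δ ≠ 0) : ↥(oddPoints W) :=
  ⟨frobPt ℓ W W.FunctionField (frobPt ℓ W W.FunctionField (genericPoint W hΔ)),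
    frobPt_mem_oddPoints ℓ W (frobPt_mem_oddPoints ℓ W (genericPoint_mem_oddPoints W hΔ))⟩

theorem dZ_e0 (hΔ : W.Δ ≠ 0) : dZ W (e0 ℓ W hΔ) = 1 := by
  rw [dZ_apply, e0, xdeg_genericPoint W hΔ, Nat.cast_one]

theorem dZ_e1 (hΔ : W.Δ ≠ 0) : dZ W (e1 ℓ W hΔ) = ℓ := by
  rw [dZ_apply, e1, xdeg_frobPt ℓ W hΔ (genericPoint_mem_oddPoints W hΔ), xdeg_genericPoint W hΔ,
    mul_one]

theorem dZ_e2 (hΔ : W.Δ ≠ 0) : dZ W (e2 ℓ W hΔ) = (ℓ : ℤ) ^ 2 := by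
  rw [dZ_apply, e2,
    xdeg_frobPt ℓ W hΔ (frobPt_mem_oddPoints ℓ W (genericPoint_mem_oddPoints W hΔ)),
    xdeg_frobPt ℓ W hΔ (genericPoint_mem_oddPoints W hΔ), xdeg_genericPoint W hΔ, mul_one]
  push_cast
  ring

/-- `d (φ P₀ + φ² P₀) = ℓ d (P₀ + φ P₀)`. -/
theorem dZ_e1_add_e2 (hΔ : W.Δ ≠ 0) :
    dZ W (e1 ℓ W hΔ + e2 ℓ W hΔ) = ℓ * dZ W (e0 ℓ W hΔ + e1 ℓ W hΔ) := by
  have h : ((e1 ℓ W hΔ + e2 ℓ W hΔ : ↥(oddPoints W)) : (W⁄W.FunctionField).Point) =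
      frobPt ℓ W W.FunctionField ((e0 ℓ W hΔ + e1 ℓ W hΔ : ↥(oddPoints W)) :
        (W⁄W.FunctionField).Point) := by
    simp only [AddSubgroup.coe_add, e0, e1, e2, map_add]
  rw [dZ_apply, dZ_apply, h, xdeg_frobPt ℓ W hΔ (e0 ℓ W hΔ + e1 ℓ W hΔ).2]
  push_cast
  ring

/-- **`0 < xdeg (P₀ + φ P₀)`.** -/
theorem dZ_e0_add_e1_pos (hΔ : W.Δ ≠ 0) : 0 < dZ W (e0 ℓ W hΔ + e1 ℓ W hΔ) := by
  have hPL := dZ_parallelogram W hΔ
  have hℓ : (2 : ℤ) ≤ ℓ := by exact_mod_cast (Fact.out : ℓ.Prime).two_le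
  set t : ℤ := QuadRel18.polar (dZ W) (e0 ℓ W hΔ) (e1 ℓ W hΔ) with ht
  have hp : dZ W (e0 ℓ W hΔ + e1 ℓ W hΔ) = 1 + ℓ + t := by
    rw [QuadRel18.d_add (d := dZ W), dZ_e0, dZ_e1]
  rcases (dZ_nonneg W (e0 ℓ W hΔ + e1 ℓ W hΔ)).lt_or_eq with h | h
  · exact h
  · exfalso
    -- `t = -(ℓ + 1)`; evaluate at `(ℓ + 1) e0 + 2 e1`
    have ht' : t = -(ℓ + 1) := by rw [hp] at h; linarith
    have hneg : dZ W (((ℓ : ℤ) + 1) • e0 ℓ W hΔ + (2 : ℤ) • e1 ℓ W hΔ) =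
        ((ℓ : ℤ) + 1) ^ 2 + 2 ^ 2 * ℓ + ((ℓ : ℤ) + 1) * (2 * t) := by
      rw [QuadRel18.d_add (d := dZ W), QuadRel18.d_zsmul hPL, QuadRel18.d_zsmul hPL,
        QuadRel18.polar_zsmul_left hPL, QuadRel18.polar_zsmul_right hPL, dZ_e0, dZ_e1, ← ht]
      ring
    have hnn := dZ_nonneg W (((ℓ : ℤ) + 1) • e0 ℓ W hΔ + (2 : ℤ) • e1 ℓ W hΔ)
    rw [hneg, ht'] at hnn
    nlinarith

theorem xdeg_add_frob_pos (hΔ : W.Δ ≠ 0) :
    0 < xdeg W (genericPoint W hΔ + frobPt ℓ W W.FunctionField (genericPoint W hΔ)) := by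
  have h := dZ_e0_add_e1_pos ℓ W hΔ
  rw [dZ_apply] at h
  exact_mod_cast h

/-- **`τ_R (P₀ − φ P₀) = P₀ − φ² P₀`** for `R = P₀ + φ P₀`. -/
theorem map_substHom_sub_frob (hΔ : W.Δ ≠ 0) {u v : W.FunctionField}
    (h : (W⁄W.FunctionField).Nonsingular u v) (hX : Transcendental (ZMod ℓ) u)
    (hR : genericPoint W hΔ + frobPt ℓ W W.FunctionField (genericPoint W hΔ) = Point.some u v h) :
    Point.map (W' := W) (substHom W h.1 hX)
        (genericPoint W hΔ - frobPt ℓ W W.FunctionField (genericPoint W hΔ)) =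
      genericPoint W hΔ -
        frobPt ℓ W W.FunctionField (frobPt ℓ W W.FunctionField (genericPoint W hΔ)) := by
  rw [map_sub, map_frobPt, map_substHom_genericPoint W hΔ h hX, ← hR, map_add]
  abel

/-- **`d (P₀ − φ² P₀) = d (P₀ − φ P₀) * d (P₀ + φ P₀)`.** -/
theorem dZ_e0_sub_e2 (hΔ : W.Δ ≠ 0) :
    dZ W (e0 ℓ W hΔ - e2 ℓ W hΔ) = dZ W (e0 ℓ W hΔ - e1 ℓ W hΔ) * dZ W (e0 ℓ W hΔ + e1 ℓ W hΔ) := by
  have hpos := xdeg_add_frob_pos ℓ W hΔ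
  have hRodd : genericPoint W hΔ + frobPt ℓ W W.FunctionField (genericPoint W hΔ) ∈ oddPoints W :=
    (e0 ℓ W hΔ + e1 ℓ W hΔ).2
  have hSodd : genericPoint W hΔ - frobPt ℓ W W.FunctionField (genericPoint W hΔ) ∈ oddPoints W :=
    (e0 ℓ W hΔ - e1 ℓ W hΔ).2
  -- `R` is affine
  obtain ⟨u, v, h, hR⟩ : ∃ (u v : W.FunctionField) (h : (W⁄W.FunctionField).Nonsingular u v),
      genericPoint W hΔ + frobPt ℓ W W.FunctionField (genericPoint W hΔ) = Point.some u v h := by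
    rcases hc : genericPoint W hΔ + frobPt ℓ W W.FunctionField (genericPoint W hΔ) with _ | ⟨u, v, h⟩
    · rw [hc] at hpos
      rw [← Point.zero_def, xdeg_zero] at hpos
      exact absurd hpos (lt_irrefl 0)
    · exact ⟨u, v, h, rfl⟩
  rw [hR] at hpos hRodd
  have hX := transcendental_of_xdeg_pos W h hpos
  have key := xdeg_map_substHom W hΔ h hRodd hX hSodd
  rw [map_substHom_sub_frob ℓ W hΔ h hX hR, ← hR] at key
  simp only [dZ_apply, AddSubgroup.coe_add, AddSubgroup.coe_sub, e0, e1, e2]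
  rw [key]
  push_cast
  ring

/-- **`xdeg ((φ² − a φ + ℓ) P₀) = 0`**, `a = 1 + ℓ − xdeg (P₀ − φ P₀)`. -/
theorem xdeg_relMap_genericPoint (hΔ : W.Δ ≠ 0) :
    xdeg W (relMap ℓ W W.FunctionField
      (1 + ℓ - xdeg W (genericPoint W hΔ - frobPt ℓ W W.FunctionField (genericPoint W hΔ)))
      (genericPoint W hΔ)) = 0 := by
  have hq := QuadRel18.quad_rel (dZ_parallelogram W hΔ) (e0 ℓ W hΔ) (e1 ℓ W hΔ) (e2 ℓ W hΔ) (ℓ : ℤ)
    (dZ_e0 ℓ W hΔ) (dZ_e1 ℓ W hΔ) (dZ_e2 ℓ W hΔ) (dZ_e1_add_e2 ℓ W hΔ) (dZ_e0_sub_e2 ℓ W hΔ)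
  rw [dZ_apply] at hq
  have hq' : xdeg W ((e2 ℓ W hΔ - (1 + (ℓ : ℤ) - dZ W (e0 ℓ W hΔ - e1 ℓ W hΔ)) • e1 ℓ W hΔ +
      (ℓ : ℤ) • e0 ℓ W hΔ : ↥(oddPoints W)) : (W⁄W.FunctionField).Point) = 0 := by
    exact_mod_cast hq
  rw [relMap_apply]
  simpa only [dZ_apply, AddSubgroup.coe_add, AddSubgroup.coe_sub, AddSubgroup.coe_zsmul, e0, e1,
    e2] using hq'

/-- `(φ² − a φ + ℓ) P₀` is an odd point. -/
theorem relMap_genericPoint_mem_oddPoints (hΔ : W.Δ ≠ 0) (a : ℤ) :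
    relMap ℓ W W.FunctionField a (genericPoint W hΔ) ∈ oddPoints W := by
  rw [relMap_apply]
  exact (e2 ℓ W hΔ - a • e1 ℓ W hΔ + (ℓ : ℤ) • e0 ℓ W hΔ).2

/-- `n • P₀` is not an algebraic point, `n ≠ 0`. -/
theorem zsmul_genericPoint_not_mem_algPoints (hΔ : W.Δ ≠ 0) {n : ℤ} (hn : n ≠ 0) :
    n • genericPoint W hΔ ∉ algPoints W W.FunctionField := by
  have hdeg := xdeg_zsmul_genericPoint W hΔ n
  have hpos : 0 < xdeg W (n • genericPoint W hΔ) := by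
    have : (0 : ℤ) < n ^ 2 := by positivity
    rw [← hdeg] at this
    exact_mod_cast this
  intro hmem
  rcases hc : n • genericPoint W hΔ with _ | ⟨u, v, h⟩
  · rw [hc, ← Point.zero_def, xdeg_zero] at hpos
    exact lt_irrefl 0 hpos
  · rw [hc] at hpos hmem
    exact transcendental_of_xdeg_pos W h hpos ((some_mem_algPoints_iff W h).mp hmem)

/-- **the relation at the generic point**: `(φ² − a φ + ℓ) P₀ = 0`,
`a = 1 + ℓ − xdeg (P₀ − φ P₀)`. -/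
theorem relMap_genericPoint (hΔ : W.Δ ≠ 0) :
    relMap ℓ W W.FunctionField
      (1 + ℓ - xdeg W (genericPoint W hΔ - frobPt ℓ W W.FunctionField (genericPoint W hΔ)))
      (genericPoint W hΔ) = 0 := by
  refine relMap_genericPoint_eq_zero ℓ W hΔ _ ?_
    (zsmul_genericPoint_not_mem_algPoints ℓ W hΔ (by norm_num))
    (zsmul_genericPoint_not_mem_algPoints ℓ W hΔ (by norm_num))
  intro x y h hZ
  have h0 := xdeg_relMap_genericPoint ℓ W hΔ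
  have hodd := relMap_genericPoint_mem_oddPoints ℓ W hΔ
    (1 + ℓ - xdeg W (genericPoint W hΔ - frobPt ℓ W W.FunctionField (genericPoint W hΔ)))
  rcases (xdeg_eq_zero_iff W hΔ hodd).mp h0 with h1 | ⟨c, y', h', h1⟩
  · rw [hZ] at h1
    exact absurd h1 (Point.some_ne_zero h)
  · rw [hZ] at h1
    have := (Point.some.inj h1).1
    exact ⟨c, this.symm⟩

/-- **(I-7): the relation `φ² − a φ + ℓ = 0` on all points over algebraic extensions of `ZMod ℓ`**,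
`a = 1 + ℓ − xdeg (P₀ − φ P₀)`. -/
theorem relMap_eq_zero (hΔ : W.Δ ≠ 0) (L : Type*) [Field L] [Algebra (ZMod ℓ) L]
    [Algebra.IsAlgebraic (ZMod ℓ) L] [DecidableEq L] (Q : (W⁄L).Point) :
    relMap ℓ W L
      (1 + ℓ - xdeg W (genericPoint W hΔ - frobPt ℓ W W.FunctionField (genericPoint W hΔ))) Q = 0 :=
  rel_of_generic ℓ W hΔ _ (relMap_genericPoint ℓ W hΔ) L Q

/-- **(I-7), final form**, given Manin's lemma `xdeg (P₀ − φ P₀) = #W(F_ℓ)`. -/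
theorem relMap_eq_zero_of_card (hΔ : W.Δ ≠ 0)
    (hManin : xdeg W (genericPoint W hΔ - frobPt ℓ W W.FunctionField (genericPoint W hΔ)) =
      Nat.card W.Point)
    (L : Type*) [Field L] [Algebra (ZMod ℓ) L] [Algebra.IsAlgebraic (ZMod ℓ) L] [DecidableEq L]
    (Q : (W⁄L).Point) :
    relMap ℓ W L ((ℓ : ℤ) + 1 - (Nat.card W.Point : ℤ)) Q = 0 := by
  have h := relMap_eq_zero ℓ W hΔ L Q
  rw [hManin] at h
  have e : (1 : ℤ) + ℓ - (Nat.card W.Point : ℤ) = (ℓ : ℤ) + 1 - (Nat.card W.Point : ℤ) := by ring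
  rwa [e] at h

/-- the same, unfolded: `φ (φ Q) − a • φ Q + ℓ • Q = 0`. -/
theorem frob_frob_sub_add_eq_zero (hΔ : W.Δ ≠ 0)
    (hManin : xdeg W (genericPoint W hΔ - frobPt ℓ W W.FunctionField (genericPoint W hΔ)) =
      Nat.card W.Point)
    (L : Type*) [Field L] [Algebra (ZMod ℓ) L] [Algebra.IsAlgebraic (ZMod ℓ) L] [DecidableEq L]
    (Q : (W⁄L).Point) :
    Point.map (W' := W) (frobAlg ℓ L) (Point.map (W' := W) (frobAlg ℓ L) Q) -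
      ((ℓ : ℤ) + 1 - (Nat.card W.Point : ℤ)) • Point.map (W' := W) (frobAlg ℓ L) Q +
      (ℓ : ℤ) • Q = 0 :=
  relMap_eq_zero_of_card ℓ W hΔ hManin L Q

end Fermat.Agent.ES.Q58.GenericRel2
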