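/-
Programme Q (S58), PARTS I + II closed (helper4): **the Eichler–Shimura relation in characteristic `ℓ`**
(`RelQbar5.CharRel`, from `GenericRel2` + Manin's lemma `ManinDeg4.xdeg_sub_frob`) and its consequence on the
generic fibre, `TraceCong20.RelQbar W` for every integral Weierstrass curve `W`.
-/
import Fermat.Agent.ES.Q58.RelQbar5
import Fermat.Agent.ES.Q58.GenericRel2
import Fermat.Agent.ES.Q58.ManinDeg4

set_option autoImplicit false

namespace Fermat.Agent.ES.Q58.CharRel4

open WeierstrassCurve WeierstrassCurve.Affine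
open Fermat.Agent.ES.Q58.FrobAlg2

/-- **PART I, final form**: on an elliptic curve `W₀` over `𝔽_ℓ`, the `ℓ`-power Frobenius `φ` of an
algebraic extension `κ` of `𝔽_ℓ` satisfies `φ² − a φ + ℓ = 0` on `W₀(κ)`, `a = ℓ + 1 − #W₀(𝔽_ℓ)`. -/
theorem charRel : RelQbar5.CharRel := by
  intro ℓ _ W₀ hΔ κ _ _ _ _ φ hφ Q
  classical
  have hφ' : φ = frobAlg ℓ κ := AlgHom.ext hφ
  rw [hφ']
  exact GenericRel2.frob_frob_sub_add_eq_zero ℓ W₀.toAffine hΔ
    (ManinDeg4.xdeg_sub_frob ℓ W₀.toAffine hΔ) κ Q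

/-- **PARTS I + II**: the Eichler–Shimura relation on the odd prime-to-`r` torsion of `W(ℚ̄)` at a
Frobenius element over a good prime `r`. -/
theorem relQbar (W : WeierstrassCurve ℤ) : TraceCong20.RelQbar W :=
  RelQbar5.relQbar_of_charRel charRel W

end Fermat.Agent.ES.Q58.CharRel4
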