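/-
Programme Q (S58), final glue of PART I and PART II (helper5):
* `charRel` : the Eichler–Shimura relation in characteristic `ℓ` in the shape `RelQbar5.CharRel`
  (from `GenericRel2.frob_frob_sub_add_eq_zero` and Manin's lemma `ManinDeg4.xdeg_sub_frob`);
* `relQbar W` : the Eichler–Shimura relation on the odd prime-to-`r` torsion of the generic fibre
  of every integral Weierstrass curve `W`, i.e. `TraceCong20.RelQbar W`.
-/
import Mathlib
import Fermat.Agent.ES.Q58.RelQbar5
import Fermat.Agent.ES.Q58.GenericRel2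
import Fermat.Agent.ES.Q58.ManinDeg4

set_option autoImplicit false

open WeierstrassCurve WeierstrassCurve.Affine

namespace Fermat.Agent.ES.Q58.CharRelFinal5

open Fermat.Agent.ES.Q58.FrobAlg2 Fermat.Agent.ES.Q58.RelQbar5

/-- **PART I, final form.** -/
theorem charRel : CharRel := by
  intro ℓ _ W₀ hΔ κ _ _ _ _ φ hφ Q
  classical
  have hφe : φ = frobAlg ℓ κ := AlgHom.ext fun x => by rw [hφ, frobAlg_apply]
  subst hφe
  exact Fermat.Agent.ES.Q58.GenericRel2.frob_frob_sub_add_eq_zero ℓ W₀.toAffine hΔ
    (Fermat.Agent.ES.Q58.ManinDeg4.xdeg_sub_frob ℓ W₀.toAffine hΔ) κ Q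

/-- **PART I + PART II**: the Eichler–Shimura relation on the generic fibre. -/
theorem relQbar (W : WeierstrassCurve ℤ) : Fermat.Agent.ES.Q58.TraceCong20.RelQbar W :=
  relQbar_of_charRel charRel W

end Fermat.Agent.ES.Q58.CharRelFinal5
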