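/-
Programme Q (S58), PART III-a (helper6): **inertia at a good prime acts trivially on the torsion
prime to the residue characteristic**, on a general integral Weierstrass model, and the resulting
`InertiaCong W lam q` of `ECIface12` for `q` good.

* `unit_of_odd_torsion` : `A` a valuation subring of a field `L` over the prime `q`, `W` integral
  with `q ∤ Δ`, `(x, y)` a point of `W(L)` of odd order `m` with integral coordinates: then
  `2y + a₁x + a₃` is a unit of `A` (the reduction is a point of odd order of the elliptic curve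
  `W̃` over the residue field, hence not a `2`-torsion point).
* `inertia_fix_of_unit` : (no hypothesis on the reduction type) `τ ∈ I_q` fixes every point
  `(x, y)` of `W(ℚ̄)` killed by some `m` prime to `q` with `2y + a₁x + a₃` a unit at `q`.
* `inertia_fix` : `τ ∈ I_q` fixes every point of `W(ℚ̄)` killed by an odd `m` prime to `q`.
* `inertiaCong_good` : `InertiaCong W lam q` for `q` good and `lam ≠ q` an odd prime.
-/
import Mathlib
import Fermat.Agent.ES.Q58.WeakLink25
import Fermat.Agent.ES.Q58.CoordField13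
import Fermat.Agent.ES.Q58.ECIface12

set_option autoImplicit false

open WeierstrassCurve WeierstrassCurve.Affine Polynomial

namespace Fermat.Agent.ES.Q58.InertiaGood6

open Fermat.Agent.S05.Inertia Fermat.Agent.S05.Kernel Fermat.Agent.DivPoly
open Fermat.Agent.ES.EC

/-! ### The reduction of a point of odd order is not a `2`-torsion point -/

section Unit

variable {L : Type*} [Field L] [DecidableEq L] (A : ValuationSubring L)

omit [DecidableEq L] in
/-- Evaluation of an integer polynomial at an element of `A`, then residue. -/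
theorem residue_eval₂ (f : ℤ[X]) {x : L} (hx : x ∈ A)
    (h0 : f.eval₂ (Int.castRingHom L) x = 0) :
    f.eval₂ (Int.castRingHom (IsLocalRing.ResidueField A)) (IsLocalRing.residue A ⟨x, hx⟩) = 0 := by
  have h1 : f.eval₂ (Int.castRingHom A) (⟨x, hx⟩ : A) = 0 := by
    apply Subtype.ext
    have := Polynomial.hom_eval₂ f (Int.castRingHom A) A.subtype (⟨x, hx⟩ : A)
    rw [show A.subtype.comp (Int.castRingHom A) = Int.castRingHom L from RingHom.ext_int _ _]
      at this
    change A.subtype _ = _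
    rw [this]
    exact h0
  have := Polynomial.hom_eval₂ f (Int.castRingHom A) (IsLocalRing.residue A) (⟨x, hx⟩ : A)
  rw [show (IsLocalRing.residue A).comp (Int.castRingHom A)
      = Int.castRingHom (IsLocalRing.ResidueField A) from RingHom.ext_int _ _, h1, map_zero]
    at this
  exact this.symm

open Classical in
/-- **The reduction of a point of odd order is not a `2`-torsion point.** -/
theorem unit_of_odd_torsion (W : WeierstrassCurve ℤ) {q m : ℕ} (hq : q.Prime)
    (hA : A.LiesOverPrime q) (hgood : ¬ (q : ℤ) ∣ W.Δ) (hm : Odd m)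
    {V : Affine L} (hV : V = (W.map (Int.castRingHom L)).toAffine)
    {x y : L} (h : V.Nonsingular x y) (hP : m • Point.some x y h = 0)
    (hvx : A.valuation x ≤ 1) (hvy : A.valuation y ≤ 1) :
    A.valuation (2 * y + V.a₁ * x + V.a₃) = 1 := by
  subst hV
  have hxA : x ∈ A := (A.valuation_le_one_iff x).mp hvx
  have hyA : y ∈ A := (A.valuation_le_one_iff y).mp hvy
  set κ := IsLocalRing.ResidueField A with hκ
  set res : A →+* κ := IsLocalRing.residue A with hres
  set Wt : Affine κ := (W.map (Int.castRingHom κ)).toAffine with hWt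
  set xb : κ := res ⟨x, hxA⟩ with hxb
  set yb : κ := res ⟨y, hyA⟩ with hyb
  -- the equation in `A`
  have heq := (Affine.equation_iff _ _).mp h.1
  simp only [WeierstrassCurve.map_a₁, WeierstrassCurve.map_a₂, WeierstrassCurve.map_a₃,
    WeierstrassCurve.map_a₄, WeierstrassCurve.map_a₆, eq_intCast] at heq
  have heqA : (⟨y, hyA⟩ : A) ^ 2 + (W.a₁ : A) * ⟨x, hxA⟩ * ⟨y, hyA⟩ + (W.a₃ : A) * ⟨y, hyA⟩
      = (⟨x, hxA⟩ : A) ^ 3 + (W.a₂ : A) * (⟨x, hxA⟩ : A) ^ 2 + (W.a₄ : A) * ⟨x, hxA⟩
        + (W.a₆ : A) := by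
    apply Subtype.ext
    push_cast
    exact heq
  have heqt : Wt.Equation xb yb := by
    rw [Affine.equation_iff]
    simp only [hWt, WeierstrassCurve.map_a₁, WeierstrassCurve.map_a₂, WeierstrassCurve.map_a₃,
      WeierstrassCurve.map_a₄, WeierstrassCurve.map_a₆, eq_intCast]
    have := congrArg res heqA
    simpa only [map_add, map_mul, map_pow, map_intCast] using this
  have hΔt : Wt.Δ ≠ 0 := by
    rw [hWt, WeierstrassCurve.map_Δ, eq_intCast]
    have hu := LiftTorsion29.isUnit_intCast_of_not_dvd A hq hA hgood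
    have : ((W.Δ : ℤ) : κ) = res ((W.Δ : ℤ) : A) := by rw [map_intCast]
    rw [this]
    intro h0
    rw [hres, IsLocalRing.residue_eq_zero_iff] at h0
    exact ((IsLocalRing.mem_maximalIdeal _).mp h0) hu
  have hns : Wt.Nonsingular xb yb :=
    (Wt.equation_iff_nonsingular_of_Δ_ne_zero hΔt).mp heqt
  -- the division polynomial
  have hψ : ((W.map (Int.castRingHom L)).toAffine.preΨ' m).eval x = 0 :=
    (A1Final.nsmul_eq_zero_iff_preΨ' h hm).mp hP
  have hψ2 : (W.preΨ' m).eval₂ (Int.castRingHom L) x = 0 := by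
    rw [eval₂_eq_eval_map, ← WeierstrassCurve.map_preΨ']
    exact hψ
  have hψt : (Wt.preΨ' m).eval xb = 0 := by
    have e : Wt.preΨ' m = (W.preΨ' m).map (Int.castRingHom κ) := by
      rw [hWt]; exact WeierstrassCurve.map_preΨ' W (Int.castRingHom κ) m
    rw [e, ← eval₂_eq_eval_map]
    exact residue_eval₂ A (W.preΨ' m) hxA hψ2
  have hmt : m • (Point.some _ _ hns : Wt.Point) = 0 :=
    (A1Final.nsmul_eq_zero_iff_preΨ' hns hm).mpr hψt
  -- not a `2`-torsion point
  simp only [WeierstrassCurve.map_a₁, WeierstrassCurve.map_a₃, eq_intCast]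
  have hle : A.valuation (2 * y + (W.a₁ : L) * x + (W.a₃ : L)) ≤ 1 := by
    have hmem : 2 * y + (W.a₁ : L) * x + (W.a₃ : L) ∈ A :=
      A.add_mem _ _ (A.add_mem _ _ (A.mul_mem _ _ (ofNat_mem A 2) hyA)
        (A.mul_mem _ _ (intCast_mem A _) hxA)) (intCast_mem A _)
    exact (A.valuation_le_one_iff _).mpr hmem
  apply le_antisymm hle
  by_contra hlt
  push Not at hlt
  have hmem : 2 * y + (W.a₁ : L) * x + (W.a₃ : L) ∈ A := (A.valuation_le_one_iff _).mp hle
  have hnu : (⟨2 * y + (W.a₁ : L) * x + (W.a₃ : L), hmem⟩ : A) ∈ IsLocalRing.maximalIdeal A := by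
    rw [← ValuationSubring.coe_mem_nonunits_iff]
    exact (ValuationSubring.mem_nonunits_iff (A := A)).mpr hlt
  have h0 : res ⟨2 * y + (W.a₁ : L) * x + (W.a₃ : L), hmem⟩ = 0 := by
    rw [hres, IsLocalRing.residue_eq_zero_iff]; exact hnu
  have e0 : (⟨2 * y + (W.a₁ : L) * x + (W.a₃ : L), hmem⟩ : A)
      = 2 * ⟨y, hyA⟩ + (W.a₁ : A) * ⟨x, hxA⟩ + (W.a₃ : A) := by
    apply Subtype.ext
    push_cast
    rfl
  rw [e0] at h0
  simp only [map_add, map_mul, map_intCast, map_ofNat] at h0
  have hneg : yb = Wt.negY xb yb := by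
    simp only [Affine.negY, hWt, WeierstrassCurve.map_a₁, WeierstrassCurve.map_a₃, eq_intCast]
    linear_combination h0
  have h2 : (2 : ℕ) • (Point.some _ _ hns : Wt.Point) = 0 := by
    rw [two_nsmul]
    exact Point.add_of_Y_eq rfl hneg
  obtain ⟨k, hk⟩ := hm
  have h00 : (Point.some _ _ hns : Wt.Point) = 0 := by
    have e1 : m • (Point.some _ _ hns : Wt.Point)
        = k • ((2 : ℕ) • (Point.some _ _ hns : Wt.Point)) + Point.some _ _ hns := by
      rw [hk, add_smul, mul_comm, mul_smul, one_smul]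
    rw [hmt, h2, nsmul_zero, zero_add] at e1
    exact e1.symm
  exact Point.some_ne_zero hns h00

end Unit

/-! ### Inertia at a good prime -/

section Main

local notation "Qb" => AlgebraicClosure ℚ
local notation "GQ" => (AlgebraicClosure ℚ ≃ₐ[ℚ] AlgebraicClosure ℚ)

open Fermat.Agent.ES.EC.CongE1_20 Fermat.Agent.ES.Q58.ECIface12

/-- the coefficients of the base change of an integral model are integral. -/
theorem integralCoeffs (W : WeierstrassCurve ℤ) (P : ValuationSubring Qb) :
    IntegralCoeffs P.valuation ((W.map (Int.castRingHom ℚ))⁄Qb) := by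
  rw [TorsionLift20.baseChange_eq_map W]
  refine ⟨?_, ?_, ?_, ?_, ?_⟩
  · rw [WeierstrassCurve.map_a₁, eq_intCast]; exact valuation_intCast_le_one _
  · rw [WeierstrassCurve.map_a₂, eq_intCast]; exact valuation_intCast_le_one _
  · rw [WeierstrassCurve.map_a₃, eq_intCast]; exact valuation_intCast_le_one _
  · rw [WeierstrassCurve.map_a₄, eq_intCast]; exact valuation_intCast_le_one _
  · rw [WeierstrassCurve.map_a₆, eq_intCast]; exact valuation_intCast_le_one _

/-- **Reduction-type-free core.**  An element of the inertia group at `q` fixes every point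
`(x, y)` of `W(ℚ̄)` killed by some `m` prime to `q` for which `2y + a₁x + a₃` is a unit at `P`
(the reduction is a non-`2`-torsion point): `τ(x, y)` and `(x, y)` are congruent torsion points
of order prime to `q`. -/
theorem inertia_fix_of_unit (W : WeierstrassCurve ℤ) {q m : ℕ} (hq : q.Prime) (hqm : ¬ q ∣ m)
    {P : ValuationSubring Qb} (hP : P.LiesOverPrime q) {τ : GQ}
    (hτ : τ ∈ P.inertiaSubgroupIn ℚ) {x y : Qb}
    (h : ((W.map (Int.castRingHom ℚ))⁄Qb).Nonsingular x y)
    (hQ : m • Point.some x y h = 0)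
    (hu : P.valuation (2 * y + ((W.map (Int.castRingHom ℚ))⁄Qb).a₁ * x
      + ((W.map (Int.castRingHom ℚ))⁄Qb).a₃) = 1) :
    Point.map (W' := W.map (Int.castRingHom ℚ)) τ.toAlgHom (Point.some x y h)
      = Point.some x y h := by
  have hvm : P.valuation ((m : ℕ) : Qb) = 1 := valuation_natCast_eq_one hq hP hqm
  have hint := integralCoeffs W P
  have hvx : P.valuation x ≤ 1 := x_integral_of_nsmul_eq_zero hint h hvm hQ
  have hvy : P.valuation y ≤ 1 := by
    by_contra hy
    exact absurd (vx_of_vy hint h.1 (not_le.mp hy)) (not_lt.mpr hvx)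
  have h' : ((W.map (Int.castRingHom ℚ))⁄Qb).Nonsingular (τ.toAlgHom x) (τ.toAlgHom y) :=
    (WeierstrassCurve.Affine.baseChange_nonsingular (W.map (Int.castRingHom ℚ))
      (f := τ.toAlgHom) τ.toAlgHom.injective x y).mpr h
  have hmap : Point.map (W' := W.map (Int.castRingHom ℚ)) τ.toAlgHom (Point.some x y h)
      = Point.some (τ.toAlgHom x) (τ.toAlgHom y) h' := rfl
  have hQ' : m • Point.some (τ.toAlgHom x) (τ.toAlgHom y) h' = 0 := by
    rw [← hmap, ← map_nsmul, hQ]
    rfl
  rw [hmap]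
  have hx : P.valuation (τ.toAlgHom x - x) < 1 := valuation_sub_lt_one hτ hvx
  have hy : P.valuation (τ.toAlgHom y - y) < 1 := valuation_sub_lt_one hτ hvy
  exact eq_of_congruent_of_nsmul_eq_zero hint h' h hx hy hu hvm hQ' hQ

/-- **Inertia at a good prime `q` fixes the torsion of odd order prime to `q`.** -/
theorem inertia_fix (W : WeierstrassCurve ℤ) {q m : ℕ} (hq : q.Prime)
    (hgood : ¬ (q : ℤ) ∣ W.Δ) (hm : Odd m) (hqm : ¬ q ∣ m)
    {P : ValuationSubring Qb} (hP : P.LiesOverPrime q) {τ : GQ}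
    (hτ : τ ∈ P.inertiaSubgroupIn ℚ)
    (Q : ((W.map (Int.castRingHom ℚ))⁄Qb).Point) (hQ : m • Q = 0) :
    Point.map (W' := W.map (Int.castRingHom ℚ)) τ.toAlgHom Q = Q := by
  have hvm : P.valuation ((m : ℕ) : Qb) = 1 := valuation_natCast_eq_one hq hP hqm
  have hV : ((W.map (Int.castRingHom ℚ))⁄Qb) = (W.map (Int.castRingHom Qb)).toAffine :=
    TorsionLift20.baseChange_eq_map W
  have hint := integralCoeffs W P
  rcases Q with _ | ⟨x, y, h⟩
  · rfl
  · have hvx : P.valuation x ≤ 1 := x_integral_of_nsmul_eq_zero hint h hvm hQ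
    have hvy : P.valuation y ≤ 1 := by
      by_contra hy
      exact absurd (vx_of_vy hint h.1 (not_le.mp hy)) (not_lt.mpr hvx)
    exact inertia_fix_of_unit W hq hqm hP hτ h hQ
      (unit_of_odd_torsion P W hq hP hgood hm hV h hQ hvx hvy)

/-- a power of an element of the inertia group fixes the prime-to-`q` odd torsion. -/
theorem inertia_pow_fix (W : WeierstrassCurve ℤ) {q m : ℕ} (hq : q.Prime)
    (hgood : ¬ (q : ℤ) ∣ W.Δ) (hm : Odd m) (hqm : ¬ q ∣ m)
    {P : ValuationSubring Qb} (hP : P.LiesOverPrime q) {τ : GQ}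
    (hτ : τ ∈ P.inertiaSubgroupIn ℚ) (i : ℕ)
    (Q : ((W.map (Int.castRingHom ℚ))⁄Qb).Point) (hQ : m • Q = 0) :
    Point.map (W' := W.map (Int.castRingHom ℚ)) (τ ^ i).toAlgHom Q = Q :=
  inertia_fix W hq hgood hm hqm hP (Subgroup.pow_mem _ hτ i) Q hQ

/-- **`InertiaCong` at a good prime.** -/
theorem inertiaCong_good (W : WeierstrassCurve ℤ) {q lam : ℕ} (hq : q.Prime)
    (hgood : ¬ (q : ℤ) ∣ W.Δ) (hlam : lam.Prime) (hlam2 : lam ≠ 2) (hne : lam ≠ q) :
    InertiaCong W lam q := by
  classical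
  refine ⟨{lam}, fun n => ?_⟩
  have hmodd : Odd (lam ^ n) := (hlam.odd_of_ne_two hlam2).pow
  have hqm : ¬ q ∣ lam ^ n := fun hd =>
    hne ((Nat.prime_dvd_prime_iff_eq hq hlam).mp (hq.dvd_of_dvd_pow hd)).symm
  have hΔ : (W.map (Int.castRingHom ℚ)).Δ ≠ 0 := by
    rw [WeierstrassCurve.map_Δ, eq_intCast]
    intro h0
    apply hgood
    have : W.Δ = 0 := by exact_mod_cast h0
    rw [this]; exact dvd_zero _
  obtain ⟨K, hKfin, hK⟩ :=
    Fermat.Agent.ES.Q58.CoordField13.coordField (W.map (Int.castRingHom ℚ)) hmodd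
  refine ⟨K, hKfin, fun P hP τ hτ ℓ A φ hℓ hℓT hℓgood hA hφ i hi => ?_⟩
  have hℓlam : ℓ ≠ lam := fun h => hℓT (by rw [h]; exact Finset.mem_singleton_self _)
  -- the full torsion as a finset
  have hfin : {Q : ((W.map (Int.castRingHom ℚ))⁄Qb).Point | lam ^ n • Q = 0}.Finite :=
    (Fermat.Agent.DivPoly.A1Final.torsion_finite_ncard_le
      (W := ((W.map (Int.castRingHom ℚ))⁄Qb)) hmodd
      (Nat.cast_ne_zero.mpr hmodd.pos.ne')).1
  refine Fermat.Agent.ES.Q58.WeakLink25.weakLink W hℓ hlam hlam2 hℓlam hℓgood hA hφ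
    hfin.toFinset (fun Q hQ => ?_) ?_
  · have hQ0 : lam ^ n • Q = 0 := by simpa using hQ
    refine ⟨hQ0, ?_⟩
    rw [hK Q hQ0 φ (τ ^ i) hi]
    exact inertia_pow_fix W hq hgood hmodd hqm hP hτ i Q hQ0
  · have hcard := Fermat.Agent.ES.Q58.CoordField13.card_torsionBy_pow hΔ hlam hlam2 n
    have hset : {Q : ((W.map (Int.castRingHom ℚ))⁄Qb).Point | lam ^ n • Q = 0}
        = (Submodule.torsionBy ℤ ((W.map (Int.castRingHom ℚ))⁄Qb).Point
            ((lam ^ n : ℕ) : ℤ) : Set ((W.map (Int.castRingHom ℚ))⁄Qb).Point) := by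
      ext Q
      simp only [Set.mem_ofPred_eq, SetLike.mem_coe, Submodule.mem_torsionBy_iff, natCast_zsmul]
    rw [← Nat.card_eq_card_finite_toFinset hfin, Nat.card_congr (Equiv.setCongr hset)]
    change lam ^ n ≤ Nat.card (Submodule.torsionBy ℤ ((W.map (Int.castRingHom ℚ))⁄Qb).Point
            ((lam ^ n : ℕ) : ℤ))
    rw [hcard]
    exact Nat.pow_le_pow_right hlam.pos (by omega)

end Main

end Fermat.Agent.ES.Q58.InertiaGood6
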