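/-
Programme Q (S58), Part III-b (helper7): **inertia at a multiplicative prime.**

`W` an integral Weierstrass model with `Δ ≠ 0`, `q` a prime of multiplicative reduction
(`q ∣ Δ`, `q ∤ c₄`), `λ ≠ q` an odd prime, `P` a valuation subring of `ℚ̄` over `q`.

* `exists_lift`: a nonsingular point of the reduction of `W` over the residue field of `P`, killed
  by an odd `m` prime to the residue characteristic, lifts to a point of `W(ℚ̄)` killed by `m` with
  integral coordinates reducing to it (division polynomial + root lifting; no Hensel).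
* `exists_fixed_set`: at least `λⁿ` points of `W(ℚ̄)` killed by `λⁿ` are fixed by the whole inertia
  group of `P` (lifts of the `λⁿ`-torsion of the smooth locus of the nodal fibre,
  `NodeCount15.exists_torsion_node`; fixed by inertia by `S13/Closeness.fixed_of_nsmul_eq_zero`).
* `inertiaCong_of_mult`: `ECIface12.InertiaCong W lam q` (`CoordField13.coordField` +
  `WeakLink25.weakLink`).
-/
import Mathlib
import Fermat.Prelude.Def_FLTPrelim_Modularity
import Fermat.Prelude.Def_FLTPrelim_Ramification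
import Fermat.Prelude.Def_FLTPrelim_GaloisRep
import Fermat.Prelude.Def_EllipticCurve_FrobeniusTrace
import Fermat.Agent.ES.Q58.ECIface12
import Fermat.Agent.ES.Q58.NodeCount15
import Fermat.Agent.ES.Q58.WeakLink25
import Fermat.Agent.ES.Q58.CoordField13
import Fermat.Agent.ES.EC.LiftTorsion29
import Fermat.Agent.ES.EC.TorsionLift20
import Fermat.Agent.S13.Closeness
import Fermat.Agent.S05.Inertia
import Fermat.Agent.DivPoly.A1Final

set_option autoImplicit false

open WeierstrassCurve WeierstrassCurve.Affine Polynomial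

namespace Fermat.Agent.ES.Q58.InertiaMult7

/-! ### 1. The residue field of a valuation subring of an algebraically closed field -/

section Residue

variable {L : Type*} [Field L] (A : ValuationSubring L)

/-- The residue field of a valuation subring of an algebraically closed field is algebraically
closed. -/
theorem isAlgClosed_residueField [IsAlgClosed L] : IsAlgClosed (IsLocalRing.ResidueField A) := by
  apply IsAlgClosed.of_exists_root
  intro p hpm hpirr
  have hsurj : Function.Surjective (IsLocalRing.residue A) := IsLocalRing.residue_surjective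
  have hlift : p ∈ Polynomial.lifts (IsLocalRing.residue A) := by
    obtain ⟨q, hq⟩ := Polynomial.map_surjective _ hsurj p
    exact (Polynomial.mem_lifts _).2 ⟨q, hq⟩
  obtain ⟨q, hq, hqdeg, hqm⟩ := Polynomial.lifts_and_natDegree_eq_and_monic hlift hpm
  have hpdeg : p.natDegree ≠ 0 := by
    intro h0
    have : p = 1 := Polynomial.eq_one_of_monic_natDegree_zero hpm h0
    subst this
    exact not_irreducible_one hpirr
  have hdeg : (q.map (algebraMap A L)).degree ≠ 0 := by
    rw [Polynomial.degree_map_eq_of_injective (FaithfulSMul.algebraMap_injective A L)]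
    intro h0
    apply hpdeg
    rw [← hqdeg]
    exact Polynomial.natDegree_eq_of_degree_eq_some h0
  obtain ⟨x, hx⟩ := IsAlgClosed.exists_root (q.map (algebraMap A L)) hdeg
  have hxint : IsIntegral A x := ⟨q, hqm, by rwa [Polynomial.eval₂_eq_eval_map]⟩
  obtain ⟨a, ha⟩ := (IsIntegrallyClosed.isIntegral_iff (R := A) (K := L)).1 hxint
  refine ⟨IsLocalRing.residue A a, ?_⟩
  have hqa : q.eval a = 0 := by
    apply FaithfulSMul.algebraMap_injective A L
    rw [map_zero, ← Polynomial.eval₂_at_apply, Polynomial.eval₂_eq_eval_map, ha]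
    exact hx
  rw [← hq, Polynomial.eval_map, Polynomial.eval₂_at_apply, hqa, map_zero]

end Residue

/-! ### 2. Lifting a torsion point of the smooth locus of the reduction -/

section Lift

variable {L : Type*} [Field L] [IsAlgClosed L] [DecidableEq L] (A : ValuationSubring L)
  [DecidableEq (IsLocalRing.ResidueField A)]

open Fermat.Agent.DivPoly Fermat.Agent.S13.Closeness Fermat.Agent.ES.EC

/-- **The lift.**  A nonsingular point `(x̃, ỹ)` of the reduction of `W` over the residue field of
`A`, killed by the odd number `m` (a unit of `A`), is the reduction of a point `(x, y)` of `W(L)`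
killed by `m`, with `x, y ∈ A`; one of the partial derivatives at `(x, y)` is a unit of `A`. -/
theorem exists_lift (W : WeierstrassCurve ℤ) (hΔ : ((W.Δ : ℤ) : L) ≠ 0) {m : ℕ} (hm : Odd m)
    (hvm : A.valuation ((m : ℕ) : L) = 1)
    {VL : Affine L} (hVL : VL = (W.map (Int.castRingHom L)).toAffine)
    {V : Affine (IsLocalRing.ResidueField A)}
    (hV : V = (W.map (Int.castRingHom (IsLocalRing.ResidueField A))).toAffine)
    {xt yt : IsLocalRing.ResidueField A} (ht : V.Nonsingular xt yt)
    (hmt : m • Point.some xt yt ht = 0) :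
    ∃ (x y : A) (h : VL.Nonsingular (x : L) (y : L)),
      m • Point.some (x : L) (y : L) h = 0 ∧
      IsLocalRing.residue A x = xt ∧ IsLocalRing.residue A y = yt ∧
      (A.valuation (WX VL (x : L) (y : L)) = 1 ∨ A.valuation (WY VL (x : L) (y : L)) = 1) := by
  subst hV
  subst hVL
  set WA : WeierstrassCurve A := W.map (Int.castRingHom A) with hWA
  have hWAκ : WA.map (IsLocalRing.residue A)
      = W.map (Int.castRingHom (IsLocalRing.ResidueField A)) := by
    rw [hWA, WeierstrassCurve.map_map,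
      show (IsLocalRing.residue A).comp (Int.castRingHom A)
        = Int.castRingHom (IsLocalRing.ResidueField A) from RingHom.ext_int _ _]
  have hWAL : WA.map (algebraMap A L) = W.map (Int.castRingHom L) := by
    rw [hWA, WeierstrassCurve.map_map,
      show (algebraMap A L).comp (Int.castRingHom A) = Int.castRingHom L from
        RingHom.ext_int _ _]
  -- `m` is a unit of `A`
  have hmA : IsUnit ((m : ℕ) : A) := by
    rw [A.valuation_eq_one_iff]
    simpa using hvm
  -- the `x`-coordinate
  set g : A[X] := WA.preΨ' m with hg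
  have hglc : IsUnit g.leadingCoeff := by
    have hm0 : ((m : ℕ) : A) ≠ 0 := hmA.ne_zero
    rw [hg, WeierstrassCurve.leadingCoeff_preΨ' _ hm0, if_neg (Nat.not_even_iff_odd.mpr hm)]
    exact hmA
  have hgκ : g.map (IsLocalRing.residue A)
      = (W.map (Int.castRingHom (IsLocalRing.ResidueField A))).preΨ' m := by
    rw [hg, ← WeierstrassCurve.map_preΨ', hWAκ]
  have hroot : (g.map (IsLocalRing.residue A)).IsRoot xt := by
    rw [hgκ]
    exact (A1Final.nsmul_eq_zero_iff_preΨ' ht hm).mp hmt
  obtain ⟨x, hx, hxt⟩ := LiftTorsion29.exists_root_lift A g hglc xt hroot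
  -- the `y`-coordinate
  set c1 : A := ((W.a₁ : ℤ) : A) * x + ((W.a₃ : ℤ) : A) with hc1
  set c0 : A := x ^ 3 + ((W.a₂ : ℤ) : A) * x ^ 2 + ((W.a₄ : ℤ) : A) * x + ((W.a₆ : ℤ) : A)
    with hc0
  set g2 : A[X] := X ^ 2 + C c1 * X - C c0 with hg2
  have hg2m : g2.Monic := by
    rw [hg2]
    have h1 : (C c1 * X - C c0 : A[X]).degree < ((2 : ℕ) : WithBot ℕ) := by
      apply lt_of_le_of_lt (degree_sub_le _ _)
      rw [max_lt_iff]
      constructor
      · exact lt_of_le_of_lt (degree_C_mul_X_le c1) (by norm_num)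
      · exact lt_of_le_of_lt degree_C_le (by norm_num)
    have : (X ^ 2 + C c1 * X - C c0 : A[X]) = X ^ 2 + (C c1 * X - C c0) := by ring
    rw [this]
    exact monic_X_pow_add h1
  have heqt := (Affine.equation_iff _ _).mp ht.1
  simp only [WeierstrassCurve.map_a₁, WeierstrassCurve.map_a₂, WeierstrassCurve.map_a₃,
    WeierstrassCurve.map_a₄, WeierstrassCurve.map_a₆, eq_intCast] at heqt
  have hroot2 : (g2.map (IsLocalRing.residue A)).IsRoot yt := by
    simp only [hg2, hc1, hc0, IsRoot.def, Polynomial.map_sub, Polynomial.map_add,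
      Polynomial.map_mul, Polynomial.map_pow, Polynomial.map_X, Polynomial.map_C, eval_sub,
      eval_add, eval_mul, eval_pow, eval_X, eval_C, map_add, map_mul, map_pow, map_intCast, hxt,
      Polynomial.map_intCast, eval_intCast]
    linear_combination heqt
  obtain ⟨y, hy, hyt⟩ := LiftTorsion29.exists_root_lift A g2
    (by rw [hg2m.leadingCoeff]; exact isUnit_one) yt hroot2
  -- the lifted point
  set WL : Affine L := (W.map (Int.castRingHom L)).toAffine with hWL
  have hΔL : WL.Δ ≠ 0 := by
    rw [hWL, WeierstrassCurve.map_Δ, eq_intCast]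
    exact hΔ
  have heqL : WL.Equation (x : L) (y : L) := by
    rw [Affine.equation_iff]
    simp only [hWL, WeierstrassCurve.map_a₁, WeierstrassCurve.map_a₂, WeierstrassCurve.map_a₃,
      WeierstrassCurve.map_a₄, WeierstrassCurve.map_a₆, eq_intCast]
    have h0 := congrArg (fun t : A => (t : L)) hy
    simp only [hg2, hc1, hc0, eval_sub, eval_add, eval_mul, eval_pow, eval_X, eval_C] at h0
    push_cast at h0
    linear_combination h0
  have hns : WL.Nonsingular (x : L) (y : L) :=
    (WL.equation_iff_nonsingular_of_Δ_ne_zero hΔL).mp heqL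
  refine ⟨x, y, hns, ?_, hxt, hyt, ?_⟩
  · apply (A1Final.nsmul_eq_zero_iff_preΨ' hns hm).mpr
    have e : WL.preΨ' m = g.map (algebraMap A L) := by
      rw [hg, ← WeierstrassCurve.map_preΨ', hWAL]
    rw [e, eval_map]
    have h0 := congrArg (algebraMap A L) hx
    rw [← Polynomial.eval₂_at_apply, map_zero] at h0
    exact h0
  · -- the reduction is nonsingular
    have hns2 := ((Affine.nonsingular_iff _ _).mp ht).2
    simp only [WeierstrassCurve.map_a₁, WeierstrassCurve.map_a₂, WeierstrassCurve.map_a₃,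
      WeierstrassCurve.map_a₄, eq_intCast] at hns2
    have hval : ∀ t : A, IsLocalRing.residue A t ≠ 0 → A.valuation (t : L) = 1 := by
      intro t ht0
      exact (A.valuation_eq_one_iff t).mp ((IsLocalRing.residue_ne_zero_iff_isUnit t).mp ht0)
    rcases hns2 with h1 | h1
    · left
      set wx : A := ((W.a₁ : ℤ) : A) * y - 3 * x ^ 2 - 2 * ((W.a₂ : ℤ) : A) * x
        - ((W.a₄ : ℤ) : A) with hwx
      have hres : IsLocalRing.residue A wx ≠ 0 := by
        simp only [hwx, map_sub, map_mul, map_pow, map_intCast, map_ofNat, hxt, hyt]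
        intro h0
        apply h1
        linear_combination h0
      have := hval wx hres
      simp only [WX, hWL, WeierstrassCurve.map_a₁, WeierstrassCurve.map_a₂,
        WeierstrassCurve.map_a₄, eq_intCast]
      rw [← this, hwx]
      push_cast
      rfl
    · right
      set wy : A := 2 * y + ((W.a₁ : ℤ) : A) * x + ((W.a₃ : ℤ) : A) with hwy
      have hres : IsLocalRing.residue A wy ≠ 0 := by
        simp only [hwy, map_add, map_mul, map_intCast, map_ofNat, hxt, hyt]
        intro h0
        apply h1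
        linear_combination h0
      have := hval wy hres
      simp only [WY, hWL, WeierstrassCurve.map_a₁, WeierstrassCurve.map_a₃, eq_intCast]
      rw [← this, hwy]
      push_cast
      rfl

end Lift

/-! ### 3. The inertia-fixed points -/

section Fixed

local notation "Qb" => AlgebraicClosure ℚ
local notation "GQ" => (AlgebraicClosure ℚ ≃ₐ[ℚ] AlgebraicClosure ℚ)

open Fermat.Agent.S05.Inertia Fermat.Agent.S05 Fermat.Agent.S13.Closeness Fermat.Agent.ES.EC

/-- **Inertia at a multiplicative prime fixes many torsion points.**  At least `λⁿ` points of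
`W(ℚ̄)` killed by `λⁿ` are fixed by the whole inertia group of `P`. -/
theorem exists_fixed_set (W : WeierstrassCurve ℤ) (hΔ0 : W.Δ ≠ 0) {q : ℕ} (hq : q.Prime)
    (hΔ : (q : ℤ) ∣ W.Δ) (hc₄ : ¬ (q : ℤ) ∣ W.c₄) {lam : ℕ} (hlam : lam.Prime) (hlam2 : lam ≠ 2)
    (hne : lam ≠ q) (n : ℕ) (P : ValuationSubring Qb) (hP : P.LiesOverPrime q) :
    ∃ S : Finset ((W.map (Int.castRingHom ℚ))⁄Qb).Point, lam ^ n ≤ S.card ∧
      ∀ Q ∈ S, lam ^ n • Q = 0 ∧ ∀ τ ∈ P.inertiaSubgroupIn ℚ,
        Point.map (W' := W.map (Int.castRingHom ℚ)) τ.toAlgHom Q = Q := by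
  classical
  have : Fact q.Prime := ⟨hq⟩
  have hmodd : Odd (lam ^ n) := (hlam.odd_of_ne_two hlam2).pow
  have hqm : ¬ q ∣ lam ^ n := fun hd =>
    hne ((Nat.prime_dvd_prime_iff_eq hq hlam).mp (hq.dvd_of_dvd_pow hd)).symm
  have hvm : P.valuation ((lam ^ n : ℕ) : Qb) = 1 := valuation_natCast_eq_one hq hP hqm
  -- the residue field
  have : CharP (IsLocalRing.ResidueField P) q := LiftTorsion29.charP_residueField P hq hP
  let _ : Algebra (ZMod q) (IsLocalRing.ResidueField P) := ZMod.algebra _ q
  have : IsAlgClosed (IsLocalRing.ResidueField P) := isAlgClosed_residueField P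
  obtain ⟨St, hcard, hSt⟩ := NodeCount15.exists_torsion_node W hΔ hc₄ hlam hne n
    (IsLocalRing.ResidueField P)
  -- the two curves
  have hVκ : ((W.reductionMod q)⁄(IsLocalRing.ResidueField P)).toAffine
      = (W.map (Int.castRingHom (IsLocalRing.ResidueField P))).toAffine := by
    change (W.map (Int.castRingHom (ZMod q))).map (algebraMap (ZMod q) (IsLocalRing.ResidueField P))
      = W.map (Int.castRingHom (IsLocalRing.ResidueField P))
    rw [WeierstrassCurve.map_map,
      show (algebraMap (ZMod q) (IsLocalRing.ResidueField P)).comp (Int.castRingHom (ZMod q))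
        = Int.castRingHom (IsLocalRing.ResidueField P) from RingHom.ext_int _ _]
  have hVL : ((W.map (Int.castRingHom ℚ))⁄Qb) = (W.map (Int.castRingHom Qb)).toAffine :=
    TorsionLift20.baseChange_eq_map W
  have hΔL : ((W.Δ : ℤ) : Qb) ≠ 0 := Int.cast_ne_zero.mpr hΔ0
  have hint : Kernel.IntegralCoeffs P.valuation ((W.map (Int.castRingHom ℚ))⁄Qb) := by
    rw [hVL]
    refine ⟨?_, ?_, ?_, ?_, ?_⟩
    · rw [WeierstrassCurve.map_a₁, eq_intCast]; exact valuation_intCast_le_one _
    · rw [WeierstrassCurve.map_a₂, eq_intCast]; exact valuation_intCast_le_one _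
    · rw [WeierstrassCurve.map_a₃, eq_intCast]; exact valuation_intCast_le_one _
    · rw [WeierstrassCurve.map_a₄, eq_intCast]; exact valuation_intCast_le_one _
    · rw [WeierstrassCurve.map_a₆, eq_intCast]; exact valuation_intCast_le_one _
  -- the lift of one point
  have key : ∀ R ∈ St, ∃ Q : ((W.map (Int.castRingHom ℚ))⁄Qb).Point, lam ^ n • Q = 0 ∧
      (∀ τ ∈ P.inertiaSubgroupIn ℚ,
        Point.map (W' := W.map (Int.castRingHom ℚ)) τ.toAlgHom Q = Q) ∧
      ((R = 0 ∧ Q = 0) ∨
        ∃ (xt yt : IsLocalRing.ResidueField P)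
          (ht : ((W.reductionMod q)⁄(IsLocalRing.ResidueField P)).toAffine.Nonsingular xt yt)
          (x y : P) (h : ((W.map (Int.castRingHom ℚ))⁄Qb).Nonsingular (x : Qb) (y : Qb)),
          R = Point.some xt yt ht ∧ Q = Point.some (x : Qb) (y : Qb) h ∧
          IsLocalRing.residue P x = xt ∧ IsLocalRing.residue P y = yt) := by
    intro R hR
    have hR0 := hSt R hR
    rcases R with _ | ⟨xt, yt, ht⟩
    · exact ⟨0, nsmul_zero _, fun τ _ => rfl, Or.inl ⟨rfl, rfl⟩⟩
    · obtain ⟨x, y, h, hQ0, hxt, hyt, hns⟩ :=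
        exists_lift P W hΔL hmodd hvm hVL hVκ ht hR0
      refine ⟨Point.some (x : Qb) (y : Qb) h, hQ0, ?_,
        Or.inr ⟨xt, yt, ht, x, y, h, rfl, rfl, hxt, hyt⟩⟩
      intro τ hτ
      have h' : ((W.map (Int.castRingHom ℚ))⁄Qb).Nonsingular (τ.toAlgHom (x : Qb))
          (τ.toAlgHom (y : Qb)) :=
        (WeierstrassCurve.Affine.baseChange_nonsingular (W.map (Int.castRingHom ℚ))
          (f := τ.toAlgHom) τ.toAlgHom.injective (x : Qb) (y : Qb)).mpr h
      have hmap : Point.map (W' := W.map (Int.castRingHom ℚ)) τ.toAlgHom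
          (Point.some (x : Qb) (y : Qb) h)
          = Point.some (τ.toAlgHom (x : Qb)) (τ.toAlgHom (y : Qb)) h' := rfl
      have ht' : lam ^ n • Point.some (τ.toAlgHom (x : Qb)) (τ.toAlgHom (y : Qb)) h' = 0 := by
        rw [← hmap, ← map_nsmul, hQ0, map_zero]
      obtain ⟨e1, e2⟩ := fixed_of_nsmul_eq_zero hint (τ.toAlgHom : Qb →+* Qb)
        (fun a ha => valuation_sub_lt_one_rat hτ ha) hvm h h' hQ0 ht' hns
      rw [hmap, Point.some.injEq]
      exact ⟨e1, e2⟩
  choose! lift hlift using key
  have hinj : Set.InjOn lift St := by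
    intro R hR R' hR' hRR'
    obtain ⟨-, -, hc⟩ := hlift R hR
    obtain ⟨-, -, hc'⟩ := hlift R' hR'
    rcases hc with ⟨hR0, hQ0⟩ | ⟨xt, yt, ht, x, y, h, hRe, hQe, hxt, hyt⟩
    · rcases hc' with ⟨hR0', -⟩ | ⟨xt', yt', ht', x', y', h₂, -, hQe', -, -⟩
      · rw [hR0, hR0']
      · rw [hRR', hQe'] at hQ0
        exact absurd hQ0 (Point.some_ne_zero _)
    · rcases hc' with ⟨-, hQ0'⟩ | ⟨xt', yt', ht', x', y', h₂, hRe', hQe', hxt', hyt'⟩
      · rw [← hRR', hQe] at hQ0'
        exact absurd hQ0' (Point.some_ne_zero _)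
      · rw [hQe, hQe', Point.some.injEq] at hRR'
        obtain ⟨hxx, hyy⟩ := hRR'
        have hx : x = x' := Subtype.ext hxx
        have hy : y = y' := Subtype.ext hyy
        rw [hRe, hRe', Point.some.injEq, ← hxt, ← hyt, ← hxt', ← hyt', hx, hy]
        exact ⟨rfl, rfl⟩
  refine ⟨St.image lift, ?_, ?_⟩
  · rw [Finset.card_image_of_injOn hinj]
    exact hcard
  · intro Q hQ
    obtain ⟨R, hR, rfl⟩ := Finset.mem_image.mp hQ
    obtain ⟨h1, h2, -⟩ := hlift R hR
    exact ⟨h1, h2⟩

/-- **(E-ii) at a multiplicative prime.** -/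
theorem inertiaCong_of_mult (W : WeierstrassCurve ℤ) (hΔ0 : W.Δ ≠ 0) {q : ℕ} (hq : q.Prime)
    (hΔ : (q : ℤ) ∣ W.Δ) (hc₄ : ¬ (q : ℤ) ∣ W.c₄) {lam : ℕ} (hlam : lam.Prime) (hlam2 : lam ≠ 2)
    (hne : lam ≠ q) : ECIface12.InertiaCong W lam q := by
  refine ⟨{lam}, fun n => ?_⟩
  obtain ⟨K, hKfin, hK⟩ := CoordField13.coordField (W.map (Int.castRingHom ℚ)) (m := lam ^ n)
    (hlam.odd_of_ne_two hlam2).pow
  refine ⟨K, hKfin, ?_⟩
  intro P hP τ hτ ℓ A φ hℓ hℓT hgood hA hφ i hi
  obtain ⟨S, hcard, hS⟩ := exists_fixed_set W hΔ0 hq hΔ hc₄ hlam hlam2 hne n P hP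
  have hℓlam : ℓ ≠ lam := by simpa using hℓT
  refine WeakLink25.weakLink W hℓ hlam hlam2 hℓlam hgood hA hφ S ?_ hcard
  intro Q hQ
  obtain ⟨h0, hfix⟩ := hS Q hQ
  refine ⟨h0, ?_⟩
  rw [hK Q h0 φ (τ ^ i) hi]
  exact hfix (τ ^ i) (Subgroup.pow_mem _ hτ i)

end Fixed

end Fermat.Agent.ES.Q58.InertiaMult7
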