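/-
Programme Q (S58), Part III, assembly (helper7): **`ECFacts.inertia` for a semistable model.**

`W` a semistable integral Weierstrass model with `Δ ≠ 0`.  Every prime `q` is either good
(`InertiaGood6.inertiaCong_good`, helper6) or multiplicative (`InertiaMult7.inertiaCong_of_mult`),
so `InertiaCong W lam q` holds for every prime `lam ∉ {2, q}`.

* `inertia_all` : the field `ECIface12.ECFacts.inertia`;
* `ecFacts_of_trace` : `ECFacts W` from the trace half (E-iii) alone.
-/
import Mathlib
import Fermat.Agent.ES.Q58.ECIface12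
import Fermat.Agent.ES.Q58.InertiaGood6
import Fermat.Agent.ES.Q58.InertiaMult7

set_option autoImplicit false

open WeierstrassCurve

namespace Fermat.Agent.ES.Q58.InertiaAll7

open Fermat.Agent.ES.Q58.ECIface12

/-- **(E-ii) for a semistable model**: the field `ECFacts.inertia`. -/
theorem inertia_all (W : WeierstrassCurve ℤ) (hΔ0 : W.Δ ≠ 0) (hss : W.IsSemistableModel) :
    ∀ q : ℕ, q.Prime → ∃ T : Finset ℕ, ∀ lam : ℕ, lam.Prime → lam ∉ T →
      InertiaCong W lam q := by
  intro q hq
  refine ⟨{2, q}, fun lam hlam hT => ?_⟩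
  have hlam2 : lam ≠ 2 := fun h => hT (by rw [h]; exact Finset.mem_insert_self _ _)
  have hne : lam ≠ q := fun h =>
    hT (by rw [h]; exact Finset.mem_insert_of_mem (Finset.mem_singleton_self _))
  by_cases hbad : (q : ℤ) ∣ W.Δ
  · exact Fermat.Agent.ES.Q58.InertiaMult7.inertiaCong_of_mult W hΔ0 hq hbad (hss q hq hbad)
      hlam hlam2 hne
  · exact Fermat.Agent.ES.Q58.InertiaGood6.inertiaCong_good W hq hbad hlam hlam2 hne

/-- **`ECFacts W` from the trace half.** -/
theorem ecFacts_of_trace (W : WeierstrassCurve ℤ) (hΔ0 : W.Δ ≠ 0) (hss : W.IsSemistableModel)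
    (htrace : ∀ r : ℕ, r.Prime → W.IsGoodPrimeFor r → ∀ T : Finset ℕ,
      ∃ lam : ℕ, lam.Prime ∧ lam ∉ T ∧ TraceCong W r lam) : ECFacts W :=
  ⟨inertia_all W hΔ0 hss, htrace⟩

end Fermat.Agent.ES.Q58.InertiaAll7
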