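/-
Programme S58 (elliptic Eichler–Shimura relation), PART I, brick I-6 (helper3): **Manin's lemma**.

`k = ZMod ℓ`, `W : WeierstrassCurve.Affine k`, `Δ ≠ 0`, `K = W.FunctionField`, `P₀` the generic point,
`Frob = Point.map (frobAlg ℓ K)`, `S = P₀ − Frob P₀` (`sPoint`).  Assume `S = (xS, yS)` is an affine point
with `xS` transcendental over `k`; `τ_S = substHom W _ _ : K →ₐ[k] K` (`P₀ ↦ S`), `K_S = τ_S.fieldRange`.

* `mem_range_algebraMap_of_pow_eq` : `z ^ ℓ = z ⟹ z ∈ k`;
* `exists_of_frob_fixed` : a point of `W(L)` fixed by Frobenius comes from `W(k)`; `frob_map_ofId`;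
* `map_sPoint` : `f S = f P₀ − Frob (f P₀)` for every `k`-embedding `f : K → Ω`;
* `exists_translation` : for `D₀ ∈ W(k)` there is `θ : K →ₐ[k] K` with `θ P₀ = P₀ + D₀`
  (translation by a rational point), and it fixes `K_S` pointwise (`comp_substHom_of_translation`);
* `exists_rational_of_emb` : a `K_S`-embedding `σ : K → Ω` (`Ω` any field extension of `K`) has
  `σ P₀ = P₀ + D₀` for some `D₀ ∈ W(k)`; `exists_emb_of_rational` : every `D₀` arises;
* **`card_emb`** : `Nat.card (K →ₐ[K_S] Ω) = Nat.card (W⁄k).Point`;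
* **`finSepDegree_eq_card`** : `Field.finSepDegree K_S K = Nat.card W.toAffine.Point`;
* **`ht_eq_card`** : if moreover `K / K_S` is separable and `xS = U(x)/V(x)` with `U, V` coprime then
  `ht U V = Nat.card W.toAffine.Point` (with `FieldDeg3`).
-/
import Fermat.Agent.ES.Q58.SubstEmb17
import Fermat.Agent.ES.Q58.FrobAlg2
import Fermat.Agent.ES.Q58.FieldDeg3

set_option autoImplicit false

namespace Fermat.Agent.ES.Q58.Manin3

open WeierstrassCurve WeierstrassCurve.Affine Polynomial
open Fermat.Agent.ES.Q58.IotaDescent23 Fermat.Agent.ES.Q58.SubstEmb17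
open Fermat.Agent.ES.Q58.FrobAlg2

variable (ℓ : ℕ) [Fact ℓ.Prime]

/-- in a field over `ZMod ℓ`, the elements fixed by `z ↦ z ^ ℓ` are the constants. -/
theorem mem_range_algebraMap_of_pow_eq {L : Type*} [Field L] [Algebra (ZMod ℓ) L] {z : L}
    (hz : z ^ ℓ = z) : ∃ a : ZMod ℓ, algebraMap (ZMod ℓ) L a = z := by
  have := charP_of_algebra ℓ L
  have h1 : z ∈ (⊥ : Subfield L) := (Subfield.mem_bot_iff_pow_eq_self L ℓ).mpr hz
  rw [← ZMod.fieldRange_castHom_eq_bot ℓ] at h1
  obtain ⟨a, ha⟩ := h1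
  refine ⟨a, ?_⟩
  rw [← ha]
  exact congrArg (fun f : ZMod ℓ →+* L => f a) (Subsingleton.elim _ _)

section Points

variable {L : Type*} [Field L] [Algebra (ZMod ℓ) L] [DecidableEq L] (W : Affine (ZMod ℓ))

/-- **Frobenius-fixed points are rational**: a point of `W(L)` fixed by the `ℓ`-Frobenius comes from
`W(𝔽_ℓ)`. -/
theorem exists_of_frob_fixed (D : (W⁄L).Point)
    (hD : Point.map (W' := W) (frobAlg ℓ L) D = D) :
    ∃ D₀ : (W⁄(ZMod ℓ)).Point, Point.map (W' := W) (Algebra.ofId (ZMod ℓ) L) D₀ = D := by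
  cases D with
  | zero => exact ⟨0, rfl⟩
  | some x y h =>
    rw [Point.map_some] at hD
    have hx : x ^ ℓ = x := (Point.some.inj hD).1
    have hy : y ^ ℓ = y := (Point.some.inj hD).2
    obtain ⟨x₀, rfl⟩ := mem_range_algebraMap_of_pow_eq ℓ hx
    obtain ⟨y₀, rfl⟩ := mem_range_algebraMap_of_pow_eq ℓ hy
    have h₀ : (W⁄(ZMod ℓ)).Nonsingular x₀ y₀ :=
      (W.baseChange_nonsingular (Algebra.ofId (ZMod ℓ) L).injective x₀ y₀).mp h
    exact ⟨Point.some x₀ y₀ h₀, rfl⟩

/-- rational points are Frobenius-fixed. -/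
theorem frob_map_ofId (D₀ : (W⁄(ZMod ℓ)).Point) :
    Point.map (W' := W) (frobAlg ℓ L) (Point.map (W' := W) (Algebra.ofId (ZMod ℓ) L) D₀) =
      Point.map (W' := W) (Algebra.ofId (ZMod ℓ) L) D₀ := by
  rw [Point.map_map]
  have : (frobAlg ℓ L).comp (Algebra.ofId (ZMod ℓ) L) = Algebra.ofId (ZMod ℓ) L :=
    Subsingleton.elim _ _
  rw [this]

end Points

section Manin

variable (W : Affine (ZMod ℓ)) (hΔ : W.Δ ≠ 0) [DecidableEq W.FunctionField]

/-- the point `S = P₀ − Frob P₀` of `W(K)`. -/
noncomputable def sPoint : (W⁄W.FunctionField).Point :=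
  genericPoint W hΔ - Point.map (W' := W) (frobAlg ℓ W.FunctionField) (genericPoint W hΔ)

section

variable {Ω : Type*} [Field Ω] [Algebra (ZMod ℓ) Ω] [DecidableEq Ω]

/-- `f (P₀ − Frob P₀) = f P₀ − Frob (f P₀)` for every `k`-embedding `f` of `K`. -/
theorem map_sPoint (f : W.FunctionField →ₐ[ZMod ℓ] Ω) :
    Point.map (W' := W) f (sPoint ℓ W hΔ) =
      Point.map (W' := W) f (genericPoint W hΔ) -
        Point.map (W' := W) (frobAlg ℓ Ω) (Point.map (W' := W) f (genericPoint W hΔ)) := by
  rw [sPoint, map_sub, pointMap_frobAlg_comm]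

/-- two `k`-embeddings of `K` agreeing on the generic point are equal. -/
theorem algHom_ext_genericPoint {f g : W.FunctionField →ₐ[ZMod ℓ] Ω}
    (h : Point.map (W' := W) f (genericPoint W hΔ) = Point.map (W' := W) g (genericPoint W hΔ)) :
    f = g := by
  rw [IotaDescent23.genericPoint, Point.map_some, Point.map_some] at h
  exact algHom_ext W (Point.some.inj h).1 (Point.some.inj h).2

end

/-- the generic point is not an algebraic point. -/
theorem genericPoint_not_mem_algPoints :
    genericPoint W hΔ ∉ algPoints W W.FunctionField := by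
  intro h
  rw [IotaDescent23.genericPoint, some_mem_algPoints_iff] at h
  exact transcendental_xK W h

/-- **translates of the generic point by rational points** are affine points with transcendental
`x`-coordinate. -/
theorem exists_translate (D₀ : (W⁄(ZMod ℓ)).Point) :
    ∃ (u v : W.FunctionField) (h : (W⁄W.FunctionField).Nonsingular u v),
      genericPoint W hΔ + Point.map (W' := W) (Algebra.ofId (ZMod ℓ) W.FunctionField) D₀ =
        Point.some u v h ∧ Transcendental (ZMod ℓ) u := by
  have hT : Point.map (W' := W) (Algebra.ofId (ZMod ℓ) W.FunctionField) D₀ ∈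
      algPoints W W.FunctionField := map_mem_algPoints W _ D₀
  cases hR : genericPoint W hΔ +
      Point.map (W' := W) (Algebra.ofId (ZMod ℓ) W.FunctionField) D₀ with
  | zero =>
    exfalso
    apply genericPoint_not_mem_algPoints ℓ W hΔ
    have : genericPoint W hΔ =
        -Point.map (W' := W) (Algebra.ofId (ZMod ℓ) W.FunctionField) D₀ :=
      eq_neg_of_add_eq_zero_left hR
    rw [this]
    exact neg_mem hT
  | some u v h =>
    exact ⟨u, v, h, rfl, transcendental_of_genericPoint_add W hΔ hT h hR⟩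

/-- **the translation by a rational point**, as a `k`-endomorphism of `K`. -/
theorem exists_translation (D₀ : (W⁄(ZMod ℓ)).Point) :
    ∃ θ : W.FunctionField →ₐ[ZMod ℓ] W.FunctionField,
      Point.map (W' := W) θ (genericPoint W hΔ) =
        genericPoint W hΔ + Point.map (W' := W) (Algebra.ofId (ZMod ℓ) W.FunctionField) D₀ := by
  obtain ⟨u, v, h, hR, hu⟩ := exists_translate ℓ W hΔ D₀
  exact ⟨substHom W h.1 hu, by rw [map_substHom_genericPoint W hΔ h hu, hR]⟩

/-- a `k`-endomorphism of `K` translating the generic point by a rational point fixes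
`S = P₀ − Frob P₀`. -/
theorem map_sPoint_of_translation (θ : W.FunctionField →ₐ[ZMod ℓ] W.FunctionField)
    (D₀ : (W⁄(ZMod ℓ)).Point)
    (hθ : Point.map (W' := W) θ (genericPoint W hΔ) =
      genericPoint W hΔ + Point.map (W' := W) (Algebra.ofId (ZMod ℓ) W.FunctionField) D₀) :
    Point.map (W' := W) θ (sPoint ℓ W hΔ) = sPoint ℓ W hΔ := by
  rw [map_sPoint, hθ, map_add, frob_map_ofId, sPoint]
  abel

variable {xS yS : W.FunctionField} (hns : (W⁄W.FunctionField).Nonsingular xS yS)
  (hX : Transcendental (ZMod ℓ) xS)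

/-- `τ_S P₀ = S`. -/
theorem map_substHom_eq_sPoint (hS : sPoint ℓ W hΔ = Point.some xS yS hns) :
    Point.map (W' := W) (substHom W hns.1 hX) (genericPoint W hΔ) = sPoint ℓ W hΔ := by
  rw [hS]
  exact map_substHom_genericPoint W hΔ hns hX

/-- … hence a translation by a rational point fixes `K_S = τ_S K` pointwise. -/
theorem comp_substHom_of_translation (hS : sPoint ℓ W hΔ = Point.some xS yS hns)
    (θ : W.FunctionField →ₐ[ZMod ℓ] W.FunctionField)
    (D₀ : (W⁄(ZMod ℓ)).Point)
    (hθ : Point.map (W' := W) θ (genericPoint W hΔ) =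
      genericPoint W hΔ + Point.map (W' := W) (Algebra.ofId (ZMod ℓ) W.FunctionField) D₀) :
    θ.comp (substHom W hns.1 hX) = substHom W hns.1 hX := by
  apply algHom_ext_genericPoint ℓ W hΔ
  rw [← Point.map_map, map_substHom_eq_sPoint ℓ W hΔ hns hX hS,
    map_sPoint_of_translation ℓ W hΔ θ D₀ hθ]

/-! ### embeddings of `K` over `K_S` into an extension `Ω` of `K` -/

variable {Ω : Type*} [Field Ω] [Algebra (ZMod ℓ) Ω] [Algebra W.FunctionField Ω]
  [IsScalarTower (ZMod ℓ) W.FunctionField Ω] [DecidableEq Ω]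

omit [DecidableEq W.FunctionField] [DecidableEq Ω] in
/-- a `K_S`-embedding of `K` into `Ω`, as a `k`-embedding, agrees with the inclusion on `τ_S K`. -/
theorem restrictScalars_comp_substHom
    (σ : W.FunctionField →ₐ[(substHom W hns.1 hX).fieldRange] Ω) :
    (σ.restrictScalars (ZMod ℓ)).comp (substHom W hns.1 hX) =
      (IsScalarTower.toAlgHom (ZMod ℓ) W.FunctionField Ω).comp (substHom W hns.1 hX) := by
  refine AlgHom.ext fun z => ?_
  have h1 := σ.commutes ⟨substHom W hns.1 hX z, z, rfl⟩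
  rw [IsScalarTower.algebraMap_apply (substHom W hns.1 hX).fieldRange W.FunctionField Ω] at h1
  exact h1

/-- **Manin's lemma, first half**: a `K_S`-embedding `σ` of `K` into `Ω` moves the generic point by a
rational point. -/
theorem exists_rational_of_emb (hS : sPoint ℓ W hΔ = Point.some xS yS hns)
    (σ : W.FunctionField →ₐ[(substHom W hns.1 hX).fieldRange] Ω) :
    ∃ D₀ : (W⁄(ZMod ℓ)).Point,
      Point.map (W' := W) (σ.restrictScalars (ZMod ℓ)) (genericPoint W hΔ) =
        Point.map (W' := W) (IsScalarTower.toAlgHom (ZMod ℓ) W.FunctionField Ω)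
            (genericPoint W hΔ) +
          Point.map (W' := W) (Algebra.ofId (ZMod ℓ) Ω) D₀ := by
  set j := IsScalarTower.toAlgHom (ZMod ℓ) W.FunctionField Ω with hj
  set σ' := σ.restrictScalars (ZMod ℓ) with hσ'
  have hτ := map_substHom_eq_sPoint ℓ W hΔ hns hX hS
  have hB : Point.map (W' := W) σ' (sPoint ℓ W hΔ) = Point.map (W' := W) j (sPoint ℓ W hΔ) := by
    rw [← hτ, Point.map_map, Point.map_map, hσ', restrictScalars_comp_substHom ℓ W hns hX σ]
  rw [map_sPoint, map_sPoint] at hB
  obtain ⟨D₀, hD₀⟩ := exists_of_frob_fixed ℓ W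
    (Point.map (W' := W) σ' (genericPoint W hΔ) - Point.map (W' := W) j (genericPoint W hΔ))
    (by
      rw [map_sub]
      have := hB
      rw [sub_eq_sub_iff_add_eq_add] at this
      rw [sub_eq_sub_iff_add_eq_add, add_comm, ← this, add_comm])
  refine ⟨D₀, ?_⟩
  rw [hD₀]
  abel

/-- **Manin's lemma, second half**: every rational point arises. -/
theorem exists_emb_of_rational (hS : sPoint ℓ W hΔ = Point.some xS yS hns)
    (D₀ : (W⁄(ZMod ℓ)).Point) :
    ∃ σ : W.FunctionField →ₐ[(substHom W hns.1 hX).fieldRange] Ω,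
      Point.map (W' := W) (σ.restrictScalars (ZMod ℓ)) (genericPoint W hΔ) =
        Point.map (W' := W) (IsScalarTower.toAlgHom (ZMod ℓ) W.FunctionField Ω)
            (genericPoint W hΔ) +
          Point.map (W' := W) (Algebra.ofId (ZMod ℓ) Ω) D₀ := by
  obtain ⟨θ, hθ⟩ := exists_translation ℓ W hΔ D₀
  have hfix := comp_substHom_of_translation ℓ W hΔ hns hX hS θ D₀ hθ
  let σ : W.FunctionField →ₐ[(substHom W hns.1 hX).fieldRange] Ω :=
    { ((IsScalarTower.toAlgHom (ZMod ℓ) W.FunctionField Ω).comp θ).toRingHom with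
      commutes' := by
        rintro ⟨_, w, rfl⟩
        rw [IsScalarTower.algebraMap_apply (substHom W hns.1 hX).fieldRange W.FunctionField Ω]
        show algebraMap W.FunctionField Ω (θ (substHom W hns.1 hX w)) =
          algebraMap W.FunctionField Ω (substHom W hns.1 hX w)
        rw [← AlgHom.comp_apply, hfix] }
  refine ⟨σ, ?_⟩
  have hσ : σ.restrictScalars (ZMod ℓ) =
      (IsScalarTower.toAlgHom (ZMod ℓ) W.FunctionField Ω).comp θ :=
    AlgHom.ext fun z => rfl
  have hof : (IsScalarTower.toAlgHom (ZMod ℓ) W.FunctionField Ω).comp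
      (Algebra.ofId (ZMod ℓ) W.FunctionField) = Algebra.ofId (ZMod ℓ) Ω := Subsingleton.elim _ _
  rw [hσ, ← Point.map_map, hθ, map_add, Point.map_map, hof]

/-- **Manin's lemma**: the `K_S`-embeddings of `K` into `Ω ⊇ K` are in bijection with `W(𝔽_ℓ)`. -/
theorem card_emb (hS : sPoint ℓ W hΔ = Point.some xS yS hns) :
    Nat.card (W.FunctionField →ₐ[(substHom W hns.1 hX).fieldRange] Ω) =
      Nat.card (W⁄(ZMod ℓ)).Point := by
  classical
  let f : (W.FunctionField →ₐ[(substHom W hns.1 hX).fieldRange] Ω) → (W⁄(ZMod ℓ)).Point :=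
    fun σ => Classical.choose (exists_rational_of_emb ℓ W hΔ hns hX hS σ)
  have hf : ∀ σ, Point.map (W' := W) (σ.restrictScalars (ZMod ℓ)) (genericPoint W hΔ) =
      Point.map (W' := W) (IsScalarTower.toAlgHom (ZMod ℓ) W.FunctionField Ω)
          (genericPoint W hΔ) +
        Point.map (W' := W) (Algebra.ofId (ZMod ℓ) Ω) (f σ) :=
    fun σ => Classical.choose_spec (exists_rational_of_emb ℓ W hΔ hns hX hS σ)
  refine Nat.card_eq_of_bijective f ⟨?_, ?_⟩
  · intro σ₁ σ₂ h12
    have h1 := hf σ₁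
    rw [h12, ← hf σ₂] at h1
    have h2 := algHom_ext_genericPoint ℓ W hΔ h1
    exact AlgHom.restrictScalars_injective (ZMod ℓ) h2
  · intro D₀
    obtain ⟨σ, hσ⟩ := exists_emb_of_rational (Ω := Ω) ℓ W hΔ hns hX hS D₀
    refine ⟨σ, ?_⟩
    have h1 := hf σ
    rw [hσ] at h1
    exact (Point.map_injective (W' := W) (Algebra.ofId (ZMod ℓ) Ω) (add_left_cancel h1)).symm

omit [DecidableEq W.FunctionField] [Fact ℓ.Prime] in
/-- the base change of `W` to its own base field is `W`. -/
theorem baseChange_self : (W⁄(ZMod ℓ)) = W := W.map_id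

omit [DecidableEq W.FunctionField] [Fact ℓ.Prime] in
theorem card_baseChange_self : Nat.card (W⁄(ZMod ℓ)).Point = Nat.card W.Point := by
  rw [baseChange_self]

/-- **Manin's lemma**: the separable degree of `K` over `K_S = τ_S K` is `#W(𝔽_ℓ)`. -/
theorem finSepDegree_eq_card (hS : sPoint ℓ W hΔ = Point.some xS yS hns) :
    Field.finSepDegree (substHom W hns.1 hX).fieldRange W.FunctionField = Nat.card W.Point := by
  classical
  rw [← card_baseChange_self]
  exact card_emb ℓ W hΔ hns hX hS (Ω := AlgebraicClosure W.FunctionField)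

/-- **Manin's lemma, degree form**: if `K / K_S` is separable and `xS = U(x)/V(x)` with `U, V`
coprime, then `ht U V = #W(𝔽_ℓ)`. -/
theorem ht_eq_card (hS : sPoint ℓ W hΔ = Point.some xS yS hns)
    [Algebra.IsSeparable (substHom W hns.1 hX).fieldRange W.FunctionField]
    {U V : (ZMod ℓ)[X]} (hUV : IsCoprime U V)
    (hx : xS * algebraMap (ZMod ℓ)[X] W.FunctionField V =
      algebraMap (ZMod ℓ)[X] W.FunctionField U) :
    Fermat.Agent.ES.Q58.PLPoly2.ht U V = Nat.card W.Point := by
  rw [← Fermat.Agent.ES.Q58.FieldDeg3.finrank_fieldRange_substHom W hns.1 hX hUV hx,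
    ← finSepDegree_eq_card ℓ W hΔ hns hX hS, Field.finSepDegree_eq_finrank_of_isSeparable]

end Manin

end Fermat.Agent.ES.Q58.Manin3
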